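import Fermat.Agent.S20.Interface2

/-! CORE-CardLe: a free basis has at most index-many elements. -/

set_option autoImplicit false

open UpperHalfPlane ModularForm Matrix.SpecialLinearGroup CongruenceSubgroup Filter Topology
open scoped MatrixGroups Manifold ModularForm Real

namespace Fermat.Agent.S20

noncomputable section

namespace CardLe

variable {Γ : Subgroup SL(2, ℤ)}

/-- The translates of a `Γ`-invariant function are permuted by `z ↦ z + 1`. -/
theorem tr_vadd_one {k : ℤ} {f : ℍ → ℂ} (hf : ∀ γ ∈ Γ, f ∣[k] γ = f) (q : SL(2, ℤ) ⧸ Γ) (z : ℍ) :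
    tr k f q ((1 : ℝ) +ᵥ z) = tr k f ((ModularGroup.T)⁻¹ • q) z := by
  have h1 : ((1 : ℝ) +ᵥ z) = ModularGroup.T • z := (UpperHalfPlane.modular_T_smul z).symm
  rw [h1, tr_smul_apply hf]
  have h2 : denom (ModularGroup.T : SL(2, ℤ)) z = 1 := by
    simp [denom, ModularGroup.coe_T]
  rw [h2]
  simp

/-- The vector of translates of a modular form is an element of `VV`. -/
theorem vec_mem_VV {k : ℤ} {f : ℍ → ℂ} (hf : IsMF Γ k f) :
    (fun z q => tr k f q z) ∈
      VV (SL(2, ℤ) ⧸ Γ) (MulAction.toPerm ((ModularGroup.T)⁻¹ : SL(2, ℤ))) :=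
  ⟨fun q => hf.holo_tr q, fun q => hf.bdd_tr q, fun z q => tr_vadd_one hf.inv q z⟩

end CardLe

open CardLe in
theorem card_le (hR : Stmt_Rinf) (hL : Stmt_leadingTerm) : Stmt_card_le := by
  classical
  intro Γ _ J k F hF hev
  let _ : Fintype (SL(2, ℤ) ⧸ Γ) := Fintype.ofFinite _
  obtain ⟨lam, hlam⟩ := hL (SL(2, ℤ) ⧸ Γ) (MulAction.toPerm ((ModularGroup.T)⁻¹ : SL(2, ℤ)))
  set v : J → VV (SL(2, ℤ) ⧸ Γ) (MulAction.toPerm ((ModularGroup.T)⁻¹ : SL(2, ℤ))) :=
    fun j => ⟨fun z q => tr (k j) (F j) q z, vec_mem_VV (hF.isMF j)⟩ with hv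
  have hli : LinearIndependent ℂ (fun j => lam (v j)) := by
    rw [linearIndependent_iff]
    intro c hc
    apply hR Γ J k F hF hev c
    intro q
    have h1 : lam (c.sum fun j a => a • v j) = 0 := by
      rw [← hc, Finsupp.linearCombination_apply, map_finsuppSum]
      simp
    have h2 := hlam _ h1 q
    convert h2 using 2 with z
    simp [Finsupp.sum, hv]
  have hfin : Finite J := hli.finite
  refine ⟨hfin, ?_⟩
  let _ : Fintype J := Fintype.ofFinite J
  have := hli.fintype_card_le_finrank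
  rw [Module.finrank_fintype_fun_eq_card] at this
  rwa [Nat.card_eq_fintype_card, Nat.card_eq_fintype_card]

end

end Fermat.Agent.S20
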