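import Fermat.Agent.S20.Structure
import Fermat.Agent.S21.Interface

set_option autoImplicit false

open UpperHalfPlane ModularForm Matrix.SpecialLinearGroup CongruenceSubgroup Filter Topology
open scoped MatrixGroups Manifold ModularForm Real

namespace Fermat.Agent.S20

noncomputable section

theorem S_smul_I : ModularGroup.S • (UpperHalfPlane.I) = UpperHalfPlane.I := by
  rw [UpperHalfPlane.ext_iff, modular_S_smul, UpperHalfPlane.coe_mk]
  simp [Complex.inv_I]

theorem ST_smul_rho : (ModularGroup.S * ModularGroup.T) • ρ = ρ := by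
  rw [mul_smul, ← ModularGroup.SL_neg_smul ModularGroup.S, ← ModularGroup.S_inv, inv_smul_eq_iff, eq_comm, UpperHalfPlane.ext_iff,
      modular_S_smul, modular_T_smul, UpperHalfPlane.coe_mk, coe_vadd,
      ← mul_one (_ : ℂ)⁻¹, inv_mul_eq_iff_eq_mul₀ (neg_ne_zero.mpr ρ.ne_zero)]
  grind [ρ_sq, Complex.ofReal_one]

theorem denom_ST_rho : denom (ModularGroup.S * ModularGroup.T : SL(2, ℤ)) ρ = (ρ : ℂ) + 1 := by
  rw [ModularGroup.denom_apply]
  have h10 : (ModularGroup.S * ModularGroup.T : SL(2, ℤ)) 1 0 = 1 := by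
    rw [Matrix.SpecialLinearGroup.coe_mul, Matrix.mul_apply, Fin.sum_univ_two]
    simp [ModularGroup.S, ModularGroup.T]
  have h11 : (ModularGroup.S * ModularGroup.T : SL(2, ℤ)) 1 1 = 1 := by
    rw [Matrix.SpecialLinearGroup.coe_mul, Matrix.mul_apply, Fin.sum_univ_two]
    simp [ModularGroup.S, ModularGroup.T]
  rw [h10, h11]; simp

theorem denom_S_I : denom (ModularGroup.S : SL(2, ℤ)) UpperHalfPlane.I = Complex.I := by
  rw [ModularGroup.denom_S]; rfl

/-- pointwise identity -/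
theorem pointwise_identity (k : ℤ) (h0 : 0 ≤ k) (h12 : k < 12) (hev : Even k) :
    (1 : ℝ) + 6 * (if k = 0 then 1 else 0)
      = 6 * ((if k = 2 then 1 else 0) + (if k = 10 then 1 else 0))
        + 3 * (Complex.I ^ k).re + 4 * (((ρ : ℂ) + 1) ^ k).re := by
  have hx : ((ρ : ℂ) + 1) ^ 2 = (ρ : ℂ) := by
    have := ρ_sq; linear_combination this
  have hre : (ρ : ℂ).re = -1 / 2 := by simp [ρ]
  have h3 : (ρ : ℂ) ^ 3 = 1 := by
    have := ρ_sq; linear_combination ((ρ : ℂ) - 1) * this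
  have h2re : ((ρ : ℂ) ^ 2).re = -1 / 2 := by
    rw [ρ_sq, Complex.sub_re, Complex.neg_re, hre]; norm_num
  obtain ⟨m, rfl⟩ := hev
  have hm : m = 0 ∨ m = 1 ∨ m = 2 ∨ m = 3 ∨ m = 4 ∨ m = 5 := by omega
  have e1 : ∀ n : ℕ, ((ρ : ℂ) + 1) ^ ((n : ℤ) + (n : ℤ)) = (ρ : ℂ) ^ n := by
    intro n
    rw [← two_mul, zpow_mul, zpow_ofNat, hx, zpow_natCast]
  have e2 : ∀ n : ℕ, Complex.I ^ ((n : ℤ) + (n : ℤ)) = (-1) ^ n := by
    intro n
    rw [← two_mul, zpow_mul, zpow_ofNat, Complex.I_sq, zpow_natCast]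
  rcases hm with rfl | rfl | rfl | rfl | rfl | rfl
  · rw [show ((0 : ℤ) + 0) = ((0 : ℕ) : ℤ) + ((0 : ℕ) : ℤ) by norm_num, e1 0, e2 0]; norm_num
  · rw [show ((1 : ℤ) + 1) = ((1 : ℕ) : ℤ) + ((1 : ℕ) : ℤ) by norm_num, e1 1, e2 1, pow_one, pow_one, hre]
    norm_num
  · rw [show ((2 : ℤ) + 2) = ((2 : ℕ) : ℤ) + ((2 : ℕ) : ℤ) by norm_num, e1 2, e2 2, h2re]
    norm_num
  · rw [show ((3 : ℤ) + 3) = ((3 : ℕ) : ℤ) + ((3 : ℕ) : ℤ) by norm_num, e1 3, e2 3, h3]
    norm_num
  · rw [show ((4 : ℤ) + 4) = ((4 : ℕ) : ℤ) + ((4 : ℕ) : ℤ) by norm_num, e1 4, e2 4,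
      show (ρ : ℂ) ^ 4 = ρ by linear_combination (ρ : ℂ) * h3, hre]
    norm_num
  · rw [show ((5 : ℤ) + 5) = ((5 : ℕ) : ℤ) + ((5 : ℕ) : ℤ) by norm_num, e1 5, e2 5,
      show (ρ : ℂ) ^ 5 = ρ ^ 2 by linear_combination (ρ : ℂ) ^ 2 * h3, h2re]
    norm_num


local notation "Δ" => ModularForm.discriminant

section indep

variable {Γ : Subgroup SL(2, ℤ)} [Fintype (SL(2, ℤ) ⧸ Γ)] [DecidableEq (SL(2, ℤ) ⧸ Γ)]

/-- The members of a fixed weight of a frame which is invertible at one point are linearly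
independent functions. -/
theorem linearIndependent_of_det (k : SL(2, ℤ) ⧸ Γ → ℤ) (F : SL(2, ℤ) ⧸ Γ → ℍ → ℂ) (z : ℍ)
    (hdet : (Phi Γ k F z).det ≠ 0) (w : ℤ) :
    LinearIndependent ℂ (fun j : {j // k j = w} => F j) := by
  rw [Fintype.linearIndependent_iff]
  intro c hc
  let c' : SL(2, ℤ) ⧸ Γ → ℂ := fun j => if h : k j = w then c ⟨j, h⟩ else 0
  have hmul : (Phi Γ k F z).mulVec c' = 0 := by
    ext q
    have h1 : tr w (∑ j : {j // k j = w}, c j • F j) q z = 0 := by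
      rw [hc, tr_zero]; rfl
    rw [tr_sum, Finset.sum_apply] at h1
    simp only [Matrix.mulVec, dotProduct, Phi_apply, Pi.zero_apply]
    have h2 : ∑ j : {j // k j = w}, tr w (c j • F j) q z
        = ∑ j : {j // k j = w}, tr w (c' j • F j) q z := by
      apply Finset.sum_congr rfl
      intro j _
      simp [c', j.2]
    rw [← h1, h2, ← Finset.sum_subtype (Finset.univ.filter fun j => k j = w)
      (p := fun j => k j = w) (by simp) (fun j => tr w (c' j • F j) q z), Finset.sum_filter]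
    apply Finset.sum_congr rfl
    intro j _
    by_cases h : k j = w
    · simp [c', h, tr_smul, mul_comm]
    · simp [c', h]
  have h0 := Matrix.eq_zero_of_mulVec_eq_zero hdet hmul
  intro j
  have := congrFun h0 j.1
  simpa [c', j.2] using this


theorem linearIndependent_dual (k : SL(2, ℤ) ⧸ Γ → ℤ) (F : SL(2, ℤ) ⧸ Γ → ℍ → ℂ) (z : ℍ)
    (hdet : (Phi Γ k F z).det ≠ 0) (ψ : SL(2, ℤ) ⧸ Γ → ℍ → ℂ)
    (htr : ∀ j q, tr (12 - k j) (ψ j) q = fun z => Δ z * (Phi Γ k F z)⁻¹ j q) (w : ℤ) :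
    LinearIndependent ℂ (fun j : {j // k j = w} => ψ j) := by
  rw [Fintype.linearIndependent_iff]
  intro c hc
  let c' : SL(2, ℤ) ⧸ Γ → ℂ := fun j => if h : k j = w then c ⟨j, h⟩ else 0
  have hmul : Matrix.vecMul c' (Phi Γ k F z)⁻¹ = 0 := by
    ext q
    have h1 : tr (12 - w) (∑ j : {j // k j = w}, c j • ψ j) q z = 0 := by
      rw [hc, tr_zero]; rfl
    rw [tr_sum, Finset.sum_apply] at h1
    simp only [Matrix.vecMul, dotProduct, Pi.zero_apply]
    have h2 : ∑ j : {j // k j = w}, tr (12 - w) (c j • ψ j) q z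
        = ∑ j : {j // k j = w}, Δ z * (c' j * (Phi Γ k F z)⁻¹ j q) := by
      apply Finset.sum_congr rfl
      intro j _
      have := congrFun (htr j.1 q) z
      rw [j.2] at this
      simp only [tr_smul, Pi.smul_apply, smul_eq_mul, this]
      simp [c', j.2]
      ring
    rw [h2, ← Finset.sum_subtype (Finset.univ.filter fun j => k j = w)
      (p := fun j => k j = w) (by simp) (fun j => Δ z * (c' j * (Phi Γ k F z)⁻¹ j q)),
      Finset.sum_filter] at h1
    have h3 : ∑ j, Δ z * (c' j * (Phi Γ k F z)⁻¹ j q) = 0 := by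
      rw [← h1]
      apply Finset.sum_congr rfl
      intro j _
      by_cases h : k j = w
      · simp [h]
      · simp [c', h]
    rw [← Finset.mul_sum] at h3
    exact (mul_eq_zero.mp h3).resolve_left (discriminant_ne_zero z)
  have hdet' : ((Phi Γ k F z)⁻¹).det ≠ 0 := by
    have := Matrix.isUnit_nonsing_inv_det (Phi Γ k F z) (isUnit_iff_ne_zero.mpr hdet)
    exact this.ne_zero
  have h0 := Matrix.eq_zero_of_vecMul_eq_zero hdet' hmul
  intro j
  have := congrFun h0 j.1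
  simpa [c', j.2] using this

end indep


theorem exists_weight_two_families (hS : Stmt_structure) (hEven : Stmt_freeBasis_even)
    (hW0 : Stmt_freeBasis_weight_zero) (hDual : Stmt_dual_isCF) (hLt : Stmt_dual_weight_lt)
    (hFix : Stmt_card_fixedBy) : Fermat.Agent.S21.Stmt_exists_weight_two_families := by
  classical
  intro N _
  let _ : Fintype (SL(2, ℤ) ⧸ Gamma0 N) := Fintype.ofFinite _
  obtain ⟨k, F, hB, hdet, hT⟩ := hS N
  have hev : ∀ j, Even (k j) := hEven (Gamma0 N) _ k F (neg_one_mem_Gamma0_S21 N) hB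
  obtain ⟨hnn, h0⟩ := hW0 (Gamma0 N) _ k F hB
  have hlt : ∀ j, k j < 12 := hLt (Gamma0 N) k F hB.isMF hdet hT
  have hD := hDual (Gamma0 N) k F hB.isMF hdet hT
  have hinv : ∀ j, ∀ γ ∈ Gamma0 N, F j ∣[k j] γ = F j := fun j => (hB.isMF j).inv
  have hS2 := hFix (Gamma0 N) k F hinv ModularGroup.S UpperHalfPlane.I S_smul_I (hdet _)
  have hS3 := hFix (Gamma0 N) k F hinv (ModularGroup.S * ModularGroup.T) ρ ST_smul_rho (hdet _)
  rw [denom_S_I] at hS2
  rw [denom_ST_rho] at hS3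
  set ψ : SL(2, ℤ) ⧸ Gamma0 N → ℍ → ℂ :=
    fun j z => Δ z * (Phi (Gamma0 N) k F z)⁻¹ j ((1 : SL(2, ℤ)) : SL(2, ℤ) ⧸ Gamma0 N) with hψ
  -- the two families
  let e2 := (Fintype.equivFin {j // k j = 2}).symm
  let e10 := (Fintype.equivFin {j // k j = 10}).symm
  have hF2 : ∀ j : {j // k j = 2}, IsMF (Gamma0 N) 2 (F j) := fun j => by
    have := hB.isMF j.1
    rw [j.2] at this
    exact this
  have hψ10 : ∀ j : {j // k j = 10}, IsCF (Gamma0 N) 2 (ψ j) := fun j => by
    have := (hD j.1).1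
    rw [j.2] at this
    exact this
  refine ⟨Fintype.card {j // k j = 2}, Fintype.card {j // k j = 10},
    fun i => (hF2 (e2 i)).toModularForm, fun i => (hψ10 (e10 i)).toCuspForm, ?_, ?_, ?_⟩
  · have h1 := (linearIndependent_of_det k F UpperHalfPlane.I (hdet _) 2).comp e2 e2.injective
    exact LinearIndependent.of_comp
      ((Mf (Gamma0 N) 2).subtype ∘ₗ (modularFormEquiv (Gamma0 N) 2).toLinearMap) h1
  · have h1 := (linearIndependent_dual k F UpperHalfPlane.I (hdet _) ψ (fun j q => (hD j).2 q)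
      10).comp e10 e10.injective
    exact LinearIndependent.of_comp
      ((Sf (Gamma0 N) 2).subtype ∘ₗ (cuspFormEquiv (Gamma0 N) 2).toLinearMap) h1
  · -- the count
    have hsum := Finset.sum_congr (rfl : (Finset.univ : Finset (SL(2, ℤ) ⧸ Gamma0 N)) = _)
      (fun j _ => pointwise_identity (k j) (hnn j) (hlt j) (hev j))
    simp only [Finset.sum_add_distrib, ← Finset.mul_sum, Finset.sum_const, Finset.card_univ,
      nsmul_eq_mul, mul_one, Finset.sum_boole] at hsum
    have hre2 : ∑ j, (Complex.I ^ k j).re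
        = (Nat.card (MulAction.fixedBy (SL(2, ℤ) ⧸ Gamma0 N) ModularGroup.S) : ℝ) := by
      rw [← Complex.re_sum, ← hS2, Complex.natCast_re]
    have hre3 : ∑ j, (((ρ : ℂ) + 1) ^ k j).re
        = (Nat.card (MulAction.fixedBy (SL(2, ℤ) ⧸ Gamma0 N)
            (ModularGroup.S * ModularGroup.T)) : ℝ) := by
      rw [← Complex.re_sum, ← hS3, Complex.natCast_re]
    rw [hre2, hre3, h0] at hsum
    have hidx : (Gamma0 N).index = Fintype.card (SL(2, ℤ) ⧸ Gamma0 N) := by
      rw [Subgroup.index, Nat.card_eq_fintype_card]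
    rw [hidx, Fintype.card_subtype, Fintype.card_subtype]
    have : ((Fintype.card (SL(2, ℤ) ⧸ Gamma0 N) + 6 : ℕ) : ℝ)
        = ((6 * ((Finset.univ.filter fun j => k j = 2).card
              + (Finset.univ.filter fun j => k j = 10).card)
            + 3 * Nat.card (MulAction.fixedBy (SL(2, ℤ) ⧸ Gamma0 N) ModularGroup.S)
            + 4 * Nat.card (MulAction.fixedBy (SL(2, ℤ) ⧸ Gamma0 N)
                (ModularGroup.S * ModularGroup.T)) : ℕ) : ℝ) := by
      push_cast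
      push_cast at hsum
      linarith
    exact le_of_eq (by exact_mod_cast this)

end
end Fermat.Agent.S20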