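import Fermat.Agent.S20.InfInterface

set_option autoImplicit false

open UpperHalfPlane Filter Topology Real
open scoped Manifold

namespace Fermat.Agent.S20

namespace CuspInverse

variable {X : Type} [Fintype X]

/-- The inverse of a matrix whose rows are twisted-permuted is column-twisted-permuted. -/
theorem inv_apply_perm [DecidableEq X] {σ : Equiv.Perm X} {B : Matrix X X ℂ} {d : X → ℂ} (hd : ∀ i, d i ≠ 0)
    (hdet : IsUnit B.det) (hB : ∀ x i, B (σ x) i = d i * B x i) (i y : X) :
    B⁻¹ i y = d i * B⁻¹ i (σ y) := by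
  have hCB : B⁻¹ * B = 1 := Matrix.nonsing_inv_mul B hdet
  have key : (Matrix.of fun i y => d i * B⁻¹ i (σ y)) * B = 1 := by
    ext i k
    rw [Matrix.mul_apply]
    have h1 : ∀ y, (Matrix.of fun i y => d i * B⁻¹ i (σ y)) i y * B y k
        = d i * (d k)⁻¹ * (B⁻¹ i (σ y) * B (σ y) k) := by
      intro y
      rw [Matrix.of_apply, hB y k]
      field_simp [hd k]
    rw [Finset.sum_congr rfl (fun y _ => h1 y), ← Finset.mul_sum,
      Equiv.sum_comp σ (fun y => B⁻¹ i y * B y k), ← Matrix.mul_apply, hCB]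
    by_cases hik : i = k
    · subst hik
      simp [hd i]
    · simp [Matrix.one_apply_ne hik]
  have := congrFun (congrFun (Matrix.inv_eq_left_inv key) i) y
  rwa [Matrix.of_apply] at this

/-- The `i`-th twisted coordinate of a vector valued function. -/
noncomputable def coord (C : Matrix X X ℂ) (i : X) (v : ℍ → X → ℂ) (z : ℍ) : ℂ :=
  ∑ x, C i x * v z x

theorem coord_mdiff (C : Matrix X X ℂ) (i : X) {σ : Equiv.Perm X} {v : ℍ → X → ℂ}
    (hv : v ∈ VV X σ) : MDiff (coord C i v) := by
  have : coord C i v = ∑ x, fun z => C i x * v z x := by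
    ext z; simp [coord]
  rw [this]
  exact MDifferentiable.sum fun x _ => (mdifferentiable_const (c := C i x)).mul (hv.1 x)

theorem coord_bdd (C : Matrix X X ℂ) (i : X) {σ : Equiv.Perm X} {v : ℍ → X → ℂ}
    (hv : v ∈ VV X σ) : IsBoundedAtImInfty (coord C i v) := by
  have : coord C i v = ∑ x, fun z => C i x * v z x := by
    ext z; simp [coord]
  rw [this]
  unfold IsBoundedAtImInfty BoundedAtFilter
  exact Asymptotics.IsBigO.sum fun x _ => (hv.2.1 x).const_mul_left (C i x)

theorem coord_twist {σ : Equiv.Perm X} {C : Matrix X X ℂ} {d : X → ℂ}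
    (hC : ∀ i y, C i y = d i * C i (σ y)) (i : X) {v : ℍ → X → ℂ}
    (hv : v ∈ VV X σ) (z : ℍ) : coord C i v ((1 : ℝ) +ᵥ z) = d i * coord C i v z := by
  unfold coord
  rw [Finset.mul_sum, ← Equiv.sum_comp σ (fun y => d i * (C i y * v z y))]
  refine Finset.sum_congr rfl fun x _ => ?_
  rw [hv.2.2 z x, hC i x]
  ring

theorem tendsto_exp_mul_atImInfty {t : ℝ} (ht : 0 < t) :
    Tendsto (fun z : ℍ => Complex.exp (2 * π * Complex.I * t * z)) atImInfty (𝓝 0) := by
  rw [tendsto_zero_iff_norm_tendsto_zero]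
  have h1 : ∀ z : ℍ, ‖Complex.exp (2 * π * Complex.I * t * z)‖ = Real.exp (-(2 * π * t) * z.im) := by
    intro z
    rw [Complex.norm_exp]
    congr 1
    simp [Complex.mul_re, Complex.mul_im]
  simp only [h1]
  refine Real.tendsto_exp_atBot.comp ?_
  have h2 : Tendsto (fun z : ℍ => z.im) atImInfty atTop := tendsto_comap
  have hpos : 0 < 2 * π * t := by positivity
  have := h2.const_mul_atTop hpos
  have h3 := tendsto_neg_atTop_atBot.comp this
  refine h3.congr fun z => ?_
  simp only [Function.comp]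
  ring

end CuspInverse

open CuspInverse in
/-- INF-2 -/
theorem cuspInverse (hA : Stmt_permDiag) (hB : Stmt_twistedLimit) : Stmt_cuspInverse := by
  intro X _ _ σ Φ hΦ hdet hreg
  obtain ⟨B, θ, hBdet, hθ, hBσ⟩ := hA X σ
  set C := B⁻¹ with hC
  set d : X → ℂ := fun i => Complex.exp (2 * π * Complex.I * θ i) with hd
  have hd0 : ∀ i, d i ≠ 0 := fun i => Complex.exp_ne_zero _
  have hCσ : ∀ i y, C i y = d i * C i (σ y) := inv_apply_perm hd0 hBdet hBσ
  have hBC : B * C = 1 := Matrix.mul_nonsing_inv B hBdet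
  have hlim : ∀ (i : X) (v : ℍ → X → ℂ), v ∈ VV X σ → ∃ L : ℂ,
      Tendsto (fun z : ℍ => Complex.exp (-(2 * π * Complex.I * θ i * z)) * coord C i v z)
        atImInfty (𝓝 L) ∧ (L = 0 → IsBigOq (coord C i v)) :=
    fun i v hv => hB (θ i) (hθ i).1 (hθ i).2 _ (coord_mdiff C i hv) (coord_bdd C i hv)
      (coord_twist hCσ i hv)
  let col : X → ℍ → X → ℂ := fun j z x => Φ z x j
  choose Λ hΛ using fun i j => hlim i (col j) (hΦ j)
  have hΛdet : (Matrix.of Λ).det ≠ 0 := by
    intro h0
    obtain ⟨c, hc0, hc⟩ := Matrix.exists_mulVec_eq_zero_iff.mpr h0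
    apply hc0
    apply hreg c
    have hvc : (fun z x => ∑ j, Φ z x j * c j) ∈ VV X σ := by
      have : (fun z x => ∑ j, Φ z x j * c j) = ∑ j, c j • col j := by
        ext z x; simp [col, Finset.sum_apply, mul_comm]
      rw [this]
      exact Submodule.sum_mem _ fun j _ => Submodule.smul_mem _ _ (hΦ j)
    have hcoord : ∀ i z, coord C i (fun z x => ∑ j, Φ z x j * c j) z
        = ∑ j, coord C i (col j) z * c j := by
      intro i z
      simp only [coord, col, Finset.mul_sum, Finset.sum_mul]
      rw [Finset.sum_comm]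
      refine Finset.sum_congr rfl fun j _ => Finset.sum_congr rfl fun x _ => by ring
    have hO : ∀ i, IsBigOq (coord C i (fun z x => ∑ j, Φ z x j * c j)) := by
      intro i
      obtain ⟨L, hL, hL0⟩ := hlim i _ hvc
      apply hL0
      have h2 : Tendsto (fun z : ℍ => Complex.exp (-(2 * π * Complex.I * θ i * z)) *
          coord C i (fun z x => ∑ j, Φ z x j * c j) z) atImInfty (𝓝 (∑ j, Λ i j * c j)) := by
        have := tendsto_finsetSum Finset.univ (fun j _ => ((hΛ i j).1.mul_const (c j)))
        refine this.congr fun z => ?_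
        rw [hcoord, Finset.mul_sum]
        refine Finset.sum_congr rfl fun j _ => by ring
      have h3 : ∑ j, Λ i j * c j = 0 := by
        have := congrFun hc i
        simpa [Matrix.mulVec, dotProduct] using this
      rw [h3] at h2
      exact tendsto_nhds_unique hL h2
    intro x
    have : (fun z => ∑ j, Φ z x j * c j)
        = ∑ i, fun z => B x i * coord C i (fun z x => ∑ j, Φ z x j * c j) z := by
      ext z
      have hw : ∀ w : ℍ → X → ℂ, w z x = ∑ i, B x i * coord C i w z := by
        intro w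
        simp only [coord, Finset.mul_sum]
        rw [Finset.sum_comm]
        have h5 : ∀ y, ∑ i, B x i * (C i y * w z y) = (B * C) x y * w z y := by
          intro y
          rw [Matrix.mul_apply, Finset.sum_mul]
          exact Finset.sum_congr rfl fun i _ => by ring
        simp only [h5, hBC, Matrix.one_apply, ite_mul, one_mul, zero_mul, Finset.sum_ite_eq,
          Finset.mem_univ, if_true]
      rw [Finset.sum_apply]
      exact hw (fun z x => ∑ j, Φ z x j * c j)
    rw [this]
    exact Asymptotics.IsBigO.sum fun i _ => (hO i).const_mul_left _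
  -- second half
  let E : ℍ → X → ℂ := fun z i => Complex.exp (-(2 * π * Complex.I * θ i * z))
  let Φt : ℍ → Matrix X X ℂ := fun z => Matrix.diagonal (E z) * (C * Φ z)
  have hΦt_apply : ∀ z i j, Φt z i j = E z i * coord C i (col j) z := by
    intro z i j
    show (Matrix.diagonal (E z) * (C * Φ z)) i j = _
    rw [Matrix.diagonal_mul, Matrix.mul_apply]
    rfl
  have hΦt_lim : Tendsto Φt atImInfty (𝓝 (Matrix.of Λ)) := by
    refine tendsto_pi_nhds.mpr fun i => tendsto_pi_nhds.mpr fun j => ?_
    simp only [hΦt_apply]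
    exact (hΛ i j).1
  have hinv_lim : Tendsto (fun z => (Φt z)⁻¹) atImInfty (𝓝 (Matrix.of Λ)⁻¹) := by
    have hc : ContinuousAt (fun A : Matrix X X ℂ => A⁻¹) (Matrix.of Λ) := by
      apply continuousAt_matrix_inv
      rw [Ring.inverse_eq_inv']
      exact continuousAt_inv₀ hΛdet
    exact hc.tendsto.comp hΦt_lim
  have hCdet : IsUnit C.det := by
    have : B.det * C.det = 1 := by rw [← Matrix.det_mul, hBC, Matrix.det_one]
    exact IsUnit.of_mul_eq_one_right _ this
  have hΦt_det : ∀ z, IsUnit (Φt z).det := by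
    intro z
    simp only [Φt, Matrix.det_mul, Matrix.det_diagonal]
    refine IsUnit.mul ?_ (hCdet.mul (isUnit_iff_ne_zero.mpr (hdet z)))
    exact isUnit_iff_ne_zero.mpr (Finset.prod_ne_zero_iff.mpr fun i _ => Complex.exp_ne_zero _)
  have hinv : ∀ z, (Φ z)⁻¹ = (Φt z)⁻¹ * (Matrix.diagonal (E z) * C) := by
    intro z
    apply Matrix.inv_eq_left_inv
    rw [Matrix.mul_assoc, Matrix.mul_assoc]
    exact Matrix.nonsing_inv_mul _ (hΦt_det z)
  intro j x
  unfold IsZeroAtImInfty ZeroAtFilter
  have hterm : ∀ i, Tendsto (fun z : ℍ => (Φt z)⁻¹ j i *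
      Complex.exp (2 * π * Complex.I * ((1 - θ i : ℝ) : ℂ) * z) * C i x) atImInfty (𝓝 0) := by
    intro i
    have h1 : Tendsto (fun z : ℍ => (Φt z)⁻¹ j i) atImInfty (𝓝 ((Matrix.of Λ)⁻¹ j i)) :=
      ((continuous_apply i).tendsto _).comp (((continuous_apply j).tendsto _).comp hinv_lim)
    have h2 := tendsto_exp_mul_atImInfty (t := 1 - θ i) (by linarith [(hθ i).2])
    have := (h1.mul h2).mul_const (C i x)
    simpa using this
  have hsum := tendsto_finsetSum Finset.univ (fun i _ => hterm i)
  simp only [Finset.sum_const_zero] at hsum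
  refine hsum.congr fun z => ?_
  rw [hinv z, Matrix.mul_apply, Finset.mul_sum]
  refine Finset.sum_congr rfl fun i _ => ?_
  rw [Matrix.diagonal_mul]
  have : Complex.exp (2 * π * Complex.I * ((1 - θ i : ℝ) : ℂ) * z)
      = Complex.exp (2 * π * Complex.I * z) * E z i := by
    simp only [E]
    rw [← Complex.exp_add]
    congr 1
    push_cast
    ring
  rw [this]
  ring

end Fermat.Agent.S20
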