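import Fermat.Agent.S20.Interface

set_option autoImplicit false

open UpperHalfPlane ModularForm Matrix.SpecialLinearGroup CongruenceSubgroup Filter Topology
open scoped MatrixGroups Manifold ModularForm Real

namespace Fermat.Agent.S20

noncomputable section

local notation "Δ" => ModularForm.discriminant
local notation "E4" => (ModularForm.E₄ : ℍ → ℂ)
local notation "E6" => (ModularForm.E₆ : ℍ → ℂ)

theorem discriminant_slash (γ : SL(2, ℤ)) : (Δ ∣[(12 : ℤ)] γ) = Δ :=
  isCF_discriminant.inv γ trivial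

theorem mdiff_discriminant : MDiff (Δ : ℍ → ℂ) := isCF_discriminant.holo

theorem div_discriminant : Stmt_div_discriminant := by
  intro Γ w n hn hO
  have hsl : ∀ γ : SL(2, ℤ), ((n / Δ) ∣[w - 12] γ) = (n ∣[w] γ) / Δ := by
    intro γ
    rw [div_slash_SL2, discriminant_slash]
  refine ⟨hn.holo.div mdiff_discriminant discriminant_ne_zero, fun γ hγ => ?_, fun γ => ?_⟩
  · rw [hsl, hn.inv γ hγ]
  · rw [hsl, IsBoundedAtImInfty, BoundedAtFilter]
    exact (Asymptotics.div_isBoundedUnder_of_isBigO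
      ((hO γ).trans exp_isBigO_discriminant)).isBigO_one ℝ

theorem coprime (h4 : Stmt_tendsto_E4) : Stmt_coprime := by
  intro Γ w a b ha hb hab
  have hΔ : ∀ z : ℍ, (1728 : ℂ) * Δ z = E4 z ^ 3 - E6 z ^ 2 := by
    intro z
    rw [discriminant_eq_E₄_cube_sub_E₆_sq z]; ring
  have habz : ∀ z : ℍ, E4 z * a z = E6 z * b z := fun z => congrFun hab z
  -- the numerator
  set n : ℍ → ℂ := (1728 : ℂ)⁻¹ • (E4 * E4 * b - E6 * a) with hn
  have hnMF : IsMF Γ (w + 2) n := by
    refine IsMF.smul _ (IsMF.sub ?_ ?_)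
    · exact ((isMF_E4.of_top.mul isMF_E4.of_top).mul' hb (by ring))
    · exact (isMF_E6.of_top.mul' ha (by ring))
  set c : ℍ → ℂ := n / Δ with hc
  have hcz : ∀ z : ℍ, c z = (1728 : ℂ)⁻¹ * (E4 z * E4 z * b z - E6 z * a z) / Δ z := fun z => rfl
  have hbc : b = E4 * c := by
    funext z
    have h0 := discriminant_ne_zero z
    simp only [Pi.mul_apply, hcz]
    field_simp
    linear_combination (b z) * hΔ z + E6 z * habz z
  have hac : a = E6 * c := by
    funext z
    have h0 := discriminant_ne_zero z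
    simp only [Pi.mul_apply, hcz]
    field_simp
    linear_combination (a z) * hΔ z + E4 z ^ 2 * habz z
  have hsl : ∀ γ : SL(2, ℤ), (c ∣[w - 10] γ) = (n ∣[w + 2] γ) / Δ := by
    intro γ
    have : (w - 10 : ℤ) = (w + 2) - 12 := by ring
    rw [this, hc, div_slash_SL2, discriminant_slash]
  refine ⟨c, ⟨hnMF.holo.div mdiff_discriminant discriminant_ne_zero, fun γ hγ => ?_, fun γ => ?_⟩,
    hac, hbc⟩
  · rw [hsl, hnMF.inv γ hγ]
  · have hbγ : (b ∣[w - 6] γ) = E4 * (c ∣[w - 10] γ) := by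
      have : (w - 6 : ℤ) = 4 + (w - 10) := by ring
      conv_lhs => rw [this, hbc, mul_slash_SL2, isMF_E4.slash_top]
    have hE : ∀ᶠ z in atImInfty, (1 / 2 : ℝ) ≤ ‖E4 z‖ := by
      have h4' : Tendsto (fun z : ℍ => ‖E4 z‖) atImInfty (𝓝 ‖(1 : ℂ)‖) := h4.norm
      rw [norm_one] at h4'
      exact h4'.eventually_const_le (by norm_num)
    have hO : (c ∣[w - 10] γ) =O[atImInfty] (b ∣[w - 6] γ) := by
      refine Asymptotics.IsBigO.of_bound 2 ?_
      filter_upwards [hE] with z hz
      rw [hbγ, Pi.mul_apply, norm_mul]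
      nlinarith [norm_nonneg ((c ∣[w - 10] γ) z)]
    exact hO.trans (hb.bdd γ)

end

end Fermat.Agent.S20
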