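import Fermat.Agent.S20.Interface

/-! CORE-DualBC: `k_j < 12` and `dim S_2(Γ) = #{j | k_j = 10}`. -/

set_option autoImplicit false

open UpperHalfPlane ModularForm Matrix.SpecialLinearGroup CongruenceSubgroup Filter Topology
open scoped MatrixGroups Manifold ModularForm Real

namespace Fermat.Agent.S20

noncomputable section

local notation "Δ" => ModularForm.discriminant

namespace DualBC

variable {Γ : Subgroup SL(2, ℤ)}

theorem isMF_bot_tr {k : ℤ} {f : ℍ → ℂ} (hf : IsMF Γ k f) (q : SL(2, ℤ) ⧸ Γ) :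
    IsMF ⊥ k (tr k f q) :=
  ⟨hf.holo_tr q, fun γ hγ => by
      rw [Subgroup.mem_bot] at hγ; subst hγ; exact SlashAction.slash_one _ _,
    fun γ => by rw [tr, ← SlashAction.slash_mul]; exact hf.bdd _⟩

theorem isCF_bot_tr {k : ℤ} {f : ℍ → ℂ} (hf : IsCF Γ k f) (q : SL(2, ℤ) ⧸ Γ) :
    IsCF ⊥ k (tr k f q) :=
  ⟨hf.isMF.holo_tr q, fun γ hγ => by
      rw [Subgroup.mem_bot] at hγ; subst hγ; exact SlashAction.slash_one _ _,
    fun γ => by rw [tr, ← SlashAction.slash_mul]; exact hf.zero _⟩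

theorem isCF_Tr [Fintype (SL(2, ℤ) ⧸ Γ)] {k : ℤ} {F f : ℍ → ℂ} (hF : IsMF Γ k F)
    (hf : IsCF Γ 2 f) : IsCF ⊤ (k + 2) (∑ q : SL(2, ℤ) ⧸ Γ, tr k F q * tr 2 f q) := by
  have h0 : IsCF ⊥ (k + 2) (∑ q : SL(2, ℤ) ⧸ Γ, tr k F q * tr 2 f q) :=
    IsCF.sum _ _ fun q _ => (isMF_bot_tr hF q).mul_isCF (isCF_bot_tr hf q)
  refine ⟨h0.holo, fun γ _ => ?_, h0.zero⟩
  rw [SlashAction.sum_slash]
  have h1 : ∀ q : SL(2, ℤ) ⧸ Γ, (tr k F q * tr 2 f q) ∣[k + 2] γ
      = tr k F (γ⁻¹ • q) * tr 2 f (γ⁻¹ • q) := fun q => by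
    rw [mul_slash_SL2, tr_slash hF.inv, tr_slash hf.inv]
  rw [Finset.sum_congr rfl fun q _ => h1 q]
  exact Equiv.sum_comp (MulAction.toPerm γ⁻¹) (fun q => tr k F q * tr 2 f q)

end DualBC

open DualBC

theorem dual_weight_lt (h : Stmt_dual_isCF) (h0 : Stmt_cusp_nonpos) : Stmt_dual_weight_lt := by
  intro Γ _ _ _ k F hF hdet hinf j
  by_contra hj
  obtain ⟨hcf, htr⟩ := h Γ k F hF hdet hinf j
  have hz := h0 Γ (12 - k j) _ (by omega) hcf
  have hrow : ∀ q, (Phi Γ k F I)⁻¹ j q = 0 := by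
    intro q
    have h1 := congrFun (htr q) I
    rw [hz, tr_zero] at h1
    have h2 : Δ I * (Phi Γ k F I)⁻¹ j q = 0 := h1.symm
    exact (mul_eq_zero.mp h2).resolve_left (discriminant_ne_zero I)
  have h3 : ((Phi Γ k F I)⁻¹ * Phi Γ k F I) j j = 1 := by
    rw [Matrix.nonsing_inv_mul _ ((hdet I).isUnit), Matrix.one_apply_eq]
  rw [Matrix.mul_apply] at h3
  simp [hrow] at h3

theorem dual_finrank (h : Stmt_dual_isCF) (h1 : Stmt_levelOne_cusp_lt)
    (h2 : Stmt_levelOne_cusp_twelve) : Stmt_dual_finrank := by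
  intro Γ _ _ _ k F hF hdet hinf hk
  set q0 : SL(2, ℤ) ⧸ Γ := ((1 : SL(2, ℤ)) : SL(2, ℤ) ⧸ Γ) with hq0
  set G : SL(2, ℤ) ⧸ Γ → SL(2, ℤ) ⧸ Γ → ℍ → ℂ :=
    fun j q z => Δ z * (Phi Γ k F z)⁻¹ j q with hG
  have hcf : ∀ j, IsCF Γ (12 - k j) (G j q0) := fun j => (h Γ k F hF hdet hinf j).1
  have htr : ∀ j q, tr (12 - k j) (G j q0) q = G j q := fun j => (h Γ k F hF hdet hinf j).2
  have hcf2 : ∀ j, k j = 10 → IsCF Γ 2 (G j q0) := fun j hj => by
    have := hcf j
    rwa [hj, show (12 : ℤ) - 10 = 2 by norm_num] at this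
  have htr2 : ∀ j, k j = 10 → ∀ q, tr 2 (G j q0) q = G j q := fun j hj q => by
    have := htr j q
    rwa [hj, show (12 : ℤ) - 10 = 2 by norm_num] at this
  -- the family
  let v : {j // k j = 10} → Sf Γ 2 := fun j => ⟨G j.1 q0, hcf2 j.1 j.2⟩
  have hli : LinearIndependent ℂ v := by
    rw [Fintype.linearIndependent_iff]
    intro b hb j
    have hb' : ∑ i : {j // k j = 10}, b i • G i.1 q0 = 0 := by
      have := congrArg (Subtype.val) hb
      simpa [v, Submodule.coe_sum] using this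
    -- translate
    have hq : ∀ q, ∑ i : {j // k j = 10}, b i • G i.1 q = 0 := by
      intro q
      have := congrArg (fun g => tr 2 g q) hb'
      simp only [tr_sum, tr_smul, tr_zero] at this
      rw [← this]
      exact Finset.sum_congr rfl fun i _ => by rw [htr2 i.1 i.2]
    -- evaluate at `I`
    have hq' : ∀ q, ∑ i : {j // k j = 10}, b i * (Phi Γ k F I)⁻¹ i.1 q = 0 := by
      intro q
      have := congrFun (hq q) I
      simp only [Finset.sum_apply, Pi.smul_apply, smul_eq_mul, Pi.zero_apply, hG] at this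
      have h3 : Δ I * ∑ i : {j // k j = 10}, b i * (Phi Γ k F I)⁻¹ i.1 q = 0 := by
        rw [← this, Finset.mul_sum]
        exact Finset.sum_congr rfl fun i _ => by ring
      exact (mul_eq_zero.mp h3).resolve_left (discriminant_ne_zero I)
    have h4 : ∑ q, (∑ i : {j // k j = 10}, b i * (Phi Γ k F I)⁻¹ i.1 q) * Phi Γ k F I q j.1
        = b j := by
      simp only [Finset.sum_mul]
      rw [Finset.sum_comm]
      have h5 : ∀ i : {j // k j = 10}, ∑ q, b i * (Phi Γ k F I)⁻¹ i.1 q * Phi Γ k F I q j.1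
          = b i * (1 : Matrix (SL(2, ℤ) ⧸ Γ) (SL(2, ℤ) ⧸ Γ) ℂ) i.1 j.1 := by
        intro i
        rw [← Matrix.nonsing_inv_mul _ ((hdet I).isUnit), Matrix.mul_apply, Finset.mul_sum]
        exact Finset.sum_congr rfl fun q _ => by ring
      rw [Finset.sum_congr rfl fun i _ => h5 i, Finset.sum_eq_single j]
      · rw [Matrix.one_apply_eq, mul_one]
      · intro i _ hij
        rw [Matrix.one_apply_ne (fun h => hij (Subtype.ext h)), mul_zero]
      · intro hj; exact absurd (Finset.mem_univ j) hj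
    rw [← h4]
    simp [hq']
  have hsp : ⊤ ≤ Submodule.span ℂ (Set.range v) := by
    rintro ⟨f, hf⟩ -
    have hf' : IsCF Γ 2 f := hf
    -- the traces
    have hb : ∀ j, ∃ b : ℂ, (∑ q : SL(2, ℤ) ⧸ Γ, tr (k j) (F j) q * tr 2 f q) = b • Δ ∧
        (k j ≠ 10 → b = 0) := by
      intro j
      have hT := isCF_Tr (hF j) hf'
      by_cases hj : k j = 10
      · rw [hj, show (10 : ℤ) + 2 = 12 by norm_num] at hT
        obtain ⟨c, hc⟩ := h2 _ hT
        rw [hj]
        exact ⟨c, hc, fun h => absurd rfl h⟩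
      · refine ⟨0, ?_, fun _ => rfl⟩
        rw [zero_smul]
        exact h1 _ _ (by have := hk j; omega) hT
    choose b hb hb0 using hb
    have hfe : f = ∑ j, b j • G j q0 := by
      ext z
      have e1 : ∀ j, (b j • G j q0) z
          = ∑ q, tr 2 f q z * (Phi Γ k F z q j * (Phi Γ k F z)⁻¹ j q0) := by
        intro j
        have := congrFun (hb j) z
        simp only [Finset.sum_apply, Pi.mul_apply, Pi.smul_apply, smul_eq_mul] at this
        simp only [Pi.smul_apply, smul_eq_mul, hG]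
        rw [← mul_assoc, ← this, Finset.sum_mul]
        exact Finset.sum_congr rfl fun q _ => by rw [Phi_apply]; ring
      rw [Finset.sum_apply, Finset.sum_congr rfl fun j _ => e1 j, Finset.sum_comm]
      have e2 : ∀ q, ∑ j, tr 2 f q z * (Phi Γ k F z q j * (Phi Γ k F z)⁻¹ j q0)
          = tr 2 f q z * (1 : Matrix (SL(2, ℤ) ⧸ Γ) (SL(2, ℤ) ⧸ Γ) ℂ) q q0 := by
        intro q
        rw [← Matrix.mul_nonsing_inv _ ((hdet z).isUnit), Matrix.mul_apply, Finset.mul_sum]
      rw [Finset.sum_congr rfl fun q _ => e2 q, Finset.sum_eq_single q0]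
      · rw [Matrix.one_apply_eq, mul_one, hq0, tr_one hf'.inv]
      · intro q _ hq
        rw [Matrix.one_apply_ne hq, mul_zero]
      · intro hj; exact absurd (Finset.mem_univ q0) hj
    have hfe2 : (⟨f, hf⟩ : Sf Γ 2) = ∑ j : {j // k j = 10}, b j.1 • v j := by
      apply Subtype.ext
      rw [Submodule.coe_sum]
      simp only [Submodule.coe_smul, v]
      rw [hfe, ← Finset.sum_subtype (Finset.univ.filter fun j => k j = 10) (by simp)
        (fun j => b j • G j q0), Finset.sum_filter_of_ne]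
      intro j _ hj
      by_contra hj'
      exact hj (by rw [hb0 j hj', zero_smul])
    rw [hfe2]
    exact Submodule.sum_mem _ fun j _ => Submodule.smul_mem _ _ (Submodule.subset_span ⟨j, rfl⟩)
  rw [Module.finrank_eq_card_basis (Module.Basis.mk hli hsp), Fintype.card_subtype]

end

end Fermat.Agent.S20
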