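import Fermat.Agent.S20.Interface2

/-! CORE-DualTendsto : `Δ · Φ⁻¹ → 0` at `i∞` for the matrix of translates of a free basis. -/

set_option autoImplicit false

open UpperHalfPlane ModularForm Matrix.SpecialLinearGroup CongruenceSubgroup Filter Topology
open scoped MatrixGroups Manifold ModularForm Real

namespace Fermat.Agent.S20

noncomputable section

local notation "Δ" => ModularForm.discriminant

/-- translates of a form under `z ↦ z + 1`. -/
theorem tr_vadd_one {Γ : Subgroup SL(2, ℤ)} {k : ℤ} {f : ℍ → ℂ} (hf : ∀ γ ∈ Γ, f ∣[k] γ = f)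
    (q : SL(2, ℤ) ⧸ Γ) (z : ℍ) :
    tr k f q ((1 : ℝ) +ᵥ z) = tr k f ((MulAction.toPerm (ModularGroup.T)⁻¹ :
      Equiv.Perm (SL(2, ℤ) ⧸ Γ)) q) z := by
  rw [← UpperHalfPlane.modular_T_smul, tr_smul_apply hf]
  have : denom (ModularGroup.T : SL(2, ℤ)) z = 1 := by
    rw [ModularGroup.denom_apply]
    simp [ModularGroup.T]
  rw [this, one_zpow, one_mul]
  rfl

/-- The columns of `Phi` lie in `VV`. -/
theorem Phi_col_mem_VV {Γ : Subgroup SL(2, ℤ)} {J : Type} (k : J → ℤ) (F : J → ℍ → ℂ)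
    (hF : ∀ j, IsMF Γ (k j) (F j)) (j : J) :
    (fun z x => Phi Γ k F z x j) ∈ VV (SL(2, ℤ) ⧸ Γ) (MulAction.toPerm (ModularGroup.T)⁻¹) := by
  refine ⟨fun x => (hF j).holo_tr x, fun x => (hF j).bdd_tr x, fun z x => ?_⟩
  simp only [Phi_apply]
  exact tr_vadd_one (hF j).inv x z

theorem dual_tendsto (hR : Stmt_Rinf) (hC : Stmt_cuspInverse) : Stmt_dual_tendsto := by
  intro Γ _ _ _ k F hF hk hdet j q
  have key := hC (SL(2, ℤ) ⧸ Γ) (MulAction.toPerm (ModularGroup.T)⁻¹) (Phi Γ k F)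
    (fun j => Phi_col_mem_VV k F hF.isMF j) hdet ?_ j q
  · have h1 : Tendsto (fun z : ℍ => (∏' n, (1 - eta_q n z) ^ 24) *
        (Complex.exp (2 * π * Complex.I * z) * (Phi Γ k F z)⁻¹ j q)) atImInfty (𝓝 (1 * 0)) :=
      tendsto_atImInfty_tprod_one_sub_eta_q_pow.mul key
    rw [mul_zero] at h1
    refine h1.congr fun z => ?_
    rw [discriminant_eq_q_prod]
    simp only [Function.Periodic.qParam, Complex.ofReal_one, div_one]
    ring
  · intro c hc
    have := hR Γ (SL(2, ℤ) ⧸ Γ) k F hF hk (Finsupp.equivFunOnFinite.symm c) ?_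
    · have h2 := congrArg Finsupp.equivFunOnFinite this
      rw [Equiv.apply_symm_apply] at h2
      rw [h2]
      rfl
    · intro x
      refine (hc x).congr_left fun z => ?_
      rw [Finsupp.sum_fintype _ _ (by simp)]
      simp [mul_comm]

end

end Fermat.Agent.S20
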