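import Fermat.Agent.S20.Interface

set_option autoImplicit false

open UpperHalfPlane ModularForm Matrix.SpecialLinearGroup CongruenceSubgroup Filter Topology
open scoped MatrixGroups Manifold ModularForm Real

namespace Fermat.Agent.S20

theorem card_fixedBy : Stmt_card_fixedBy := by
  intro Γ _ _ _ k F hF g z₀ hg hdet
  set Φ := Phi Γ k F z₀ with hΦ
  have hunit : IsUnit Φ.det := isUnit_iff_ne_zero.mpr hdet
  have h1 : ∀ q j, Φ (g • q) j = denom g z₀ ^ (k j) * Φ q j := by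
    intro q j
    have := tr_smul_apply (hF j) (g • q) g z₀
    rw [hg, inv_smul_smul] at this
    simpa [hΦ] using this
  have h2 : ∑ q, (Φ * Φ⁻¹) (g • q) q = ∑ j, denom g z₀ ^ (k j) := by
    simp only [Matrix.mul_apply, h1]
    rw [Finset.sum_comm]
    refine Finset.sum_congr rfl fun j _ => ?_
    have h3 : (Φ⁻¹ * Φ) j j = 1 := by
      rw [Matrix.nonsing_inv_mul _ hunit, Matrix.one_apply_eq]
    rw [Matrix.mul_apply] at h3
    calc ∑ q, denom g z₀ ^ (k j) * Φ q j * Φ⁻¹ j q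
        = denom g z₀ ^ (k j) * ∑ q, Φ⁻¹ j q * Φ q j := by
          rw [Finset.mul_sum]
          exact Finset.sum_congr rfl fun q _ => by ring
      _ = denom g z₀ ^ (k j) := by rw [h3, mul_one]
  rw [← h2, Matrix.mul_nonsing_inv _ hunit]
  simp only [Matrix.one_apply]
  rw [Finset.sum_boole]
  congr 1
  rw [Nat.card_eq_fintype_card, Fintype.card_subtype]
  rfl

/-! ### The elliptic points `i` and `ρ` -/

namespace Elliptic

theorem S_smul_I : ModularGroup.S • UpperHalfPlane.I = UpperHalfPlane.I := by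
  rw [UpperHalfPlane.ext_iff, modular_S_smul, coe_mk]
  simp [UpperHalfPlane.I]

theorem denom_S_I : denom ModularGroup.S UpperHalfPlane.I = Complex.I := by
  rw [ModularGroup.denom_S]
  rfl

theorem ST_smul_rho : (ModularGroup.S * ModularGroup.T) • UpperHalfPlane.ρ = UpperHalfPlane.ρ := by
  rw [mul_smul, UpperHalfPlane.ext_iff, modular_S_smul, modular_T_smul, UpperHalfPlane.coe_mk,
    coe_vadd]
  have h := ρ_sq
  have h0 : (-(((1 : ℝ) : ℂ) + (ρ : ℂ))) ≠ 0 := by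
    intro h1
    have h2 := congrArg Complex.im h1
    simp [ρ] at h2
  rw [inv_eq_iff_eq_inv, eq_comm, inv_eq_iff_eq_inv, eq_comm, inv_eq_one_div,
    div_eq_iff h0]
  push_cast
  linear_combination h

theorem denom_ST_rho :
    denom (ModularGroup.S * ModularGroup.T : SL(2, ℤ)) UpperHalfPlane.ρ = (UpperHalfPlane.ρ : ℂ) + 1 := by
  rw [ModularGroup.denom_apply]
  have h10 : (ModularGroup.S * ModularGroup.T : SL(2, ℤ)) 1 0 = 1 := by
    rw [Matrix.SpecialLinearGroup.coe_mul, ModularGroup.coe_S, ModularGroup.coe_T]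
    simp [Matrix.mul_apply, Fin.sum_univ_two]
  have h11 : (ModularGroup.S * ModularGroup.T : SL(2, ℤ)) 1 1 = 1 := by
    rw [Matrix.SpecialLinearGroup.coe_mul, ModularGroup.coe_S, ModularGroup.coe_T]
    simp [Matrix.mul_apply, Fin.sum_univ_two]
  rw [h10, h11]
  simp

theorem denom_ST_rho' :
    denom (ModularGroup.S * ModularGroup.T : SL(2, ℤ)) UpperHalfPlane.ρ
      = 1 / 2 + Real.sqrt 3 / 2 * Complex.I := by
  rw [denom_ST_rho]
  apply Complex.ext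
  · simp [ρ]; norm_num
  · simp [ρ]

theorem denom_ST_rho_sq :
    denom (ModularGroup.S * ModularGroup.T : SL(2, ℤ)) UpperHalfPlane.ρ ^ 2 = (UpperHalfPlane.ρ : ℂ) := by
  rw [denom_ST_rho]
  linear_combination ρ_sq

theorem rho_cube : (UpperHalfPlane.ρ : ℂ) ^ 3 = 1 := by
  linear_combination ((UpperHalfPlane.ρ : ℂ) - 1) * ρ_sq

/-- trace identity at `i`. -/
theorem trace_S (Γ : Subgroup SL(2, ℤ)) [Γ.FiniteIndex] [Fintype (SL(2, ℤ) ⧸ Γ)]
    [DecidableEq (SL(2, ℤ) ⧸ Γ)] (k : SL(2, ℤ) ⧸ Γ → ℤ) (F : SL(2, ℤ) ⧸ Γ → ℍ → ℂ)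
    (hF : ∀ j, ∀ γ ∈ Γ, F j ∣[k j] γ = F j) (hdet : (Phi Γ k F UpperHalfPlane.I).det ≠ 0) :
    (Nat.card (MulAction.fixedBy (SL(2, ℤ) ⧸ Γ) ModularGroup.S) : ℂ) = ∑ j, Complex.I ^ (k j) := by
  rw [card_fixedBy Γ k F hF ModularGroup.S UpperHalfPlane.I S_smul_I hdet, denom_S_I]

/-- trace identity at `ρ`. -/
theorem trace_ST (Γ : Subgroup SL(2, ℤ)) [Γ.FiniteIndex] [Fintype (SL(2, ℤ) ⧸ Γ)]
    [DecidableEq (SL(2, ℤ) ⧸ Γ)] (k : SL(2, ℤ) ⧸ Γ → ℤ) (F : SL(2, ℤ) ⧸ Γ → ℍ → ℂ)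
    (hF : ∀ j, ∀ γ ∈ Γ, F j ∣[k j] γ = F j) (hdet : (Phi Γ k F UpperHalfPlane.ρ).det ≠ 0) :
    (Nat.card (MulAction.fixedBy (SL(2, ℤ) ⧸ Γ) (ModularGroup.S * ModularGroup.T)) : ℂ)
      = ∑ j, ((UpperHalfPlane.ρ : ℂ) + 1) ^ (k j) := by
  rw [card_fixedBy Γ k F hF (ModularGroup.S * ModularGroup.T) UpperHalfPlane.ρ ST_smul_rho hdet,
    denom_ST_rho]

end Elliptic

end Fermat.Agent.S20
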