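import Fermat.Agent.S20.Interface
import Fermat.Agent.QInt.Theta

/-! CORE-E : a form on `Γ₀(N)` whose stabiliser in `SL(2,ℤ)` is exactly `Γ₀(N)`
(wrapper around `Fermat.Agent.QInt.exists_theta`). -/

set_option autoImplicit false

open UpperHalfPlane ModularForm Matrix.SpecialLinearGroup CongruenceSubgroup Filter Topology
open scoped MatrixGroups Manifold ModularForm Real

namespace Fermat.Agent.S20

theorem exists_form_stabilizer : Stmt_exists_form_stabilizer := by
  intro N _
  obtain ⟨θ, -, hθ⟩ := Fermat.Agent.QInt.exists_theta N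
  exact ⟨4, θ, isMF_coe θ, hθ⟩

end Fermat.Agent.S20
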