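import Mathlib

set_option autoImplicit false

namespace Fermat.Agent.S20

/-- CORE-1: abstract graded free basis. -/
def Stmt_gradedFree : Prop :=
  ∀ (𝒜 : Type) [CommRing 𝒜] [Algebra ℂ 𝒜] (R M : ℤ → Submodule ℂ 𝒜) (e4 e6 : 𝒜),
    (∀ a ∈ R 0, ∃ c : ℂ, a = algebraMap ℂ 𝒜 c) →
    (∀ s < 0, R s = ⊥) →
    (∀ s, s ≠ 0 → ∀ a ∈ R s, ∃ b ∈ R (s - 4), ∃ c ∈ R (s - 6), a = e4 * b + e6 * c) →
    (∀ s t, ∀ a ∈ R s, ∀ b ∈ R t, a * b ∈ R (s + t)) →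
    (∀ s w, ∀ a ∈ R s, ∀ f ∈ M w, a * f ∈ M (s + w)) →
    (1 : 𝒜) ∈ R 0 → e4 ∈ R 4 → e6 ∈ R 6 →
    (∀ w < 0, M w = ⊥) →
    (∀ w, ∀ a ∈ M (w - 4), ∀ b ∈ M (w - 6), e4 * a = e6 * b →
      ∃ c ∈ M (w - 10), a = e6 * c ∧ b = e4 * c) →
    ∃ (J : Type) (k : J → ℤ) (F : J → 𝒜),
      (∀ j, F j ∈ M (k j)) ∧
      (∀ w, ∀ f ∈ M w, ∃ r : J →₀ 𝒜, (∀ j, r j ∈ R (w - k j)) ∧ f = r.sum fun j a => a * F j) ∧
      (∀ w, ∀ r : J →₀ 𝒜, (∀ j, r j ∈ R (w - k j)) → (r.sum fun j a => a * F j) = 0 → r = 0)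

namespace GradedFree

variable {𝒜 : Type} [CommRing 𝒜] [Algebra ℂ 𝒜] {J : Type}

/-- Admissible coefficient vectors of weight `w`. -/
def Adm (R : ℤ → Submodule ℂ 𝒜) (k : J → ℤ) (w : ℤ) : Submodule ℂ (J →₀ 𝒜) where
  carrier := {r | ∀ j, r j ∈ R (w - k j)}
  add_mem' := fun {a b} ha hb j => by
    simpa using (R (w - k j)).add_mem (ha j) (hb j)
  zero_mem' := fun j => by simp
  smul_mem' := fun c r hr j => by
    simpa using (R (w - k j)).smul_mem c (hr j)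

lemma mem_Adm {R : ℤ → Submodule ℂ 𝒜} {k : J → ℤ} {w : ℤ} {r : J →₀ 𝒜} :
    r ∈ Adm R k w ↔ ∀ j, r j ∈ R (w - k j) := Iff.rfl

/-- The evaluation map. -/
noncomputable abbrev T (F : J → 𝒜) : (J →₀ 𝒜) →ₗ[𝒜] 𝒜 := Finsupp.linearCombination 𝒜 F

omit [Algebra ℂ 𝒜] in
lemma T_eq (F : J → 𝒜) (r : J →₀ 𝒜) : T F r = r.sum fun j a => a * F j := by
  simp [T, Finsupp.linearCombination_apply]

section
variable {R M : ℤ → Submodule ℂ 𝒜} {k : J → ℤ} {F : J → 𝒜}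

lemma Adm_smul (hRR : ∀ s t, ∀ a ∈ R s, ∀ b ∈ R t, a * b ∈ R (s + t))
    {s w w' : ℤ} (hw : w' = s + w) {a : 𝒜} (ha : a ∈ R s) {r : J →₀ 𝒜} (hr : r ∈ Adm R k w) :
    a • r ∈ Adm R k w' := by
  intro j
  have h := hRR s (w - k j) a ha (r j) (hr j)
  have e : w' - k j = s + (w - k j) := by rw [hw]; ring
  rw [e]
  simpa using h

lemma T_mem (hRM : ∀ s w, ∀ a ∈ R s, ∀ f ∈ M w, a * f ∈ M (s + w))
    (hF : ∀ j, F j ∈ M (k j)) {w : ℤ} {r : J →₀ 𝒜} (hr : r ∈ Adm R k w) :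
    T F r ∈ M w := by
  rw [T_eq]
  refine Submodule.sum_mem _ fun j _ => ?_
  have h := hRM (w - k j) (k j) (r j) (hr j) (F j) (hF j)
  have e : w - k j + k j = w := by ring
  rwa [e] at h


/-- The ideal-like part of weight `w`. -/
def Iw (M : ℤ → Submodule ℂ 𝒜) (e4 e6 : 𝒜) (w : ℤ) : Submodule ℂ 𝒜 :=
  (M (w - 4)).map (LinearMap.mulLeft ℂ e4) ⊔ (M (w - 6)).map (LinearMap.mulLeft ℂ e6)

lemma mem_Iw {e4 e6 : 𝒜} {w : ℤ} {x : 𝒜} :
    x ∈ Iw M e4 e6 w ↔ ∃ a ∈ M (w - 4), ∃ b ∈ M (w - 6), x = e4 * a + e6 * b := by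
  unfold Iw
  rw [Submodule.mem_sup]
  constructor
  · rintro ⟨y, hy, z, hz, rfl⟩
    obtain ⟨a, ha, rfl⟩ := (Submodule.mem_map).1 hy
    obtain ⟨b, hb, rfl⟩ := (Submodule.mem_map).1 hz
    exact ⟨a, ha, b, hb, rfl⟩
  · rintro ⟨a, ha, b, hb, rfl⟩
    exact ⟨e4 * a, (Submodule.mem_map).2 ⟨a, ha, rfl⟩, e6 * b,
      (Submodule.mem_map).2 ⟨b, hb, rfl⟩, rfl⟩

lemma span_le_image (h1 : (1 : 𝒜) ∈ R 0) (w : ℤ) {c : 𝒜}
    (hc : c ∈ Submodule.span ℂ (F '' {j | k j = w})) :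
    ∃ r ∈ Adm R k w, T F r = c := by
  have key : Submodule.span ℂ (F '' {j | k j = w}) ≤
      (Adm R k w).map ((T F).restrictScalars ℂ) := by
    rw [Submodule.span_le]
    rintro _ ⟨j, hj, rfl⟩
    refine (Submodule.mem_map).2 ⟨Finsupp.single j 1, ?_, by simp [T]⟩
    intro j'
    classical
    by_cases h : j = j'
    · subst h
      have hj' : k j = w := hj
      simpa [hj'] using h1
    · simp [h]
  obtain ⟨r, hr, hrc⟩ := (Submodule.mem_map).1 (key hc)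
  exact ⟨r, hr, hrc⟩

lemma gen_aux {e4 e6 : 𝒜} (hRR : ∀ s t, ∀ a ∈ R s, ∀ b ∈ R t, a * b ∈ R (s + t))
    (h1 : (1 : 𝒜) ∈ R 0) (h4 : e4 ∈ R 4) (h6 : e6 ∈ R 6)
    (hMneg : ∀ w < 0, M w = ⊥)
    (C : ℤ → Submodule ℂ 𝒜)
    (hC : ∀ w, M w ≤ C w ⊔ Iw M e4 e6 w)
    (hspan : ∀ w, C w ≤ Submodule.span ℂ (F '' {j | k j = w})) :
    ∀ (n : ℕ) (w : ℤ), w < n → ∀ f ∈ M w, ∃ r ∈ Adm R k w, T F r = f := by
  intro n
  induction n with
  | zero =>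
    intro w hw f hf
    rw [hMneg w (by simpa using hw)] at hf
    exact ⟨0, Submodule.zero_mem _, by simp [(Submodule.mem_bot ℂ).1 hf]⟩
  | succ n ih =>
    intro w hw f hf
    obtain ⟨c, hc, i, hi, rfl⟩ := Submodule.mem_sup.1 (hC w hf)
    obtain ⟨a, ha, b, hb, rfl⟩ := mem_Iw.1 hi
    obtain ⟨rc, hrc, rfl⟩ := span_le_image (R := R) h1 w (hspan w hc)
    push_cast at hw
    obtain ⟨ra, hra, rfl⟩ := ih (w - 4) (by omega) a ha
    obtain ⟨rb, hrb, rfl⟩ := ih (w - 6) (by omega) b hb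
    refine ⟨rc + (e4 • ra + e6 • rb), ?_, by simp⟩
    exact Submodule.add_mem _ hrc (Submodule.add_mem _
      (Adm_smul hRR (by ring) h4 hra) (Adm_smul hRR (by ring) h6 hrb))

lemma gen {e4 e6 : 𝒜} (hRR : ∀ s t, ∀ a ∈ R s, ∀ b ∈ R t, a * b ∈ R (s + t))
    (h1 : (1 : 𝒜) ∈ R 0) (h4 : e4 ∈ R 4) (h6 : e6 ∈ R 6)
    (hMneg : ∀ w < 0, M w = ⊥)
    (C : ℤ → Submodule ℂ 𝒜)
    (hC : ∀ w, M w ≤ C w ⊔ Iw M e4 e6 w)
    (hspan : ∀ w, C w ≤ Submodule.span ℂ (F '' {j | k j = w}))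
    (w : ℤ) (f : 𝒜) (hf : f ∈ M w) : ∃ r ∈ Adm R k w, T F r = f := by
  refine gen_aux hRR h1 h4 h6 hMneg C hC hspan (w.toNat + 1) w ?_ f hf
  push_cast
  have := Int.self_le_toNat w
  omega

/-- Pointwise decomposition of an admissible vector. -/
lemma decomp {e4 e6 : 𝒜} (hR0 : ∀ a ∈ R 0, ∃ c : ℂ, a = algebraMap ℂ 𝒜 c)
    (hdec : ∀ s, s ≠ 0 → ∀ a ∈ R s, ∃ b ∈ R (s - 4), ∃ c ∈ R (s - 6), a = e4 * b + e6 * c)
    {w : ℤ} {r : J →₀ 𝒜} (hr : r ∈ Adm R k w) :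
    ∃ (l : J →₀ ℂ) (b c : J →₀ 𝒜), l ∈ Finsupp.supported ℂ ℂ {j | k j = w} ∧
      b ∈ Adm R k (w - 4) ∧ c ∈ Adm R k (w - 6) ∧
      (∀ j, r j = algebraMap ℂ 𝒜 (l j) + (e4 * b j + e6 * c j)) := by
  classical
  have key : ∀ j, ∃ (l : ℂ) (b c : 𝒜), (k j ≠ w → l = 0) ∧ b ∈ R (w - 4 - k j) ∧
      c ∈ R (w - 6 - k j) ∧ r j = algebraMap ℂ 𝒜 l + (e4 * b + e6 * c) ∧
      (r j = 0 → l = 0 ∧ b = 0 ∧ c = 0) := by
    intro j
    by_cases h0 : r j = 0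
    · exact ⟨0, 0, 0, fun _ => rfl, Submodule.zero_mem _, Submodule.zero_mem _, by simp [h0],
        fun _ => ⟨rfl, rfl, rfl⟩⟩
    by_cases hk : k j = w
    · have h := hr j
      rw [hk, sub_self] at h
      obtain ⟨l, hl⟩ := hR0 _ h
      exact ⟨l, 0, 0, fun h => absurd hk h, Submodule.zero_mem _, Submodule.zero_mem _,
        by simp [hl], fun h => absurd h h0⟩
    · obtain ⟨b, hb, c, hc, hbc⟩ := hdec (w - k j) (fun h => hk (by omega)) _ (hr j)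
      have e1 : w - 4 - k j = w - k j - 4 := by ring
      have e2 : w - 6 - k j = w - k j - 6 := by ring
      exact ⟨0, b, c, fun _ => rfl, e1 ▸ hb, e2 ▸ hc, by simp [hbc], fun h => absurd h h0⟩
  choose l b c h1 h2 h3 h4 h5 using key
  refine ⟨Finsupp.onFinset r.support l ?_, Finsupp.onFinset r.support b ?_,
    Finsupp.onFinset r.support c ?_, ?_, ?_, ?_, ?_⟩
  · intro j hj
    rw [Finsupp.mem_support_iff]
    exact fun h => hj (h5 j h).1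
  · intro j hj
    rw [Finsupp.mem_support_iff]
    exact fun h => hj (h5 j h).2.1
  · intro j hj
    rw [Finsupp.mem_support_iff]
    exact fun h => hj (h5 j h).2.2
  · rw [Finsupp.mem_supported']
    intro j hj
    exact h1 j hj
  · intro j
    exact h2 j
  · intro j
    exact h3 j
  · intro j
    exact h4 j


lemma T_mapRange (l : J →₀ ℂ) :
    T F (l.mapRange (algebraMap ℂ 𝒜) (map_zero _)) = Finsupp.linearCombination ℂ F l := by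
  rw [T_eq, Finsupp.linearCombination_apply, Finsupp.sum_mapRange_index (by simp)]
  simp [Algebra.smul_def]

lemma linComb_mem (C : ℤ → Submodule ℂ 𝒜) (hFC : ∀ j, F j ∈ C (k j)) {w : ℤ} {l : J →₀ ℂ}
    (hl : l ∈ Finsupp.supported ℂ ℂ {j | k j = w}) :
    Finsupp.linearCombination ℂ F l ∈ C w := by
  rw [Finsupp.linearCombination_apply]
  refine Submodule.sum_mem _ fun j hj => ?_
  have hjw : k j = w := (Finsupp.mem_supported ℂ l).1 hl hj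
  exact Submodule.smul_mem _ _ (hjw ▸ hFC j)

lemma indep_aux {e4 e6 : 𝒜} (hR0 : ∀ a ∈ R 0, ∃ c : ℂ, a = algebraMap ℂ 𝒜 c)
    (hRneg : ∀ s < 0, R s = ⊥)
    (hdec : ∀ s, s ≠ 0 → ∀ a ∈ R s, ∃ b ∈ R (s - 4), ∃ c ∈ R (s - 6), a = e4 * b + e6 * c)
    (hRR : ∀ s t, ∀ a ∈ R s, ∀ b ∈ R t, a * b ∈ R (s + t))
    (hRM : ∀ s w, ∀ a ∈ R s, ∀ f ∈ M w, a * f ∈ M (s + w))
    (h1 : (1 : 𝒜) ∈ R 0) (h4 : e4 ∈ R 4) (h6 : e6 ∈ R 6)
    (hMneg : ∀ w < 0, M w = ⊥)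
    (hcop : ∀ w, ∀ a ∈ M (w - 4), ∀ b ∈ M (w - 6), e4 * a = e6 * b →
      ∃ c ∈ M (w - 10), a = e6 * c ∧ b = e4 * c)
    (C : ℤ → Submodule ℂ 𝒜)
    (hC : ∀ w, M w ≤ C w ⊔ Iw M e4 e6 w)
    (hspan : ∀ w, C w ≤ Submodule.span ℂ (F '' {j | k j = w}))
    (hdisj : ∀ w, Disjoint (C w) (Iw M e4 e6 w))
    (hFC : ∀ j, F j ∈ C (k j))
    (hF : ∀ j, F j ∈ M (k j))
    (hk : ∀ j, 0 ≤ k j)
    (hli : ∀ w, LinearIndepOn ℂ F {j | k j = w}) :
    ∀ (n : ℕ) (w : ℤ), w < n → ∀ r ∈ Adm R k w, T F r = 0 → r = 0 := by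
  intro n
  induction n with
  | zero =>
    intro w hw r hr _
    ext j
    have h := hr j
    rw [hRneg (w - k j) (by have := hk j; simp at hw; omega)] at h
    simpa using h
  | succ n ih =>
    intro w hw r hr hT
    push_cast at hw
    obtain ⟨l, b, c, hl, hb, hc, hrj⟩ := decomp hR0 hdec hr
    have hreq : r = l.mapRange (algebraMap ℂ 𝒜) (map_zero _) + (e4 • b + e6 • c) := by
      ext j
      simp [hrj j]
    have hTb : T F b ∈ M (w - 4) := T_mem hRM hF hb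
    have hTc : T F c ∈ M (w - 6) := T_mem hRM hF hc
    have h0 : Finsupp.linearCombination ℂ F l + (e4 * T F b + e6 * T F c) = 0 := by
      rw [hreq, map_add, T_mapRange] at hT
      simpa using hT
    have hlC : Finsupp.linearCombination ℂ F l ∈ C w := linComb_mem C hFC hl
    have hI : e4 * T F b + e6 * T F c ∈ Iw M e4 e6 w := mem_Iw.2 ⟨_, hTb, _, hTc, rfl⟩
    have hlI : Finsupp.linearCombination ℂ F l ∈ Iw M e4 e6 w := by
      rw [eq_neg_of_add_eq_zero_left h0]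
      exact Submodule.neg_mem _ hI
    have hl0 : Finsupp.linearCombination ℂ F l = 0 :=
      (Submodule.disjoint_def.1 (hdisj w)) _ hlC hlI
    have hlz : l = 0 := (linearIndepOn_iff.1 (hli w)) l hl hl0
    rw [hl0, zero_add] at h0
    have h0' : e4 * T F b = e6 * (-(T F c)) := by
      rw [mul_neg]
      exact eq_neg_of_add_eq_zero_left h0
    obtain ⟨γ', hγ', hbγ, hcγ⟩ := hcop w _ hTb _ (Submodule.neg_mem _ hTc) h0'
    obtain ⟨γ, hγ, rfl⟩ := gen (R := R) hRR h1 h4 h6 hMneg C hC hspan (w - 10) γ' hγ'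
    have hb' : b - e6 • γ = 0 := by
      refine ih (w - 4) (by omega) _ (Submodule.sub_mem _ hb (Adm_smul hRR (by ring) h6 hγ)) ?_
      rw [map_sub, map_smul, hbγ]
      simp
    have hc' : c + e4 • γ = 0 := by
      refine ih (w - 6) (by omega) _ (Submodule.add_mem _ hc (Adm_smul hRR (by ring) h4 hγ)) ?_
      rw [map_add, map_smul, smul_eq_mul, ← hcγ]
      simp
    have hb'' : b = e6 • γ := sub_eq_zero.1 hb'
    have hc'' : c = -(e4 • γ) := eq_neg_of_add_eq_zero_left hc'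
    rw [hreq, hlz, hb'', hc'']
    simp [smul_smul, mul_comm e4 e6]

lemma indep {e4 e6 : 𝒜} (hR0 : ∀ a ∈ R 0, ∃ c : ℂ, a = algebraMap ℂ 𝒜 c)
    (hRneg : ∀ s < 0, R s = ⊥)
    (hdec : ∀ s, s ≠ 0 → ∀ a ∈ R s, ∃ b ∈ R (s - 4), ∃ c ∈ R (s - 6), a = e4 * b + e6 * c)
    (hRR : ∀ s t, ∀ a ∈ R s, ∀ b ∈ R t, a * b ∈ R (s + t))
    (hRM : ∀ s w, ∀ a ∈ R s, ∀ f ∈ M w, a * f ∈ M (s + w))
    (h1 : (1 : 𝒜) ∈ R 0) (h4 : e4 ∈ R 4) (h6 : e6 ∈ R 6)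
    (hMneg : ∀ w < 0, M w = ⊥)
    (hcop : ∀ w, ∀ a ∈ M (w - 4), ∀ b ∈ M (w - 6), e4 * a = e6 * b →
      ∃ c ∈ M (w - 10), a = e6 * c ∧ b = e4 * c)
    (C : ℤ → Submodule ℂ 𝒜)
    (hC : ∀ w, M w ≤ C w ⊔ Iw M e4 e6 w)
    (hspan : ∀ w, C w ≤ Submodule.span ℂ (F '' {j | k j = w}))
    (hdisj : ∀ w, Disjoint (C w) (Iw M e4 e6 w))
    (hFC : ∀ j, F j ∈ C (k j))
    (hF : ∀ j, F j ∈ M (k j))
    (hk : ∀ j, 0 ≤ k j)
    (hli : ∀ w, LinearIndepOn ℂ F {j | k j = w})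
    (w : ℤ) (r : J →₀ 𝒜) (hr : r ∈ Adm R k w) (hT : T F r = 0) : r = 0 := by
  refine indep_aux hR0 hRneg hdec hRR hRM h1 h4 h6 hMneg hcop C hC hspan hdisj hFC hF hk hli
    (w.toNat + 1) w ?_ r hr hT
  push_cast
  have := Int.self_le_toNat w
  omega

end

end GradedFree

open GradedFree in
theorem gradedFree : Stmt_gradedFree := by
  intro 𝒜 _ _ R M e4 e6 hR0 hRneg hdec hRR hRM h1 h4 h6 hMneg hcop
  classical
  have hIM : ∀ w, Iw M e4 e6 w ≤ M w := by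
    intro w x hx
    obtain ⟨a, ha, b, hb, rfl⟩ := mem_Iw.1 hx
    refine Submodule.add_mem _ ?_ ?_
    · have := hRM 4 (w - 4) e4 h4 a ha
      rwa [show (4 : ℤ) + (w - 4) = w by ring] at this
    · have := hRM 6 (w - 6) e6 h6 b hb
      rwa [show (6 : ℤ) + (w - 6) = w by ring] at this
  have hex : ∀ w, ∃ Q : Submodule ℂ 𝒜, IsCompl (Iw M e4 e6 w) Q :=
    fun w => Submodule.exists_isCompl _
  choose Q hQ using hex
  let C : ℤ → Submodule ℂ 𝒜 := fun w => Q w ⊓ M w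
  have hCM : ∀ w, C w ≤ M w := fun w => inf_le_right
  have hC : ∀ w, M w ≤ C w ⊔ Iw M e4 e6 w := by
    intro w x hx
    have hx' : x ∈ Iw M e4 e6 w ⊔ Q w := by
      rw [(hQ w).sup_eq_top]; trivial
    obtain ⟨i, hi, q, hq, rfl⟩ := Submodule.mem_sup.1 hx'
    refine Submodule.mem_sup.2 ⟨q, ⟨hq, ?_⟩, i, hi, add_comm _ _⟩
    have := Submodule.sub_mem _ hx (hIM w hi)
    simpa using this
  have hdisj : ∀ w, Disjoint (C w) (Iw M e4 e6 w) :=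
    fun w => ((hQ w).disjoint.symm).mono_left inf_le_left
  let J := Σ w : ℤ, Module.Basis.ofVectorSpaceIndex ℂ (C w)
  let k : J → ℤ := Sigma.fst
  let F : J → 𝒜 := fun j => ((Module.Basis.ofVectorSpace ℂ (C j.1)) j.2 : 𝒜)
  have hFC : ∀ j, F j ∈ C (k j) := fun j => ((Module.Basis.ofVectorSpace ℂ (C j.1)) j.2).2
  have hF : ∀ j, F j ∈ M (k j) := fun j => hCM _ (hFC j)
  have hk : ∀ j, 0 ≤ k j := by
    intro j
    by_contra hneg
    push Not at hneg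
    have h := hF j
    rw [hMneg _ hneg, Submodule.mem_bot] at h
    have hne := (Module.Basis.ofVectorSpace ℂ (C j.1)).ne_zero j.2
    exact hne (Subtype.ext h)
  have hspan : ∀ w, C w ≤ Submodule.span ℂ (F '' {j | k j = w}) := by
    intro w x hx
    have hmem : (⟨x, hx⟩ : C w) ∈
        Submodule.span ℂ (Set.range (Module.Basis.ofVectorSpace ℂ (C w))) := by
      rw [(Module.Basis.ofVectorSpace ℂ (C w)).span_eq]; trivial
    have h2 := Submodule.mem_map_of_mem (f := (C w).subtype) hmem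
    rw [Submodule.map_span] at h2
    refine Submodule.span_mono ?_ h2
    rintro _ ⟨_, ⟨i, rfl⟩, rfl⟩
    exact ⟨⟨w, i⟩, rfl, rfl⟩
  have hli : ∀ w, LinearIndepOn ℂ F {j | k j = w} := by
    intro w
    have hset : {j : J | k j = w} = Set.range (Sigma.mk w) := by
      ext ⟨w', i⟩
      constructor
      · intro h
        have h' : w' = w := h
        subst h'
        exact ⟨i, rfl⟩
      · rintro ⟨i', hi'⟩
        exact (congrArg Sigma.fst hi').symm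
    rw [hset, linearIndepOn_range_iff sigma_mk_injective]
    exact (Module.Basis.ofVectorSpace ℂ (C w)).linearIndependent.map' (C w).subtype
      (Submodule.ker_subtype _)
  refine ⟨J, k, F, hF, ?_, ?_⟩
  · intro w f hf
    obtain ⟨r, hr, hrf⟩ := gen (R := R) hRR h1 h4 h6 hMneg C hC hspan w f hf
    exact ⟨r, hr, by rw [← hrf, T_eq]⟩
  · intro w r hr hT
    exact indep hR0 hRneg hdec hRR hRM h1 h4 h6 hMneg hcop C hC hspan hdisj hFC hF hk hli w r hr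
      (by rw [T_eq]; exact hT)


end Fermat.Agent.S20
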