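import Fermat.Agent.S20.Interface
import Fermat.Agent.S20.GradedFree

/-! CORE-FB: existence of a free basis of `⨁ M_w(Γ)` over `⨁ M_w(SL(2,ℤ))`, and first
properties of the weights. -/

set_option autoImplicit false

open UpperHalfPlane ModularForm Matrix.SpecialLinearGroup CongruenceSubgroup Filter Topology
open scoped MatrixGroups Manifold ModularForm Real

namespace Fermat.Agent.S20

noncomputable section

theorem exists_freeBasis (hgen : Stmt_levelOne_gen) (hcop : Stmt_coprime) :
    Stmt_exists_freeBasis := by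
  intro Γ _
  obtain ⟨J, k, F, hF, hg, hi⟩ := gradedFree (ℍ → ℂ) (fun s => Mf ⊤ s) (fun w => Mf Γ w)
    (ModularForm.E₄ : ℍ → ℂ) (ModularForm.E₆ : ℍ → ℂ)
    (by
      intro a ha
      obtain ⟨c, hc⟩ := IsMF.eq_const_of_weight_zero (mem_Mf.1 ha)
      exact ⟨c, hc⟩)
    (by
      intro s hs
      rw [eq_bot_iff]
      intro a ha
      exact (Submodule.mem_bot ℂ).2 (IsMF.eq_zero_of_neg hs (mem_Mf.1 ha)))
    (by
      intro s hs a ha
      obtain ⟨b, c, hb, hc, h⟩ := hgen s a hs (mem_Mf.1 ha)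
      exact ⟨b, hb, c, hc, h⟩)
    (fun s t a ha b hb => IsMF.mul ha hb)
    (fun s w a ha f hf => IsMF.mul (IsMF.of_top ha) hf)
    IsMF.one isMF_E4 isMF_E6
    (by
      intro s hs
      rw [eq_bot_iff]
      intro a ha
      exact (Submodule.mem_bot ℂ).2 (IsMF.eq_zero_of_neg hs (mem_Mf.1 ha)))
    (by
      intro w a ha b hb h
      obtain ⟨c, hc, h1, h2⟩ := hcop Γ w a b ha hb h
      exact ⟨c, hc, h1, h2⟩)
  exact ⟨J, k, F, ⟨hF, hg, hi⟩⟩

theorem IsFreeBasis.ne_zero {Γ : Subgroup SL(2, ℤ)} {J : Type} {k : J → ℤ} {F : J → ℍ → ℂ}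
    (h : IsFreeBasis Γ k F) (j : J) : F j ≠ 0 := by
  classical
  intro h0
  have hA := h.indep (k j) (Finsupp.single j 1) (by
    intro j'
    by_cases hj : j = j'
    · subst hj
      simpa using (IsMF.one : IsMF ⊤ 0 1)
    · simpa [hj] using (IsMF.zero_mem : IsMF ⊤ (k j - k j') 0)) (by simp [h0])
  have := congrArg (fun A : J →₀ (ℍ → ℂ) => A j) hA
  simp at this

theorem freeBasis_even (h : Stmt_odd_weight) : Stmt_freeBasis_even := by
  intro Γ J k F hΓ hB j
  rw [← Int.not_odd_iff_even]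
  intro hodd
  exact hB.ne_zero j (h Γ (k j) (F j) hΓ hodd (hB.isMF j))

theorem freeBasis_weight_zero : Stmt_freeBasis_weight_zero := by
  intro Γ _ J _ k F hB
  classical
  have hk : ∀ j, 0 ≤ k j := by
    intro j
    by_contra hneg
    push Not at hneg
    exact hB.ne_zero j (IsMF.eq_zero_of_neg hneg (hB.isMF j))
  refine ⟨hk, ?_⟩
  rw [Finset.card_eq_one]
  -- existence
  obtain ⟨A, hA, h1⟩ := hB.gen 0 1 IsMF.one
  have hex : ∃ j, k j = 0 := by
    by_contra hno
    push Not at hno
    have hA0 : A = 0 := by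
      ext1 j
      have hlt : 0 - k j < 0 := by
        have := hk j
        have := hno j
        omega
      simpa using IsMF.eq_zero_of_neg hlt (hA j)
    rw [hA0] at h1
    simp at h1
  obtain ⟨j₀, hj₀⟩ := hex
  refine ⟨j₀, ?_⟩
  ext j
  simp only [Finset.mem_filter, Finset.mem_univ, true_and, Finset.mem_singleton]
  constructor
  · intro hj
    by_contra hne
    obtain ⟨c, hc⟩ := IsMF.eq_const_of_weight_zero (hj ▸ hB.isMF j)
    obtain ⟨c₀, hc₀⟩ := IsMF.eq_const_of_weight_zero (hj₀ ▸ hB.isMF j₀)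
    have hz := hB.indep 0 (Finsupp.single j (fun _ => c₀) - Finsupp.single j₀ (fun _ => c)) (by
      intro j'
      rw [Finsupp.sub_apply]
      refine IsMF.sub ?_ ?_
      · by_cases hjj : j = j'
        · subst hjj
          simpa [hj] using (IsMF.const c₀ : IsMF ⊤ 0 _)
        · simpa [hjj] using (IsMF.zero_mem : IsMF ⊤ (0 - k j') 0)
      · by_cases hjj : j₀ = j'
        · subst hjj
          simpa [hj₀] using (IsMF.const c : IsMF ⊤ 0 _)
        · simpa [hjj] using (IsMF.zero_mem : IsMF ⊤ (0 - k j') 0)) (by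
      rw [Finsupp.sum_sub_index (by intro j a b; ring)]
      simp only [zero_mul, Finsupp.sum_single_index]
      rw [hc, hc₀]
      ext z
      simp [mul_comm])
    have h2 := congrArg (fun A : J →₀ (ℍ → ℂ) => A j₀) hz
    simp only [Finsupp.sub_apply, Finsupp.single_eq_same, Finsupp.coe_zero, Pi.zero_apply] at h2
    rw [Finsupp.single_eq_of_ne (by exact fun h => hne h.symm)] at h2
    apply hB.ne_zero j
    rw [hc]
    simpa using h2
  · rintro rfl
    exact hj₀

end

end Fermat.Agent.S20
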