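import Fermat.Agent.S20.InfInterface

set_option autoImplicit false

open UpperHalfPlane Filter Topology Real
open scoped Manifold

namespace Fermat.Agent.S20

namespace LeadingTerm

variable {X : Type} [Fintype X] [DecidableEq X]

/-- coordinates of `v z` in the eigenbasis `B`. -/
noncomputable def coord (B : Matrix X X ℂ) (v : ℍ → X → ℂ) (i : X) (z : ℍ) : ℂ :=
  ∑ x, B⁻¹ i x * v z x

lemma coord_add (B : Matrix X X ℂ) (v w : ℍ → X → ℂ) (i : X) (z : ℍ) :
    coord B (v + w) i z = coord B v i z + coord B w i z := by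
  simp only [coord, Pi.add_apply, mul_add, Finset.sum_add_distrib]

lemma coord_smul (B : Matrix X X ℂ) (a : ℂ) (v : ℍ → X → ℂ) (i : X) (z : ℍ) :
    coord B (a • v) i z = a * coord B v i z := by
  simp only [coord, Pi.smul_apply, smul_eq_mul, Finset.mul_sum]
  exact Finset.sum_congr rfl fun x _ => by ring

lemma coord_mdiff (B : Matrix X X ℂ) {v : ℍ → X → ℂ} (hv : ∀ x, MDiff (fun z => v z x)) (i : X) :
    MDiff (coord B v i) := by
  have : coord B v i = fun z => ∑ x, B⁻¹ i x * v z x := rfl
  rw [this]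
  have h : ∀ s : Finset X, MDiff (fun z => ∑ x ∈ s, B⁻¹ i x * v z x) := by
    intro s
    induction s using Finset.induction_on with
    | empty => simpa using mdifferentiable_const
    | insert a s ha ih =>
      simp only [Finset.sum_insert ha]
      exact ((mdifferentiable_const (c := B⁻¹ i a)).mul (hv a)).add ih
  exact h _

lemma coord_bdd (B : Matrix X X ℂ) {v : ℍ → X → ℂ}
    (hv : ∀ x, IsBoundedAtImInfty (fun z => v z x)) (i : X) :
    IsBoundedAtImInfty (coord B v i) := by
  have : coord B v i = fun z => ∑ x, B⁻¹ i x * v z x := rfl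
  rw [this]
  have h : ∀ s : Finset X, IsBoundedAtImInfty (fun z => ∑ x ∈ s, B⁻¹ i x * v z x) := by
    intro s
    induction s using Finset.induction_on with
    | empty =>
      simp only [Finset.sum_empty]
      exact Filter.const_boundedAtFilter _ (0 : ℂ)
    | insert a s ha ih =>
      simp only [Finset.sum_insert ha]
      exact ((Filter.const_boundedAtFilter _ (B⁻¹ i a)).mul (hv a)).add ih
  exact h _

lemma recover (B : Matrix X X ℂ) (hB : IsUnit B.det) (v : ℍ → X → ℂ) (z : ℍ) (x : X) :
    v z x = ∑ i, B x i * coord B v i z := by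
  have h1 : B.mulVec (B⁻¹.mulVec (v z)) = v z := by
    rw [Matrix.mulVec_mulVec, Matrix.mul_nonsing_inv _ hB, Matrix.one_mulVec]
  have h2 := congrFun h1 x
  rw [← h2]
  rfl

lemma coord_shift (B : Matrix X X ℂ) (hB : IsUnit B.det) (σ : Equiv.Perm X) (e : X → ℂ)
    (hBσ : ∀ x i, B (σ x) i = e i * B x i) {v : ℍ → X → ℂ}
    (hv : ∀ z x, v ((1 : ℝ) +ᵥ z) x = v z (σ x)) (i : X) (z : ℍ) :
    coord B v i ((1 : ℝ) +ᵥ z) = e i * coord B v i z := by
  have h1 : coord B v i ((1 : ℝ) +ᵥ z) = ∑ x, B⁻¹ i x * ∑ k, B (σ x) k * coord B v k z := by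
    unfold coord
    refine Finset.sum_congr rfl fun x _ => ?_
    rw [hv, recover B hB v z (σ x)]
    rfl
  rw [h1]
  simp only [hBσ, Finset.mul_sum]
  rw [Finset.sum_comm]
  have h2 : ∀ k, ∑ x, B⁻¹ i x * (e k * B x k * coord B v k z)
      = (B⁻¹ * B) i k * (e k * coord B v k z) := by
    intro k
    rw [Matrix.mul_apply, Finset.sum_mul]
    exact Finset.sum_congr rfl fun x _ => by ring
  simp only [h2, Matrix.nonsing_inv_mul _ hB, Matrix.one_apply]
  simp

end LeadingTerm

open LeadingTerm in
theorem leadingTerm (hA : Stmt_permDiag) (hB : Stmt_twistedLimit) : Stmt_leadingTerm := by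
  intro X _ _ σ
  obtain ⟨B, θ, hBdet, hθ, hBσ⟩ := hA X σ
  have key : ∀ (v : VV X σ) (i : X), ∃ L : ℂ,
      Tendsto (fun z : ℍ => Complex.exp (-(2 * π * Complex.I * θ i * z)) *
        coord B (v : ℍ → X → ℂ) i z) atImInfty (𝓝 L) ∧
      (L = 0 → IsBigOq (coord B (v : ℍ → X → ℂ) i)) := by
    intro v i
    obtain ⟨h1, h2, h3⟩ := v.2
    exact hB (θ i) (hθ i).1 (hθ i).2 _ (coord_mdiff B h1 i) (coord_bdd B h2 i)
      (coord_shift B hBdet σ _ hBσ h3 i)
  choose L hL hL0 using key
  refine ⟨{ toFun := L, map_add' := ?_, map_smul' := ?_ }, ?_⟩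
  · intro v w
    funext i
    refine tendsto_nhds_unique (hL (v + w) i) ?_
    have := (hL v i).add (hL w i)
    refine this.congr fun z => ?_
    rw [Submodule.coe_add, coord_add]
    ring
  · intro a v
    funext i
    refine tendsto_nhds_unique (hL (a • v) i) ?_
    have := (hL v i).const_mul a
    simp only [RingHom.id_apply, Pi.smul_apply, smul_eq_mul]
    refine this.congr fun z => ?_
    rw [Submodule.coe_smul, coord_smul]
    ring
  · intro v hv x
    have hv' : ∀ i, L v i = 0 := fun i => congrFun hv i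
    have h : (fun z => (v : ℍ → X → ℂ) z x) = fun z => ∑ i, B x i * coord B (v : ℍ → X → ℂ) i z := by
      funext z
      exact recover B hBdet _ z x
    rw [h]
    unfold IsBigOq
    have h6 : ∀ i ∈ (Finset.univ : Finset X), (fun z => B x i * coord B (v : ℍ → X → ℂ) i z)
        =O[atImInfty] fun z : ℍ => Real.exp (-2 * π * z.im) := by
      intro i _
      have h5 := hL0 v i (hv' i)
      unfold IsBigOq at h5
      exact h5.const_mul_left _
    have h7 := Asymptotics.IsBigO.sum h6
    refine h7.congr_left fun z => ?_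
    simp only [Finset.sum_apply]

end Fermat.Agent.S20
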