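import Fermat.Agent.S20.Interface

/-! CORE-L1 : level one facts (helper15). -/

set_option autoImplicit false

open UpperHalfPlane ModularForm Matrix.SpecialLinearGroup CongruenceSubgroup Filter Topology
open EisensteinSeries SlashInvariantFormClass
open scoped MatrixGroups Manifold ModularForm Real

namespace Fermat.Agent.S20

noncomputable section

local notation "Δ" => ModularForm.discriminant
local notation "E4" => (ModularForm.E₄ : ℍ → ℂ)
local notation "E6" => (ModularForm.E₆ : ℍ → ℂ)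

/-- A level one modular form tends to the constant term of its `q`-expansion. -/
theorem tendsto_levelOne {k : ℤ} (F : ModularForm 𝒮ℒ k) :
    Tendsto F atImInfty (𝓝 ((qExpansion 1 F).coeff 0)) := by
  have hanal := ModularFormClass.analyticAt_cuspFunction_zero F one_pos one_mem_strictPeriods_SL
  have hper := periodic_comp_ofComplex F one_mem_strictPeriods_SL
  rw [qExpansion_coeff_zero one_pos hanal hper, ← cuspFunction_apply_zero one_pos hanal hper]
  exact (hanal.continuousAt.tendsto.comp (qParam_tendsto_atImInfty one_pos)).congr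
    (fun τ ↦ SlashInvariantFormClass.eq_cuspFunction F τ one_mem_strictPeriods_SL one_ne_zero)

theorem tendsto_E {k : ℕ} (hk : 3 ≤ k) (hk2 : Even k) :
    Tendsto (E hk : ℍ → ℂ) atImInfty (𝓝 1) := by
  have := tendsto_levelOne (E hk)
  rwa [E_qExpansion_coeff_zero hk hk2] at this

theorem tendsto_E4 : Stmt_tendsto_E4 := tendsto_E _ ⟨2, rfl⟩

theorem tendsto_E6 : Stmt_tendsto_E6 := tendsto_E _ ⟨3, rfl⟩

theorem levelOne_weight_two : Stmt_levelOne_weight_two := by
  intro f hf
  have h := rank_zero_iff_forall_zero.mp levelOne_weight_two_rank_zero hf.toLevelOne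
  simpa using congrArg (fun F : ModularForm 𝒮ℒ 2 => (F : ℍ → ℂ)) h

theorem levelOne_monomial : Stmt_levelOne_monomial := by
  intro s hs hev
  obtain ⟨n, rfl⟩ := Int.eq_ofNat_of_zero_le (by lia : 0 ≤ s)
  have hn : 3 ≤ n := by lia
  have hev' : Even n := by exact_mod_cast hev
  refine ⟨E hn, isMF_top_coe _, tendsto_E hn hev', ?_⟩
  have hper := periodic_comp_ofComplex (E hn) one_mem_strictPeriods_SL
  have h1 := UpperHalfPlane.exp_decay_sub_atImInfty one_pos hper (ModularFormClass.holo (E hn))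
    (ModularFormClass.bdd_at_infty (E hn))
  have hv : valueAtInfty (E hn : ℍ → ℂ) = 1 := by
    have hanal := ModularFormClass.analyticAt_cuspFunction_zero (E hn) one_pos
      one_mem_strictPeriods_SL
    rw [← qExpansion_coeff_zero one_pos hanal hper, E_qExpansion_coeff_zero hn hev']
  rw [hv] at h1
  simpa [IsBigOq] using h1

theorem levelOne_cusp_lt : Stmt_levelOne_cusp_lt := by
  intro s f hs hf
  have h := rank_zero_iff_forall_zero.mp (CuspForm.rank_eq_zero_of_weight_lt_twelve hs)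
    hf.toLevelOne
  simpa using congrArg (fun F : CuspForm 𝒮ℒ s => (F : ℍ → ℂ)) h

theorem levelOne_cusp_twelve : Stmt_levelOne_cusp_twelve := by
  intro f hf
  obtain ⟨c, hc⟩ := CuspForm.exists_smul_discriminant_of_weight_eq_twelve hf.toLevelOne
  refine ⟨c, ?_⟩
  have := congrArg (fun F : CuspForm 𝒮ℒ 12 => (F : ℍ → ℂ)) hc
  simpa using this.symm

theorem odd_weight : Stmt_odd_weight := by
  intro Γ k f h1 hk hf
  funext z
  have h := congrFun (hf.inv (-1) h1) z
  rw [SL_slash_apply] at h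
  have hd : denom ((-1 : SL(2, ℤ)) : GL (Fin 2) ℝ) z = -1 := by
    simp [denom]
  have hs : ((-1 : SL(2, ℤ))) • z = z := by
    rw [ModularGroup.SL_neg_smul, one_smul]
  rw [hs, hd, hk.neg.neg_one_zpow] at h
  have h2 : (2 : ℂ) * f z = 0 := by linear_combination -h
  simpa using h2

theorem cusp_nonpos : Stmt_cusp_nonpos := by
  intro Γ _ k f hk hf
  rcases hk.lt_or_eq with hk | rfl
  · exact hf.isMF.eq_zero_of_neg hk
  · obtain ⟨c, rfl⟩ := hf.isMF.eq_const_of_weight_zero
    have h0 : Tendsto (fun _ : ℍ => c) atImInfty (𝓝 0) := hf.zero_self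
    have : c = 0 := tendsto_nhds_unique tendsto_const_nhds h0
    subst this
    rfl

theorem levelOne_gen : Stmt_levelOne_gen := by
  intro s A hs hA
  by_cases h0 : A = 0
  · subst h0
    exact ⟨0, 0, IsMF.zero_mem, IsMF.zero_mem, by simp⟩
  have hs0 : 0 ≤ s := by
    by_contra h
    exact h0 (hA.eq_zero_of_neg (by lia))
  have hev : Even s := by
    by_contra h
    exact h0 (odd_weight ⊤ s A trivial (Int.not_even_iff_odd.mp h) hA)
  have hs2 : s ≠ 2 := by
    rintro rfl
    exact h0 (levelOne_weight_two A hA)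
  have hs4 : 4 ≤ s := by
    obtain ⟨m, rfl⟩ := hev
    lia
  obtain ⟨a0, b0, ha0, hb0, hG⟩ : ∃ a0 b0 : ℍ → ℂ, IsMF ⊤ (s - 4) a0 ∧ IsMF ⊤ (s - 6) b0 ∧
      Tendsto (E4 * a0 + E6 * b0) atImInfty (𝓝 1) := by
    by_cases h6 : s = 6
    · subst h6
      exact ⟨0, 1, IsMF.zero_mem, by simpa using IsMF.one,
        by simpa using tendsto_E (k := 6) (by norm_num) ⟨3, rfl⟩⟩
    by_cases h4 : s = 4
    · subst h4
      exact ⟨1, 0, by simpa using IsMF.one, IsMF.zero_mem,
        by simpa using tendsto_E (k := 4) (by norm_num) ⟨2, rfl⟩⟩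
    · obtain ⟨M, hM, hMl, -⟩ := levelOne_monomial (s - 4) (by obtain ⟨m, rfl⟩ := hev; lia)
        (hev.sub ⟨2, rfl⟩)
      have h1 : Tendsto (E4 * M) atImInfty (𝓝 (1 * 1)) := Tendsto.mul tendsto_E4 hMl
      exact ⟨M, 0, hM, IsMF.zero_mem, by simpa using h1⟩
  set c := (qExpansion 1 hA.toLevelOne).coeff 0 with hcdef
  have hc : Tendsto A atImInfty (𝓝 c) := tendsto_levelOne hA.toLevelOne
  have hG' : IsMF ⊤ s (E4 * a0 + E6 * b0) :=
    (isMF_E4.mul' ha0 (by ring)).add (isMF_E6.mul' hb0 (by ring))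
  have hB : IsMF ⊤ s (A - c • (E4 * a0 + E6 * b0)) := hA.sub (hG'.smul c)
  have hBc : IsCF ⊤ s (A - c • (E4 * a0 + E6 * b0)) := by
    refine ⟨hB.holo, hB.inv, fun γ => ?_⟩
    rw [hB.slash_top]
    have h1 : Tendsto (A - c • (E4 * a0 + E6 * b0)) atImInfty (𝓝 (c - c • 1)) :=
      hc.sub (hG.const_smul c)
    simpa [IsZeroAtImInfty, ZeroAtFilter] using h1
  set A' : ModularForm 𝒮ℒ (s - 12) := CuspForm.discriminantEquiv hBc.toLevelOne with hA'def
  have hA' : Δ * (A' : ℍ → ℂ) = A - c • (E4 * a0 + E6 * b0) :=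
    discriminant_mul_discriminantEquiv _
  have hA'mf : IsMF ⊤ (s - 12) A' := isMF_top_coe A'
  refine ⟨c • a0 + (1 / 1728 : ℂ) • (E4 * (E4 * A')), c • b0 - (1 / 1728 : ℂ) • (E6 * A'),
    ?_, ?_, ?_⟩
  · exact (ha0.smul c).add ((isMF_E4.mul' (isMF_E4.mul' hA'mf rfl) (by ring)).smul _)
  · exact (hb0.smul c).sub ((isMF_E6.mul' hA'mf (by ring)).smul _)
  · funext z
    have h := congrFun hA' z
    simp only [Pi.mul_apply, Pi.sub_apply, Pi.smul_apply, Pi.add_apply, smul_eq_mul,
      discriminant_eq_E₄_cube_sub_E₆_sq] at h ⊢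
    linear_combination -h

end

end Fermat.Agent.S20
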