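import Mathlib

/-!
# S20, step (4): the Wronskian-type determinant of a free basis satisfies a first order ODE

Plain function interface.  `D` is Mathlib's `Derivative.normalizedDerivOfComplex`.
-/

set_option autoImplicit false

namespace Fermat.Agent.S20.Wronskian

open UpperHalfPlane hiding I
open Real Complex Derivative ModularForm
open scoped Manifold MatrixGroups ModularForm Topology

section Jacobi

variable {n : Type*} [Fintype n] [DecidableEq n]

/-- Jacobi's formula for the derivative of a determinant (column version). -/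
theorem hasDerivAt_det (φ : n → n → ℂ → ℂ) (φ' : n → n → ℂ) (x : ℂ)
    (h : ∀ i j, HasDerivAt (φ i j) (φ' i j) x) :
    HasDerivAt (fun w => Matrix.det (Matrix.of fun i j => φ i j w))
      (∑ j, Matrix.det ((Matrix.of fun i l => φ i l x).updateCol j (fun i => φ' i j))) x := by
  have h1 : ∀ σ : Equiv.Perm n, HasDerivAt (fun w => ∏ i, φ (σ i) i w)
      (∑ i, (∏ j ∈ Finset.univ.erase i, φ (σ j) j x) • φ' (σ i) i) x := fun σ =>
    HasDerivAt.fun_finsetProd fun i _ => h (σ i) i
  have h2 : HasDerivAt (fun w => ∑ σ : Equiv.Perm n, ((Equiv.Perm.sign σ : ℤ) : ℂ) * ∏ i, φ (σ i) i w)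
      (∑ σ : Equiv.Perm n, ((Equiv.Perm.sign σ : ℤ) : ℂ) *
        (∑ i, (∏ j ∈ Finset.univ.erase i, φ (σ j) j x) • φ' (σ i) i)) x :=
    HasDerivAt.fun_sum fun σ _ => (h1 σ).const_mul _
  convert h2 using 1
  · funext w
    rw [Matrix.det_apply']
    simp
  · simp_rw [Matrix.det_apply', Finset.mul_sum]
    rw [Finset.sum_comm]
    refine Finset.sum_congr rfl fun σ _ => Finset.sum_congr rfl fun j _ => ?_
    rw [← Finset.mul_prod_erase Finset.univ _ (Finset.mem_univ j)]
    have : ∏ i ∈ Finset.univ.erase j,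
        ((Matrix.of fun i l => φ i l x).updateCol j (fun i => φ' i j)) (σ i) i =
        ∏ i ∈ Finset.univ.erase j, φ (σ i) i x := by
      refine Finset.prod_congr rfl fun i hi => ?_
      rw [Matrix.updateCol_ne (Finset.ne_of_mem_erase hi)]
      rfl
    rw [this, Matrix.updateCol_self, smul_eq_mul]
    ring

end Jacobi

/-- For an `MDiff` function, `F ∘ ofComplex` has derivative `2πi * D F z` at `z`. -/
theorem hasDerivAt_comp_ofComplex {F : ℍ → ℂ} (hF : MDiff F) (z : ℍ) :
    HasDerivAt (F ∘ ofComplex) (2 * π * I * D F z) z := by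
  have h := (UpperHalfPlane.mdifferentiableAt_iff.mp (hF z)).hasDerivAt
  have h2 : (2 * π * I * D F z) = deriv (F ∘ ofComplex) z := by
    have : (2 * (π : ℂ) * I) ≠ 0 := by simp [Real.pi_ne_zero]
    simp only [normalizedDerivOfComplex]
    field_simp
  rw [h2]; exact h

theorem D_eq_of_hasDerivAt {F : ℍ → ℂ} {z : ℍ} {c : ℂ}
    (h : HasDerivAt (F ∘ ofComplex) (2 * π * I * c) z) : D F z = c := by
  have : (2 * (π : ℂ) * I) ≠ 0 := by simp [Real.pi_ne_zero]
  simp only [normalizedDerivOfComplex, h.deriv]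
  field_simp

/-- `Δ ∘ ofComplex` has derivative `2πi E₂ Δ`. -/
theorem hasDerivAt_discriminant (z : ℍ) :
    HasDerivAt (discriminant ∘ ofComplex) (2 * π * I * (EisensteinSeries.E2 z * discriminant z)) z := by
  have hη : DifferentiableAt ℂ ModularForm.eta (z : ℂ) := differentiableAt_eta_of_mem_upperHalfPlaneSet z.2
  have hη0 : ModularForm.eta (z : ℂ) ≠ 0 := eta_ne_zero z.2
  have h1 : deriv ModularForm.eta (z : ℂ) = (π * I / 12) * EisensteinSeries.E2 z * ModularForm.eta z := by
    have := logDeriv_eta_eq_E2 z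
    rw [logDeriv_apply] at this
    field_simp at this ⊢
    linear_combination this
  have h2 : HasDerivAt (fun w : ℂ => ModularForm.eta w ^ 24) (24 * ModularForm.eta z ^ 23 * deriv ModularForm.eta (z : ℂ)) z := by
    have := hη.hasDerivAt.fun_pow 24
    simpa using this
  have h3 : (discriminant ∘ ofComplex) =ᶠ[𝓝 (z : ℂ)] fun w : ℂ => ModularForm.eta w ^ 24 := by
    filter_upwards [isOpen_upperHalfPlaneSet.mem_nhds z.2] with w hw
    simp [discriminant, Function.comp_apply, ofComplex_apply_of_im_pos hw]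
  refine (h2.congr_of_eventuallyEq h3).congr_deriv ?_
  rw [h1, discriminant]
  ring

/-- `D Δ = E₂ Δ`. -/
theorem D_discriminant (z : ℍ) : D discriminant z = EisensteinSeries.E2 z * discriminant z :=
  D_eq_of_hasDerivAt (hasDerivAt_discriminant z)

section ODE

variable {n : Type*} [Fintype n] [DecidableEq n]

/-- Jacobi's formula in terms of `D`. -/
theorem D_det (Φ : n → n → ℍ → ℂ) (hΦ : ∀ i j, MDiff (Φ i j)) (z : ℍ) :
    D (fun z => Matrix.det (Matrix.of fun i j => Φ i j z)) z =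
      ∑ j, Matrix.det ((Matrix.of fun i l => Φ i l z).updateCol j (fun i => D (Φ i j) z)) := by
  apply D_eq_of_hasDerivAt
  have h := hasDerivAt_det (fun i j => Φ i j ∘ ofComplex) (fun i j => 2 * π * I * D (Φ i j) z) z
    (fun i j => hasDerivAt_comp_ofComplex (hΦ i j) z)
  refine (h.congr_deriv ?_)
  rw [Finset.mul_sum]
  refine Finset.sum_congr rfl fun j _ => ?_
  have := Matrix.det_updateCol_smul (Matrix.of fun i l => Φ i l z) j (2 * π * I)
    (fun i => D (Φ i j) z)
  simp only [Function.comp_apply, ofComplex_apply]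
  rw [← this]
  rfl

/-- The determinant of a matrix of `MDiff` functions is `MDiff`. -/
theorem mdiff_det (Φ : n → n → ℍ → ℂ) (hΦ : ∀ i j, MDiff (Φ i j)) :
    MDiff (fun z => Matrix.det (Matrix.of fun i j => Φ i j z)) := by
  intro z
  rw [UpperHalfPlane.mdifferentiableAt_iff]
  exact (hasDerivAt_det (fun i j => Φ i j ∘ ofComplex) (fun i j => 2 * π * I * D (Φ i j) z) z
    (fun i j => hasDerivAt_comp_ofComplex (hΦ i j) z)).differentiableAt

/-- If the columns of `Φ` satisfy a linear system `∂_{k_j} Φ_{·j} = ∑_i a_{ij} Φ_{·i}` with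
vanishing diagonal, then `W = det Φ` satisfies `D W = (K/12) E₂ W`, `K = ∑ k_j`. -/
theorem D_det_of_ode (Φ : n → n → ℍ → ℂ) (hΦ : ∀ i j, MDiff (Φ i j)) (k : n → ℤ)
    (a : n → n → ℍ → ℂ) (ha : ∀ j z, a j j z = 0)
    (hode : ∀ q j z, serreDerivative (k j) (Φ q j) z = ∑ i, a i j z * Φ q i z) (z : ℍ) :
    D (fun z => Matrix.det (Matrix.of fun i j => Φ i j z)) z =
      ((∑ j, k j : ℤ) : ℂ) * 12⁻¹ * EisensteinSeries.E2 z *
        Matrix.det (Matrix.of fun i j => Φ i j z) := by
  rw [D_det Φ hΦ z]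
  have key : ∀ j, Matrix.det ((Matrix.of fun i l => Φ i l z).updateCol j (fun i => D (Φ i j) z)) =
      ((k j : ℤ) : ℂ) * 12⁻¹ * EisensteinSeries.E2 z * Matrix.det (Matrix.of fun i j => Φ i j z) := by
    intro j
    have h1 : (fun q => D (Φ q j) z) = fun q => ∑ i,
        (a i j z + if i = j then ((k j : ℤ) : ℂ) * 12⁻¹ * EisensteinSeries.E2 z else 0) •
          (Matrix.of fun i l => Φ i l z) q i := by
      funext q
      have := hode q j z
      rw [serreDerivative_apply] at this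
      simp only [smul_eq_mul, add_mul, Finset.sum_add_distrib, Matrix.of_apply, ite_mul, zero_mul,
        Finset.sum_ite_eq', Finset.mem_univ, if_true]
      rw [← this]; ring
    rw [h1, Matrix.det_updateCol_sum, ha j z]
    simp
  simp_rw [key]
  rw [← Finset.sum_mul]
  push_cast
  simp_rw [Finset.sum_mul]

/-- `W ^ 12 = C Δ ^ K`. -/
theorem det_pow_twelve_eq (Φ : n → n → ℍ → ℂ) (hΦ : ∀ i j, MDiff (Φ i j)) (k : n → ℤ)
    (a : n → n → ℍ → ℂ) (ha : ∀ j z, a j j z = 0)
    (hode : ∀ q j z, serreDerivative (k j) (Φ q j) z = ∑ i, a i j z * Φ q i z) :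
    ∃ C : ℂ, ∀ z : ℍ, Matrix.det (Matrix.of fun i j => Φ i j z) ^ 12 =
      C * discriminant z ^ (∑ j, k j) := by
  set W : ℍ → ℂ := fun z => Matrix.det (Matrix.of fun i j => Φ i j z) with hW
  set K : ℤ := ∑ j, k j with hK
  have hWd : MDiff W := mdiff_det Φ hΦ
  have hDW : ∀ z, D W z = (K : ℂ) * 12⁻¹ * EisensteinSeries.E2 z * W z :=
    D_det_of_ode Φ hΦ k a ha hode
  set G : ℂ → ℂ := fun w => (W ∘ ofComplex) w ^ 12 * (discriminant ∘ ofComplex) w ^ (-K) with hG
  have hGd : ∀ z : ℍ, HasDerivAt G 0 z := by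
    intro z
    have h1 := (hasDerivAt_comp_ofComplex hWd z).fun_pow 12
    have h2 : HasDerivAt (fun w => (discriminant ∘ ofComplex) w ^ (-K))
        (((-K : ℤ) : ℂ) * (discriminant ∘ ofComplex) z ^ (-K - 1) *
          (2 * π * I * (EisensteinSeries.E2 z * discriminant z))) z :=
      (hasDerivAt_zpow (-K) ((discriminant ∘ ofComplex) z)
        (Or.inl (by simpa using discriminant_ne_zero z))).comp (z : ℂ) (hasDerivAt_discriminant z)
    refine (h1.mul h2).congr_deriv ?_
    have hΔ : discriminant z ≠ 0 := discriminant_ne_zero z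
    simp only [Function.comp_apply, ofComplex_apply, hDW z]
    rw [zpow_sub₀ hΔ, zpow_one]
    field_simp
    push_cast
    ring
  have hconst : ∀ x y : ℍ, G x = G y := fun x y =>
    isOpen_upperHalfPlaneSet.is_const_of_deriv_eq_zero (convex_halfSpace_im_gt 0).isPreconnected
      (fun w hw => (hGd ⟨w, hw⟩).differentiableAt.differentiableWithinAt)
      (fun w hw => (hGd ⟨w, hw⟩).deriv) x.2 y.2
  refine ⟨G UpperHalfPlane.I, fun z => ?_⟩
  rw [← hconst z UpperHalfPlane.I]
  have hΔ : discriminant z ≠ 0 := discriminant_ne_zero z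
  simp only [hG, Function.comp_apply, ofComplex_apply]
  rw [mul_assoc, ← zpow_add₀ hΔ]
  simp only [neg_add_cancel, zpow_zero, mul_one]
  rfl

/-- If `det Φ` is nonzero somewhere, it is nonzero everywhere. -/
theorem det_ne_zero_of_ode (Φ : n → n → ℍ → ℂ) (hΦ : ∀ i j, MDiff (Φ i j)) (k : n → ℤ)
    (a : n → n → ℍ → ℂ) (ha : ∀ j z, a j j z = 0)
    (hode : ∀ q j z, serreDerivative (k j) (Φ q j) z = ∑ i, a i j z * Φ q i z)
    (z₀ : ℍ) (h₀ : Matrix.det (Matrix.of fun i j => Φ i j z₀) ≠ 0) :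
    (∃ C : ℂ, C ≠ 0 ∧ ∀ z : ℍ, Matrix.det (Matrix.of fun i j => Φ i j z) ^ 12 =
      C * discriminant z ^ (∑ j, k j)) ∧
    ∀ z : ℍ, Matrix.det (Matrix.of fun i j => Φ i j z) ≠ 0 := by
  obtain ⟨C, hC⟩ := det_pow_twelve_eq Φ hΦ k a ha hode
  have hC0 : C ≠ 0 := by
    rintro rfl
    have := hC z₀
    rw [zero_mul] at this
    exact h₀ (pow_eq_zero_iff (by norm_num) |>.mp this)
  refine ⟨⟨C, hC0, hC⟩, fun z hz => ?_⟩
  have := hC z
  rw [hz, zero_pow (by norm_num)] at this
  exact mul_ne_zero hC0 (zpow_ne_zero _ (discriminant_ne_zero z)) this.symm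

end ODE

end Fermat.Agent.S20.Wronskian
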