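import Fermat.Agent.S20.Interface
import Fermat.Agent.S20.Wronskian

/-! CORE-NV : the determinant of a free basis satisfies `W ^ 12 = C Δ ^ K`. -/

set_option autoImplicit false

open UpperHalfPlane ModularForm Matrix.SpecialLinearGroup CongruenceSubgroup Filter Topology
open scoped MatrixGroups Manifold ModularForm Real

namespace Fermat.Agent.S20

/-- The version with only the hypotheses which are really used. -/
theorem nonvanishing' (hs : Stmt_serre) (h2 : Stmt_levelOne_weight_two) : Stmt_nonvanishing := by
  intro Γ _ _ _ k F hFB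
  -- the connection matrix
  have hex : ∀ j, ∃ A : (SL(2, ℤ) ⧸ Γ) →₀ (ℍ → ℂ), (∀ i, IsMF ⊤ (k j + 2 - k i) (A i)) ∧
      Derivative.serreDerivative (k j : ℂ) (F j) = A.sum fun i a => a * F i :=
    fun j => hFB.gen (k j + 2) _ (hs Γ (k j) (F j) (hFB.isMF j))
  choose A hA hAsum using hex
  have key := Wronskian.det_pow_twelve_eq (n := SL(2, ℤ) ⧸ Γ)
    (fun q j => tr (k j) (F j) q) (fun q j => (hFB.isMF j).holo_tr q) k
    (fun i j z => A j i z)
    (fun j z => by
      have h := hA j j
      rw [show k j + 2 - k j = 2 by ring] at h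
      rw [h2 _ h]; rfl)
    (fun q j z => by
      have h1 : Derivative.serreDerivative (k j : ℂ) (tr (k j) (F j) q) =
          tr (k j + 2) (Derivative.serreDerivative (k j : ℂ) (F j)) q := by
        unfold tr
        exact (Derivative.serreDerivative_slash_equivariant (hFB.isMF j).holo).symm
      rw [h1, hAsum j, Finsupp.sum_fintype _ _ (fun i => by simp), tr_sum]
      simp only [Finset.sum_apply]
      refine Finset.sum_congr rfl fun i _ => ?_
      rw [tr_mul_top (hA j i) (by ring : k j + 2 = (k j + 2 - k i) + k i) q]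
      rfl)
  obtain ⟨C, hC⟩ := key
  exact ⟨C, fun z => hC z⟩

theorem nonvanishing (hs : Stmt_serre) (_hD : Stmt_D_discriminant) (_hdet : Stmt_hasDerivAt_det)
    (h2 : Stmt_levelOne_weight_two) : Stmt_nonvanishing :=
  nonvanishing' hs h2

end Fermat.Agent.S20
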