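import Fermat.Agent.S20.InfInterface

set_option autoImplicit false
set_option linter.unusedSectionVars false

open Module Module.End Real

namespace Fermat.Agent.S20

namespace PermDiag

/-- the angle in `[0,1)` of a complex number -/
noncomputable def ang (μ : ℂ) : ℝ :=
  if 0 ≤ Complex.arg μ then Complex.arg μ / (2 * π) else Complex.arg μ / (2 * π) + 1

lemma ang_nonneg (μ : ℂ) : 0 ≤ ang μ := by
  unfold ang
  have hπ := Real.pi_pos
  split_ifs with h
  · positivity
  · have h1 : -π < Complex.arg μ := Complex.neg_pi_lt_arg μ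
    have : -(1/2) < Complex.arg μ / (2 * π) := by
      rw [lt_div_iff₀ (by positivity)]; nlinarith
    linarith

lemma ang_lt_one (μ : ℂ) : ang μ < 1 := by
  unfold ang
  have hπ := Real.pi_pos
  split_ifs with h
  · have h1 : Complex.arg μ ≤ π := Complex.arg_le_pi μ
    rw [div_lt_one (by positivity)]; linarith
  · have : Complex.arg μ / (2 * π) < 0 := div_neg_of_neg_of_pos (not_le.mp h) (by positivity)
    linarith

lemma exp_ang {μ : ℂ} (hμ : ‖μ‖ = 1) : Complex.exp (2 * π * Complex.I * ang μ) = μ := by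
  have hπ : (π : ℂ) ≠ 0 := by exact_mod_cast Real.pi_ne_zero
  have h0 : Complex.exp (Complex.arg μ * Complex.I) = μ := by
    have := Complex.norm_mul_exp_arg_mul_I μ
    rwa [hμ, Complex.ofReal_one, one_mul] at this
  unfold ang
  split_ifs with h
  · have : (2 * π * Complex.I * ((Complex.arg μ / (2 * π) : ℝ) : ℂ)) =
        Complex.arg μ * Complex.I := by
      push_cast
      field_simp
    rw [this, h0]
  · have : (2 * π * Complex.I * ((Complex.arg μ / (2 * π) + 1 : ℝ) : ℂ)) =
        Complex.arg μ * Complex.I + 2 * π * Complex.I := by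
      push_cast
      field_simp
    rw [this, Complex.exp_add, Complex.exp_two_pi_mul_I, mul_one, h0]

lemma ang_one : ang 1 = 0 := by simp [ang]

lemma ang_add_ang_conj {μ : ℂ} (hμ : ‖μ‖ = 1) (h1 : μ ≠ 1) :
    ang μ + ang ((starRingEnd ℂ) μ) = 1 := by
  have hπ := Real.pi_pos
  have h0 : Complex.arg μ ≠ 0 := by
    intro h
    apply h1
    have := Complex.norm_mul_exp_arg_mul_I μ
    rw [hμ, h] at this
    simpa using this.symm
  unfold ang
  rw [Complex.arg_conj]
  by_cases hp : Complex.arg μ = π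
  · simp only [hp, if_true, hπ.le]
    field_simp
    norm_num
  · simp only [hp, if_false]
    rcases lt_or_gt_of_ne h0 with h | h
    · rw [if_neg (not_le.mpr h), if_pos (by linarith)]
      ring
    · rw [if_pos h.le, if_neg (by linarith)]
      ring

section

variable {X : Type} [Fintype X] [DecidableEq X] (σ : Equiv.Perm X)

/-- the permutation operator `v ↦ v ∘ σ` -/
noncomputable def op : Module.End ℂ (X → ℂ) := LinearMap.funLeft ℂ ℂ σ

lemma op_apply (v : X → ℂ) (x : X) : op σ v x = v (σ x) := rfl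

lemma op_pow_apply (n : ℕ) (v : X → ℂ) (x : X) : ((op σ) ^ n) v x = v ((σ ^ n) x) := by
  induction n generalizing v with
  | zero => simp
  | succ n ih =>
    rw [pow_succ, Module.End.mul_apply, ih, op_apply, pow_succ', Equiv.Perm.mul_apply]

lemma op_pow_orderOf : (op σ) ^ (orderOf σ) = 1 := by
  refine LinearMap.ext fun v => funext fun x => ?_
  rw [op_pow_apply, pow_orderOf_eq_one]
  rfl

lemma op_isSemisimple : (op σ).IsSemisimple := by
  have hn : 0 < orderOf σ := orderOf_pos σ
  have hsq : Squarefree ((Polynomial.X : Polynomial ℂ) ^ (orderOf σ) - Polynomial.C 1) :=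
    (Polynomial.separable_X_pow_sub_C (1 : ℂ) (by exact_mod_cast hn.ne') one_ne_zero).squarefree
  refine Module.End.isSemisimple_of_squarefree_aeval_eq_zero hsq ?_
  simp [op_pow_orderOf]

lemma norm_eq_one_of_mem_eigenspace {ν : ℂ} {v : X → ℂ} (hv : v ∈ (op σ).eigenspace ν)
    (hv0 : v ≠ 0) : ‖ν‖ = 1 := by
  have h1 : ∀ n : ℕ, ((op σ) ^ n) v = ν ^ n • v := by
    intro n
    induction n with
    | zero => simp
    | succ n ih =>
      rw [pow_succ', Module.End.mul_apply, ih, map_smul, mem_eigenspace_iff.mp hv, smul_smul,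
        pow_succ]
  have h2 := h1 (orderOf σ)
  rw [op_pow_orderOf, Module.End.one_apply] at h2
  have h3 : ν ^ (orderOf σ) = 1 := by
    have : (ν ^ (orderOf σ) - 1) • v = 0 := by rw [sub_smul, one_smul, ← h2, sub_self]
    rcases smul_eq_zero.mp this with h | h
    · exact sub_eq_zero.mp h
    · exact absurd h hv0
  exact Complex.norm_eq_one_of_pow_eq_one h3 (orderOf_pos σ).ne'

/-- index type of the eigenbasis -/
abbrev Idx := (ν : ℂ) × Fin (finrank ℂ ((op σ).eigenspace ν))

/-- a basis of eigenvectors -/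
noncomputable def eigBasis : Basis (Idx σ) ℂ (X → ℂ) :=
  (DirectSum.isInternal_submodule_of_iSupIndep_of_iSup_eq_top (op σ).eigenspaces_iSupIndep
    (op_isSemisimple σ).iSup_eigenspace_eq_top).collectedBasis
      fun μ => finBasis ℂ ((op σ).eigenspace μ)

lemma eigBasis_mem (i : Idx σ) : eigBasis σ i ∈ (op σ).eigenspace i.1 :=
  DirectSum.IsInternal.collectedBasis_mem _ _ i

lemma eigBasis_apply (i : Idx σ) (x : X) : eigBasis σ i (σ x) = i.1 * eigBasis σ i x := by
  have := mem_eigenspace_iff.mp (eigBasis_mem σ i)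
  have h2 := congrFun this x
  rwa [op_apply] at h2

lemma norm_idx (i : Idx σ) : ‖i.1‖ = 1 :=
  norm_eq_one_of_mem_eigenspace σ (eigBasis_mem σ i) ((eigBasis σ).ne_zero i)

noncomputable instance : Fintype (Idx σ) := FiniteDimensional.fintypeBasisIndex (eigBasis σ)

/-- complex conjugation between eigenspaces -/
lemma finrank_eigenspace_conj (ν : ℂ) :
    finrank ℂ ((op σ).eigenspace ν) = finrank ℂ ((op σ).eigenspace ((starRingEnd ℂ) ν)) := by
  have key : ∀ (ν : ℂ) (v : X → ℂ), v ∈ (op σ).eigenspace ν →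
      (fun x => (starRingEnd ℂ) (v x)) ∈ (op σ).eigenspace ((starRingEnd ℂ) ν) := by
    intro ν v hv
    rw [mem_eigenspace_iff] at hv ⊢
    funext x
    have := congrFun hv x
    rw [op_apply] at this ⊢
    simp only [Pi.smul_apply, smul_eq_mul] at this ⊢
    rw [this, map_mul]
  let j : (op σ).eigenspace ν ≃+ (op σ).eigenspace ((starRingEnd ℂ) ν) :=
    { toFun := fun v => ⟨fun x => (starRingEnd ℂ) (v.1 x), key ν v.1 v.2⟩
      invFun := fun v => ⟨fun x => (starRingEnd ℂ) (v.1 x), by
        have := key _ v.1 v.2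
        rwa [Complex.conj_conj] at this⟩
      left_inv := fun v => by
        apply Subtype.ext; funext x; simp
      right_inv := fun v => by
        apply Subtype.ext; funext x; simp
      map_add' := fun v w => by
        apply Subtype.ext; funext x; simp }
  have := rank_eq_of_equiv_equiv (starRingEnd ℂ) j (Function.Involutive.bijective Complex.conj_conj)
    (fun r m => by apply Subtype.ext; funext x; simp [j])
  exact congrArg Cardinal.toNat this

/-- the orbit space of `σ` -/
abbrev Orb := MulAction.orbitRel.Quotient (Subgroup.zpowers σ) X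

lemma invariant_zpowers {v : X → ℂ} (hv : ∀ x, v (σ x) = v x) (g : Subgroup.zpowers σ) (x : X) :
    v (g • x) = v x := by
  obtain ⟨g, hg⟩ := g
  obtain ⟨k, rfl⟩ := Subgroup.mem_zpowers_iff.mp hg
  show v ((σ ^ k) x) = v x
  clear hg
  induction k using Int.induction_on generalizing x with
  | zero => simp
  | succ n ih => rw [zpow_add_one, Equiv.Perm.mul_apply, ih, hv]
  | pred n ih =>
    rw [zpow_sub_one, Equiv.Perm.mul_apply, ih]
    have h := hv (σ⁻¹ x)
    have h' : σ (σ⁻¹ x) = x := by simp
    rw [h'] at h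
    exact h.symm

lemma finrank_eigenspace_one :
    finrank ℂ ((op σ).eigenspace 1) = Nat.card (Orb σ) := by
  classical
  have : Fintype (Orb σ) := Fintype.ofFinite _
  let L : (Orb σ → ℂ) →ₗ[ℂ] (X → ℂ) :=
    LinearMap.funLeft ℂ ℂ (Quotient.mk (MulAction.orbitRel (Subgroup.zpowers σ) X))
  have hinj : Function.Injective L :=
    LinearMap.funLeft_injective_of_surjective ℂ ℂ _ Quotient.mk_surjective
  have hrange : LinearMap.range L = (op σ).eigenspace 1 := by
    ext v
    rw [mem_eigenspace_iff, one_smul]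
    constructor
    · rintro ⟨f, rfl⟩
      funext x
      rw [op_apply]
      show f _ = f _
      congr 1
      apply Quotient.sound
      exact ⟨⟨σ, Subgroup.mem_zpowers σ⟩, rfl⟩
    · intro hv
      have hv' : ∀ x, v (σ x) = v x := fun x => congrFun hv x
      refine ⟨Quotient.lift v ?_, ?_⟩
      · rintro a b ⟨g, rfl⟩
        exact invariant_zpowers σ hv' g b
      · funext x
        rfl
  rw [← hrange, LinearMap.finrank_range_of_inj hinj, Module.finrank_fintype_fun_eq_card,
    Nat.card_eq_fintype_card]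

/-- conjugation on the index type -/
noncomputable def conjIdx : Idx σ ≃ Idx σ :=
  Equiv.sigmaCongr (Function.Involutive.toPerm (starRingEnd ℂ) Complex.conj_conj)
    (fun ν => finCongr (finrank_eigenspace_conj σ ν))

lemma conjIdx_fst (a : Idx σ) : (conjIdx σ a).1 = (starRingEnd ℂ) a.1 := by
  obtain ⟨ν, k⟩ := a
  simp only [conjIdx, Equiv.sigmaCongr, Equiv.trans_apply, Equiv.sigmaCongrRight_apply,
    Equiv.sigmaCongrLeft_apply]
  exact Function.Involutive.coe_toPerm _ ▸ rfl

lemma card_idx : Fintype.card (Idx σ) = Fintype.card X := by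
  rw [← Module.finrank_eq_card_basis (eigBasis σ), Module.finrank_fintype_fun_eq_card]

lemma sum_ang : ∑ a : Idx σ, ang a.1 = ((Fintype.card X : ℝ) - (Nat.card (Orb σ) : ℝ)) / 2 := by
  classical
  have h1 : ∑ a : Idx σ, ang a.1 = ∑ a : Idx σ, ang ((starRingEnd ℂ) a.1) := by
    rw [← Equiv.sum_comp (conjIdx σ)]
    simp only [conjIdx_fst]
  have h2 : ∑ a : Idx σ, (ang a.1 + ang ((starRingEnd ℂ) a.1)) =
      ∑ a : Idx σ, (if a.1 = 1 then (0 : ℝ) else 1) := by
    refine Finset.sum_congr rfl fun a _ => ?_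
    split_ifs with h
    · rw [h, map_one, ang_one, add_zero]
    · exact ang_add_ang_conj (norm_idx σ a) h
  have h3 : ∑ a : Idx σ, (if a.1 = 1 then (0 : ℝ) else 1) =
      (Fintype.card X : ℝ) - (Nat.card (Orb σ) : ℝ) := by
    have h4 : ∑ a : Idx σ, (if a.1 = 1 then (0 : ℝ) else 1) =
        ∑ a : Idx σ, ((1 : ℝ) - (if a.1 = 1 then (1 : ℝ) else 0)) := by
      refine Finset.sum_congr rfl fun a _ => ?_
      split_ifs <;> simp
    rw [h4, Finset.sum_sub_distrib, Finset.sum_const, Finset.card_univ, card_idx, nsmul_eq_mul,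
      mul_one, Finset.sum_boole]
    congr 2
    rw [← finrank_eigenspace_one, ← Fintype.card_subtype]
    rw [Fintype.card_congr (Equiv.sigmaSubtype (1 : ℂ))]
    simp
  rw [Finset.sum_add_distrib, ← h1] at h2
  linarith

end

/-- INF-A together with the formula for the sum of the exponents. -/
theorem strong (X : Type) [Fintype X] [DecidableEq X] (σ : Equiv.Perm X) :
    ∃ (B : Matrix X X ℂ) (θ : X → ℝ), IsUnit B.det ∧ (∀ i, 0 ≤ θ i ∧ θ i < 1) ∧
      (∀ x i, B (σ x) i = Complex.exp (2 * π * Complex.I * θ i) * B x i) ∧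
      ∑ i, θ i = ((Fintype.card X : ℝ) -
        (Nat.card (MulAction.orbitRel.Quotient (Subgroup.zpowers σ) X) : ℝ)) / 2 := by
  let e : Idx σ ≃ X := (eigBasis σ).indexEquiv (Pi.basisFun ℂ X)
  refine ⟨(Pi.basisFun ℂ X).toMatrix ((eigBasis σ).reindex e), fun i => ang (e.symm i).1,
    ?_, fun i => ⟨ang_nonneg _, ang_lt_one _⟩, fun x i => ?_, ?_⟩
  · rw [← Module.Basis.det_apply]
    exact Module.Basis.isUnit_det _ _
  · rw [exp_ang (norm_idx σ _)]
    simp only [Module.Basis.toMatrix_apply, Pi.basisFun_repr, Module.Basis.reindex_apply]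
    exact eigBasis_apply σ _ x
  · rw [← sum_ang σ]
    exact Equiv.sum_comp e.symm (fun a : Idx σ => ang a.1)

end PermDiag

theorem permDiag : Stmt_permDiag := by
  intro X _ _ σ
  obtain ⟨B, θ, h1, h2, h3, -⟩ := PermDiag.strong X σ
  exact ⟨B, θ, h1, h2, h3⟩

end Fermat.Agent.S20
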