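import Fermat.Agent.S20.Interface

/-! CORE-Rank : the Vandermonde argument. -/

set_option autoImplicit false

open UpperHalfPlane ModularForm Matrix.SpecialLinearGroup CongruenceSubgroup Filter Topology
open scoped MatrixGroups Manifold ModularForm Real

namespace Fermat.Agent.S20

noncomputable section

theorem tr_pow {Γ : Subgroup SL(2, ℤ)} (w : ℤ) (g : ℍ → ℂ) (q : SL(2, ℤ) ⧸ Γ) (n : ℕ) :
    tr ((n : ℤ) * w) (g ^ n) q = (tr w g q) ^ n := by
  induction n with
  | zero =>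
    simp only [Nat.cast_zero, zero_mul, pow_zero]
    unfold tr
    exact is_invariant_one _
  | succ n ih =>
    rw [pow_succ, pow_succ, ← ih, ← tr_mul]
    congr 1
    push_cast; ring

theorem tr_finsupp_sum {Γ : Subgroup SL(2, ℤ)} {J : Type} (k : J → ℤ) (F : J → ℍ → ℂ) (w : ℤ)
    (A : J →₀ (ℍ → ℂ)) (hA : ∀ j, IsMF ⊤ (w - k j) (A j)) (q : SL(2, ℤ) ⧸ Γ) :
    tr w (A.sum fun j a => a * F j) q = A.sum fun j a => a * tr (k j) (F j) q := by
  unfold Finsupp.sum
  rw [tr_sum]
  refine Finset.sum_congr rfl fun j _ => ?_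
  exact tr_mul_top (hA j) (by ring) q

theorem rank : Stmt_rank := by
  intro Γ _ _ _ J _ k F hF w g z₀ hg hinj
  classical
  let e : (SL(2, ℤ) ⧸ Γ) ≃ Fin (Fintype.card (SL(2, ℤ) ⧸ Γ)) := Fintype.equivFin _
  have hex : ∀ n : ℕ, ∃ A : J →₀ (ℍ → ℂ), (∀ j, IsMF ⊤ ((n : ℤ) * w - k j) (A j)) ∧
      g ^ n = A.sum fun j a => a * F j := fun n => hF.gen _ _ (hg.pow n)
  choose A hA hAg using hex
  refine ⟨Matrix.of fun j q' => A (e q') j z₀, ?_⟩
  have hM : Phi Γ k F z₀ * (Matrix.of fun j q' => A (e q') j z₀) =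
      (Matrix.vandermonde fun i => tr w g (e.symm i) z₀).submatrix e e := by
    ext q q'
    rw [Matrix.mul_apply, Matrix.submatrix_apply, Matrix.vandermonde_apply, Equiv.symm_apply_apply]
    have h1 : (tr w g q) ^ ((e q' : ℕ)) = (A (e q')).sum fun j a => a * tr (k j) (F j) q := by
      rw [← tr_pow, hAg (e q'), tr_finsupp_sum k F _ _ (hA (e q'))]
    have h2 := congrFun h1 z₀
    rw [Pi.pow_apply] at h2
    rw [h2, Finsupp.sum_fintype _ _ (fun j => by simp), Finset.sum_apply]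
    refine Finset.sum_congr rfl fun j _ => ?_
    simp [mul_comm]
  rw [hM, Matrix.det_submatrix_equiv_self, Matrix.det_vandermonde_ne_zero_iff]
  exact hinj.comp e.symm.injective

end

end Fermat.Agent.S20
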