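import Fermat.Agent.S20.Interface2

set_option autoImplicit false

open UpperHalfPlane ModularForm Matrix.SpecialLinearGroup CongruenceSubgroup Filter Topology
open scoped MatrixGroups Manifold ModularForm Real

namespace Fermat.Agent.S20

local notation "Δ" => ModularForm.discriminant

theorem IsBigOq.add' {f g : ℍ → ℂ} (hf : IsBigOq f) (hg : IsBigOq g) :
    IsBigOq (fun z => f z + g z) :=
  Asymptotics.IsBigO.add hf hg

theorem IsBigOq.const_mul' {f : ℍ → ℂ} (c : ℂ) (hf : IsBigOq f) :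
    IsBigOq (fun z => c * f z) :=
  Asymptotics.IsBigO.const_mul_left hf c

theorem IsBigOq.mul_bdd {f g : ℍ → ℂ} (hf : IsBigOq f) (hg : IsBoundedAtImInfty g) :
    IsBigOq (fun z => f z * g z) := by
  have h := Asymptotics.IsBigO.mul hf hg
  simpa [IsBigOq] using h

theorem IsBigOq.sum' {ι : Type*} (s : Finset ι) (f : ι → ℍ → ℂ) (h : ∀ i ∈ s, IsBigOq (f i)) :
    IsBigOq (fun z => ∑ i ∈ s, f i z) := by
  have h' := Asymptotics.IsBigO.sum h
  have e : (∑ i ∈ s, f i) = fun z => ∑ i ∈ s, f i z := by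
    funext z
    rw [Finset.sum_apply]
  rw [e] at h'
  exact h'

/-- CORE-Rinf. -/
theorem rinf (hmon : Stmt_levelOne_monomial) (hdiv : Stmt_div_discriminant) : Stmt_Rinf := by
  intro Γ _ J k F hFB hev c hc
  classical
  -- a large even weight
  obtain ⟨w, hwe, hw⟩ : ∃ w : ℤ, Even w ∧ ∀ j ∈ c.support, k j + 4 ≤ w := by
    refine ⟨2 * (∑ j ∈ c.support, |k j|) + 4, by
      refine Even.add (even_two_mul _) ⟨2, by norm_num⟩, fun j hj => ?_⟩
    have h1 : |k j| ≤ ∑ j ∈ c.support, |k j| :=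
      Finset.single_le_sum (f := fun j => |k j|) (fun i _ => abs_nonneg _) hj
    have h2 := le_abs_self (k j)
    have h3 := abs_nonneg (k j)
    linarith
  have hex : ∀ j ∈ c.support, ∃ A : ℍ → ℂ, IsMF ⊤ (w - k j) A ∧ Tendsto A atImInfty (𝓝 1) ∧
      IsBigOq (fun z => A z - 1) := fun j hj =>
    hmon (w - k j) (by have := hw j hj; linarith) (hwe.sub (hev j))
  choose! A hA1 hA2 hA3 using hex
  set G : ℍ → ℂ := ∑ j ∈ c.support, c j • (A j * F j) with hGdef
  have hG : IsMF Γ w G := IsMF.sum _ _ fun j hj =>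
    IsMF.smul _ ((hA1 j hj).of_top.mul' (hFB.isMF j) (by ring))
  have htr : ∀ q : SL(2, ℤ) ⧸ Γ, tr w G q = ∑ j ∈ c.support, c j • (A j * tr (k j) (F j) q) := by
    intro q
    rw [hGdef, tr_sum]
    refine Finset.sum_congr rfl fun j hj => ?_
    rw [tr_smul, tr_mul_top (k₂ := k j) (hA1 j hj) (by ring)]
  have hO : ∀ q : SL(2, ℤ) ⧸ Γ, IsBigOq (tr w G q) := by
    intro q
    have h1 : IsBigOq (fun z => ∑ j ∈ c.support, c j * ((A j z - 1) * tr (k j) (F j) q z)) :=
      IsBigOq.sum' _ _ fun j hj =>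
        IsBigOq.const_mul' _ (IsBigOq.mul_bdd (hA3 j hj) ((hFB.isMF j).bdd_tr q))
    have h2 := IsBigOq.add' (hc q) h1
    have h3 : tr w G q = fun z => (c.sum fun j a => a * tr (k j) (F j) q z) +
        ∑ j ∈ c.support, c j * ((A j z - 1) * tr (k j) (F j) q z) := by
      funext z
      rw [htr q, Finsupp.sum, ← Finset.sum_add_distrib, Finset.sum_apply]
      refine Finset.sum_congr rfl fun j _ => ?_
      simp only [Pi.smul_apply, Pi.mul_apply, smul_eq_mul]
      ring
    rw [h3]
    exact h2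
  have hdivG : IsMF Γ (w - 12) (G / Δ) := by
    refine hdiv Γ w G hG fun γ => ?_
    have := hO ((γ⁻¹ : SL(2, ℤ)) : SL(2, ℤ) ⧸ Γ)
    rw [tr_mk hG.inv, inv_inv] at this
    exact this
  obtain ⟨B, hB, hGB⟩ := hFB.gen (w - 12) (G / Δ) hdivG
  -- the relation
  let C1 : J →₀ (ℍ → ℂ) := Finsupp.onFinset c.support (fun j => c j • A j) (by
    intro j hj
    rw [Finsupp.mem_support_iff]
    intro h0
    exact hj (by rw [h0, zero_smul]))
  let C2 : J →₀ (ℍ → ℂ) := B.mapRange (fun b => Δ * b) (mul_zero _)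
  have hC1 : ∀ j, IsMF ⊤ (w - k j) (C1 j) := by
    intro j
    by_cases hj : j ∈ c.support
    · exact IsMF.smul _ (hA1 j hj)
    · have : c j = 0 := by simpa using hj
      have h0 : C1 j = 0 := by
        show c j • A j = 0
        rw [this, zero_smul]
      rw [h0]
      exact IsMF.zero_mem
  have hC2 : ∀ j, IsMF ⊤ (w - k j) (C2 j) := by
    intro j
    exact isCF_discriminant.isMF.mul' (hB j) (by ring)
  have hΔ : ∀ z, Δ z ≠ 0 := ModularForm.discriminant_ne_zero
  have hsum : ((C1 - C2).sum fun j a => a * F j) = 0 := by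
    rw [Finsupp.sum_sub_index (fun a b₁ b₂ => sub_mul _ _ _),
      Finsupp.onFinset_sum _ (fun a => zero_mul _),
      Finsupp.sum_mapRange_index (fun a => zero_mul _)]
    have e1 : ∑ j ∈ c.support, c j • A j * F j = G := by
      rw [hGdef]
      refine Finset.sum_congr rfl fun j _ => ?_
      rw [smul_mul_assoc]
    have e2 : (B.sum fun j b => Δ * b * F j) = Δ * (G / Δ) := by
      rw [hGB, Finsupp.sum, Finsupp.sum, Finset.mul_sum]
      refine Finset.sum_congr rfl fun j _ => ?_
      rw [mul_assoc]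
    rw [e1, e2]
    funext z
    simp only [Pi.sub_apply, Pi.mul_apply, Pi.div_apply, Pi.zero_apply]
    field_simp [hΔ z]
    ring
  have hzero := hFB.indep w (C1 - C2) (fun j => by
    rw [Finsupp.sub_apply]
    exact (hC1 j).sub (hC2 j)) hsum
  ext j
  by_contra hj
  have hjs : j ∈ c.support := by simpa using hj
  have hEq : c j • A j = Δ * B j := by
    have := DFunLike.congr_fun hzero j
    rw [Finsupp.sub_apply, Finsupp.zero_apply, sub_eq_zero] at this
    exact this
  have l1 : Tendsto (c j • A j) atImInfty (𝓝 (c j • (1 : ℂ))) := (hA2 j hjs).const_smul (c j)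
  have l2 : Tendsto (Δ * B j) atImInfty (𝓝 0) :=
    isCF_discriminant.zero_self.mul_boundedAtFilter (hB j).bdd_self
  rw [hEq] at l1
  have := tendsto_nhds_unique l1 l2
  exact hj (by simpa using this)

/-- CORE-Reg (same statement). -/
theorem regular_of_rinf (hmon : Stmt_levelOne_monomial) (hdiv : Stmt_div_discriminant) :
    Stmt_regular := rinf hmon hdiv

end Fermat.Agent.S20
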