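import Fermat.Agent.S20.Interface

set_option autoImplicit false

open UpperHalfPlane ModularForm Matrix.SpecialLinearGroup CongruenceSubgroup Filter Topology
open scoped MatrixGroups Manifold ModularForm Real

namespace Fermat.Agent.S20

/-- If the stabiliser of `g` is contained in `Γ`, distinct cosets give distinct translates. -/
theorem tr_injective_of_stabilizer {Γ : Subgroup SL(2, ℤ)} {w : ℤ} {g : ℍ → ℂ}
    (hinv : ∀ γ ∈ Γ, g ∣[w] γ = g) (hstab : ∀ γ : SL(2, ℤ), g ∣[w] γ = g → γ ∈ Γ) :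
    Function.Injective fun q : SL(2, ℤ) ⧸ Γ => tr w g q := by
  intro q q' h
  induction q using QuotientGroup.induction_on with
  | H a =>
    induction q' using QuotientGroup.induction_on with
    | H b =>
      have h' : g ∣[w] a⁻¹ = g ∣[w] b⁻¹ := by
        have := h
        simp only [tr_mk hinv] at this
        exact this
      have h2 : g ∣[w] (a⁻¹ * b) = g := by
        rw [SlashAction.slash_mul, h', ← SlashAction.slash_mul]
        simp
      exact QuotientGroup.eq.2 (hstab _ h2)

theorem exists_injective_tr : Stmt_exists_injective_tr := by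
  intro Γ _ w g hg hstab
  classical
  let _ : Fintype (SL(2, ℤ) ⧸ Γ) := Subgroup.fintypeQuotientOfFiniteIndex
  have hinj := tr_injective_of_stabilizer hg.inv hstab
  set s : Finset ((SL(2, ℤ) ⧸ Γ) × (SL(2, ℤ) ⧸ Γ)) :=
    Finset.univ.filter fun p => p.1 ≠ p.2 with hs
  have hne : ∏ p ∈ s, (tr w g p.1 - tr w g p.2) ≠ 0 := by
    intro h0
    rw [UpperHalfPlane.prod_eq_zero_iff
      (fun p _ => (hg.holo_tr p.1).sub (hg.holo_tr p.2))] at h0
    obtain ⟨p, hp, hp0⟩ := h0
    have hp' : p.1 ≠ p.2 := by simpa [hs] using hp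
    exact hp' (hinj (sub_eq_zero.1 hp0))
  obtain ⟨z₀, hz₀⟩ : ∃ z₀ : ℍ, (∏ p ∈ s, (tr w g p.1 - tr w g p.2)) z₀ ≠ 0 := by
    by_contra hcon
    push Not at hcon
    exact hne (funext hcon)
  refine ⟨z₀, fun q q' hqq' => ?_⟩
  by_contra hne'
  apply hz₀
  rw [Finset.prod_apply]
  refine Finset.prod_eq_zero (i := (q, q')) (by simp [hs, hne']) ?_
  simpa [sub_eq_zero] using hqq'

end Fermat.Agent.S20
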