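import Fermat.Agent.S20.Interface

/-! CORE-Serre : the Serre derivative preserves `IsMF`; `D Δ = E₂ Δ`. -/

set_option autoImplicit false

open UpperHalfPlane ModularForm Matrix.SpecialLinearGroup CongruenceSubgroup Filter Topology
open scoped MatrixGroups Manifold ModularForm Real

namespace Fermat.Agent.S20

noncomputable section

local notation "Δ" => ModularForm.discriminant

/-- Cauchy estimate: the normalised derivative of a holomorphic function bounded at `i∞` is
bounded at `i∞`. -/
theorem isBoundedAtImInfty_normalizedDeriv {F : ℍ → ℂ} (hF : MDiff F)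
    (hb : IsBoundedAtImInfty F) :
    IsBoundedAtImInfty (Derivative.normalizedDerivOfComplex F) := by
  rw [UpperHalfPlane.isBoundedAtImInfty_iff] at hb ⊢
  obtain ⟨M, A, h⟩ := hb
  have hd : DifferentiableOn ℂ (F ∘ ofComplex) upperHalfPlaneSet :=
    UpperHalfPlane.mdifferentiable_iff.mp hF
  refine ⟨‖(2 * π * Complex.I : ℂ)⁻¹‖ * (M / 1), max A 0 + 2, fun z hz => ?_⟩
  have hA : A + 2 ≤ z.im := le_trans (by gcongr; exact le_max_left _ _) hz
  have h0 : 2 ≤ z.im := le_trans (by simp) hz
  have him : ∀ w ∈ Metric.closedBall (z : ℂ) 1 , A ≤ w.im ∧ 0 < w.im := by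
    intro w hw
    have h1 : |(w - z).im| ≤ ‖w - z‖ := Complex.abs_im_le_norm _
    have h2 : ‖w - z‖ ≤ 1 := by simpa [dist_eq_norm] using hw
    have h3 := abs_le.mp (h1.trans h2)
    simp only [Complex.sub_im, coe_im] at h3
    exact ⟨by linarith [h3.1], by linarith [h3.1]⟩
  have hsub : Metric.closedBall (z : ℂ) 1 ⊆ upperHalfPlaneSet := fun w hw => (him w hw).2
  have key : ‖deriv (F ∘ ofComplex) (z : ℂ)‖ ≤ M / 1 := by
    refine Complex.norm_deriv_le_of_forall_mem_sphere_norm_le one_pos
      (hd.diffContOnCl_ball hsub) fun w hw => ?_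
    have hw' := him w (Metric.sphere_subset_closedBall hw)
    have := h ⟨w, hw'.2⟩ hw'.1
    simpa [Function.comp_apply, ofComplex_apply_of_im_pos hw'.2] using this
  unfold Derivative.normalizedDerivOfComplex
  rw [norm_mul]
  gcongr

theorem serre : Stmt_serre := by
  intro Γ k f hf
  refine ⟨Derivative.serreDerivative_mdifferentiable _ hf.holo,
    fun γ hγ => Derivative.serreDerivative_slash_invariant hf.holo (hf.inv γ hγ), fun γ => ?_⟩
  rw [Derivative.serreDerivative_slash_equivariant hf.holo]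
  have h1 := isBoundedAtImInfty_normalizedDeriv (hf.holo_slash γ) (hf.bdd γ)
  have h2 : IsBoundedAtImInfty (fun z : ℍ => (k : ℂ) * 12⁻¹ * EisensteinSeries.E2 z * (f ∣[k] γ) z) :=
    ((Filter.const_boundedAtFilter _ ((k : ℂ) * 12⁻¹)).mul
      EisensteinSeries.isBoundedAtImInfty_E2).mul (hf.bdd γ)
  exact h1.sub h2

theorem D_discriminant : Stmt_D_discriminant := by
  unfold Stmt_D_discriminant
  ext z
  have hη : DifferentiableAt ℂ ModularForm.eta (z : ℂ) :=
    ModularForm.differentiableAt_eta_of_mem_upperHalfPlaneSet z.2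
  have hne : ModularForm.eta (z : ℂ) ≠ 0 := ModularForm.eta_ne_zero z.2
  have hlog := ModularForm.logDeriv_eta_eq_E2 z
  rw [logDeriv_apply, div_eq_iff hne] at hlog
  have hev : (Δ ∘ ofComplex) =ᶠ[𝓝 (z : ℂ)] fun w => ModularForm.eta w ^ 24 := by
    filter_upwards [isOpen_upperHalfPlaneSet.mem_nhds z.im_pos] with w hw
    simp [ModularForm.discriminant, ofComplex_apply_of_im_pos hw]
  have hπ : (2 * π * Complex.I : ℂ) ≠ 0 := by
    simp [Real.pi_ne_zero]
  simp only [Derivative.normalizedDerivOfComplex, Pi.mul_apply]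
  rw [hev.deriv_eq, deriv_fun_pow hη, hlog, ModularForm.discriminant]
  field_simp
  ring

end

end Fermat.Agent.S20
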