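import Fermat.Agent.S20.InfInterface

set_option autoImplicit false

open UpperHalfPlane Filter Topology Real Asymptotics
open scoped Manifold

namespace Fermat.Agent.S20

/-- A function on `ℍ` invariant under `z ↦ 1 + z` gives a `1`-periodic function on `ℂ`. -/
theorem periodic_comp_ofComplex_of_vadd {f : ℍ → ℂ} (hf : ∀ z : ℍ, f ((1 : ℝ) +ᵥ z) = f z) :
    Function.Periodic (f ∘ ofComplex) ((1 : ℝ) : ℂ) := by
  intro w
  by_cases hw : 0 < Complex.im w
  · have h1 : 0 < Complex.im (w + ((1 : ℝ) : ℂ)) := by simpa using hw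
    simp only [Function.comp_apply, ofComplex_apply_of_im_pos h1, ofComplex_apply_of_im_pos hw]
    rw [← hf ⟨w, hw⟩]
    congr 1
    ext
    simp [add_comm]
  · have hw' : Complex.im w ≤ 0 := not_lt.mp hw
    have h1 : Complex.im (w + ((1 : ℝ) : ℂ)) ≤ 0 := by simpa using hw'
    simp only [Function.comp_apply, ofComplex_apply_of_im_nonpos h1,
      ofComplex_apply_of_im_nonpos hw']

/-- `z ↦ exp (a * z)` is holomorphic on `ℍ`. -/
theorem mdiff_cexp_mul (a : ℂ) : MDiff (fun z : ℍ => Complex.exp (a * z)) := by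
  rw [UpperHalfPlane.mdifferentiable_iff]
  have h : DifferentiableOn ℂ (fun w : ℂ => Complex.exp (a * w)) {z | 0 < z.im} := by
    fun_prop
  refine h.congr fun w hw => ?_
  simp [Function.comp_apply, ofComplex_apply_of_im_pos hw]

theorem norm_cexp_two_pi_I_mul (t : ℝ) (z : ℍ) :
    ‖Complex.exp (2 * π * Complex.I * t * z)‖ = Real.exp (-2 * π * t * z.im) := by
  rw [Complex.norm_exp]
  congr 1
  simp [Complex.mul_re, Complex.mul_im]

theorem tendsto_exp_neg_mul_im_atImInfty {a : ℝ} (ha : 0 < a) :
    Tendsto (fun z : ℍ => Real.exp (-a * z.im)) atImInfty (𝓝 0) := by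
  have h1 : Tendsto (fun z : ℍ => z.im) atImInfty atTop := tendsto_comap
  have h2 : Tendsto (fun z : ℍ => -a * z.im) atImInfty atBot :=
    h1.const_mul_atTop_of_neg (by linarith)
  exact Real.tendsto_exp_atBot.comp h2

theorem twistedLimit : Stmt_twistedLimit := by
  intro θ hθ0 hθ1 c hc hcb hper
  -- the untwisted function
  set h : ℍ → ℂ := fun z => Complex.exp (-(2 * π * Complex.I * θ * z)) * c z with hh
  have hnorm : ∀ z : ℍ, ‖h z‖ = Real.exp (2 * π * θ * z.im) * ‖c z‖ := by
    intro z
    have := norm_cexp_two_pi_I_mul (-θ) z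
    simp only [hh, norm_mul]
    congr 1
    convert this using 2
    · push_cast; ring_nf
    · ring_nf
  have hh_per : ∀ z : ℍ, h ((1 : ℝ) +ᵥ z) = h z := by
    intro z
    simp only [hh, hper z]
    rw [← mul_assoc, ← Complex.exp_add]
    congr 2
    simp only [UpperHalfPlane.coe_vadd]
    push_cast
    ring_nf
  have hh_md : MDiff h := by
    have h1 : h = (fun z : ℍ => Complex.exp (-(2 * π * Complex.I * θ) * z)) * c := by
      funext z
      simp only [hh, Pi.mul_apply, neg_mul]
    rw [h1]
    exact (mdiff_cexp_mul (-(2 * π * Complex.I * θ))).mul hc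
  -- the auxiliary function `q * h`
  set g : ℍ → ℂ := fun z => Complex.exp (2 * π * Complex.I * z) * h z with hg
  have hgnorm : ∀ z : ℍ, ‖g z‖ = Real.exp (-2 * π * z.im) * ‖h z‖ := by
    intro z
    have := norm_cexp_two_pi_I_mul 1 z
    simp only [hg, norm_mul]
    congr 1
    convert this using 2
    · push_cast; ring_nf
    · ring_nf
  have hg_per : ∀ z : ℍ, g ((1 : ℝ) +ᵥ z) = g z := by
    intro z
    simp only [hg, hh_per z]
    congr 1
    simp only [UpperHalfPlane.coe_vadd]
    push_cast
    rw [mul_add, Complex.exp_add]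
    simp [Complex.exp_two_pi_mul_I]
  have hg_md : MDiff g := (mdiff_cexp_mul (2 * π * Complex.I)).mul hh_md
  have hg_zero : IsZeroAtImInfty g := by
    have h1 : Tendsto (fun z : ℍ => Real.exp (-(2 * π * (1 - θ)) * z.im)) atImInfty (𝓝 0) :=
      tendsto_exp_neg_mul_im_atImInfty (by have := Real.pi_pos; have : 0 < 1 - θ := by linarith
                                           positivity)
    obtain ⟨C, hC⟩ := hcb.bound
    simp only [IsZeroAtImInfty, ZeroAtFilter]
    rw [tendsto_zero_iff_norm_tendsto_zero]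
    have h2 : Tendsto (fun z : ℍ => Real.exp (-(2 * π * (1 - θ)) * z.im) * C) atImInfty (𝓝 0) := by
      simpa using h1.mul_const C
    refine squeeze_zero' (Eventually.of_forall fun z => norm_nonneg _) ?_ h2
    filter_upwards [hC] with z hz
    rw [hgnorm, hnorm, ← mul_assoc, ← Real.exp_add]
    have : -2 * π * z.im + 2 * π * θ * z.im = -(2 * π * (1 - θ)) * z.im := by ring
    rw [this]
    have hz' : ‖c z‖ ≤ C := by simpa using hz
    exact mul_le_mul_of_nonneg_left hz' (Real.exp_pos _).le
  have hg_O : g =O[atImInfty] fun τ : ℍ => Real.exp (-2 * π * τ.im / 1) :=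
    hg_zero.exp_decay_atImInfty one_pos (periodic_comp_ofComplex_of_vadd hg_per) hg_md
      hg_zero.isBoundedAtImInfty
  have hh_bdd : IsBoundedAtImInfty h := by
    obtain ⟨C, hC⟩ := hg_O.bound
    refine IsBigO.of_bound C ?_
    filter_upwards [hC] with z hz
    rw [hgnorm] at hz
    simp only [div_one, Real.norm_eq_abs, Real.abs_exp] at hz
    rw [mul_comm C] at hz
    simpa using le_of_mul_le_mul_left hz (Real.exp_pos _)
  have hh_O := exp_decay_sub_atImInfty one_pos (periodic_comp_ofComplex_of_vadd hh_per) hh_md hh_bdd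
  refine ⟨valueAtInfty h, ?_, ?_⟩
  · have h0 : Tendsto (fun τ : ℍ => Real.exp (-2 * π * τ.im / 1)) atImInfty (𝓝 0) := by
      have := tendsto_exp_neg_mul_im_atImInfty (a := 2 * π) (by positivity)
      refine this.congr fun z => ?_
      congr 1
      ring
    have h1 : Tendsto (fun τ : ℍ => h τ - valueAtInfty h) atImInfty (𝓝 0) :=
      hh_O.trans_tendsto h0
    have h2 := h1.add_const (valueAtInfty h)
    simpa using h2
  · intro hL
    rw [hL] at hh_O
    simp only [sub_zero, div_one] at hh_O
    refine IsBigO.trans (IsBigO.of_bound 1 (Eventually.of_forall fun z => ?_)) hh_O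
    rw [hnorm, one_mul]
    have h1 : 1 ≤ Real.exp (2 * π * θ * z.im) := by
      apply Real.one_le_exp
      have := z.im_pos
      positivity
    nlinarith [norm_nonneg (c z)]

end Fermat.Agent.S20
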