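import Mathlib
import Fermat.Prelude.Def_ModularCurve_GenusNumerics

set_option autoImplicit false

namespace Fermat.Agent.S20

open ModularCurve

theorem dedekindPsi_prime_mul_of_dvd {p N : ℕ} (hp : p.Prime) (hN : N ≠ 0) (hpN : p ∣ N) :
    dedekindPsi (p * N) = p * dedekindPsi N := by
  unfold dedekindPsi
  have hset : (p * N).divisors.filter (fun d => Squarefree d) =
      N.divisors.filter (fun d => Squarefree d) := by
    ext d
    simp only [Finset.mem_filter, Nat.mem_divisors]
    constructor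
    · rintro ⟨⟨hd, -⟩, hsq⟩
      refine ⟨⟨?_, hN⟩, hsq⟩
      by_cases hpd : p ∣ d
      · obtain ⟨e, rfl⟩ := hpd
        have he : e ∣ N := Nat.dvd_of_mul_dvd_mul_left hp.pos hd
        have hcop : Nat.Coprime p e := by
          rw [Nat.Prime.coprime_iff_not_dvd hp]
          intro hpe
          have := (Nat.squarefree_mul_iff.mp hsq).1
          exact (Nat.Prime.coprime_iff_not_dvd hp).mp this hpe
        exact hcop.mul_dvd_of_dvd_of_dvd hpN he
      · have hcop : Nat.Coprime d p := ((Nat.Prime.coprime_iff_not_dvd hp).mpr hpd).symm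
        exact hcop.dvd_of_dvd_mul_left hd
    · rintro ⟨⟨hd, -⟩, hsq⟩
      exact ⟨⟨hd.mul_left p, mul_ne_zero hp.ne_zero hN⟩, hsq⟩
  rw [hset, Finset.mul_sum]
  refine Finset.sum_congr rfl fun d hd => ?_
  simp only [Finset.mem_filter, Nat.mem_divisors] at hd
  exact Nat.mul_div_assoc p hd.1.1

theorem dedekindPsi_prime_mul_of_not_dvd {p N : ℕ} (hp : p.Prime) (hN : N ≠ 0) (hpN : ¬ p ∣ N) :
    dedekindPsi (p * N) = (p + 1) * dedekindPsi N := by
  unfold dedekindPsi
  have hset : (p * N).divisors.filter (fun d => Squarefree d) =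
      N.divisors.filter (fun d => Squarefree d) ∪
        (N.divisors.filter (fun d => Squarefree d)).image (fun e => p * e) := by
    ext d
    simp only [Finset.mem_filter, Nat.mem_divisors, Finset.mem_union, Finset.mem_image]
    constructor
    · rintro ⟨⟨hd, -⟩, hsq⟩
      by_cases hpd : p ∣ d
      · obtain ⟨e, rfl⟩ := hpd
        right
        exact ⟨e, ⟨⟨Nat.dvd_of_mul_dvd_mul_left hp.pos hd, hN⟩,
          (Nat.squarefree_mul_iff.mp hsq).2.2⟩, rfl⟩
      · left
        have hcop : Nat.Coprime d p := ((Nat.Prime.coprime_iff_not_dvd hp).mpr hpd).symm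
        exact ⟨⟨hcop.dvd_of_dvd_mul_left hd, hN⟩, hsq⟩
    · rintro (⟨⟨hd, -⟩, hsq⟩ | ⟨e, ⟨⟨he, -⟩, hsq⟩, rfl⟩)
      · exact ⟨⟨hd.mul_left p, mul_ne_zero hp.ne_zero hN⟩, hsq⟩
      · refine ⟨⟨Nat.mul_dvd_mul_left p he, mul_ne_zero hp.ne_zero hN⟩, ?_⟩
        rw [Nat.squarefree_mul_iff]
        refine ⟨?_, hp.squarefree, hsq⟩
        rw [Nat.Prime.coprime_iff_not_dvd hp]
        exact fun h => hpN (h.trans he)
  have hdisj : Disjoint (N.divisors.filter (fun d => Squarefree d))
      ((N.divisors.filter (fun d => Squarefree d)).image (fun e => p * e)) := by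
    rw [Finset.disjoint_left]
    intro d hd hd'
    simp only [Finset.mem_filter, Nat.mem_divisors, Finset.mem_image] at hd hd'
    obtain ⟨e, -, rfl⟩ := hd'
    exact hpN ((dvd_mul_right p e).trans hd.1.1)
  rw [hset, Finset.sum_union hdisj, Finset.sum_image (fun a _ b _ h => Nat.eq_of_mul_eq_mul_left hp.pos h),
    add_mul, one_mul, Finset.mul_sum]
  congr 1
  · refine Finset.sum_congr rfl fun d hd => ?_
    simp only [Finset.mem_filter, Nat.mem_divisors] at hd
    exact Nat.mul_div_assoc p hd.1.1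
  · refine Finset.sum_congr rfl fun d _ => ?_
    exact Nat.mul_div_mul_left N d hp.pos

end Fermat.Agent.S20
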