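import Mathlib
import Fermat.Prelude.Def_ModularCurve_GenusNumerics

set_option autoImplicit false

open scoped MatrixGroups
open CongruenceSubgroup

namespace Fermat.Agent.S20

/-- The matrix `[[0,-1],[1,t]]`; `t = 0` is `S`, `t = 1` is `S * T`. -/
def fixMat (t : ℤ) : SL(2, ℤ) := ⟨!![0, -1; 1, t], by simp [Matrix.det_fin_two]⟩

/-- The matrix `[[x,-1],[1,0]]`, whose first column is `(x,1)`. -/
def colMat (x : ℤ) : SL(2, ℤ) := ⟨!![x, -1; 1, 0], by simp [Matrix.det_fin_two]⟩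

theorem colMat_apply_zero_zero (x : ℤ) : (colMat x) 0 0 = x := rfl

theorem colMat_apply_one_zero (x : ℤ) : (colMat x) 1 0 = 1 := rfl

theorem fixMat_zero : fixMat 0 = ModularGroup.S := rfl

theorem fixMat_one : fixMat 1 = ModularGroup.S * ModularGroup.T := by
  apply Subtype.ext
  rw [Matrix.SpecialLinearGroup.coe_mul]
  simp [fixMat, ModularGroup.S, ModularGroup.T]

/-- lower-left entry of `γ⁻¹ * δ`. -/
theorem inv_mul_apply_one_zero (γ δ : SL(2, ℤ)) :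
    (γ⁻¹ * δ : SL(2, ℤ)) 1 0 = - γ 1 0 * δ 0 0 + γ 0 0 * δ 1 0 := by
  rw [Matrix.SpecialLinearGroup.coe_mul, Matrix.SpecialLinearGroup.coe_inv,
    Matrix.adjugate_fin_two, Matrix.mul_apply, Fin.sum_univ_two]
  simp

theorem mk_eq_mk_iff (N : ℕ) (γ δ : SL(2, ℤ)) :
    ((γ : SL(2, ℤ) ⧸ Gamma0 N) = (δ : SL(2, ℤ) ⧸ Gamma0 N)) ↔
      ((- γ 1 0 * δ 0 0 + γ 0 0 * δ 1 0 : ℤ) : ZMod N) = 0 := by
  rw [QuotientGroup.eq, Gamma0_mem, inv_mul_apply_one_zero]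

theorem fixMat_mul_apply_zero_zero (t : ℤ) (γ : SL(2, ℤ)) :
    (fixMat t * γ : SL(2, ℤ)) 0 0 = - γ 1 0 := by
  rw [Matrix.SpecialLinearGroup.coe_mul, Matrix.mul_apply, Fin.sum_univ_two]
  simp [fixMat]

theorem fixMat_mul_apply_one_zero (t : ℤ) (γ : SL(2, ℤ)) :
    (fixMat t * γ : SL(2, ℤ)) 1 0 = γ 0 0 + t * γ 1 0 := by
  rw [Matrix.SpecialLinearGroup.coe_mul, Matrix.mul_apply, Fin.sum_univ_two]
  simp [fixMat]

theorem mk_mem_fixedBy_iff (N : ℕ) (t : ℤ) (γ : SL(2, ℤ)) :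
    (γ : SL(2, ℤ) ⧸ Gamma0 N) ∈ MulAction.fixedBy (SL(2, ℤ) ⧸ Gamma0 N) (fixMat t) ↔
      ((γ 0 0 : ℤ) : ZMod N) ^ 2 + (t : ZMod N) * (γ 0 0 : ℤ) * (γ 1 0 : ℤ)
        + ((γ 1 0 : ℤ) : ZMod N) ^ 2 = 0 := by
  rw [MulAction.mem_fixedBy, MulAction.Quotient.smul_mk, smul_eq_mul, eq_comm, mk_eq_mk_iff,
    fixMat_mul_apply_zero_zero, fixMat_mul_apply_one_zero]
  push_cast
  constructor <;> intro h <;> linear_combination h

theorem card_fixedBy_fixMat (N : ℕ) (t : ℤ) :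
    Nat.card (MulAction.fixedBy (SL(2, ℤ) ⧸ Gamma0 N) (fixMat t)) =
      Nat.card {x : ZMod N // x ^ 2 + (t : ZMod N) * x + 1 = 0} := by
  symm
  refine Nat.card_eq_of_bijective
    (fun x => ⟨((colMat (x.1.cast : ℤ) : SL(2, ℤ)) : SL(2, ℤ) ⧸ Gamma0 N), ?_⟩) ⟨?_, ?_⟩
  · rw [mk_mem_fixedBy_iff, colMat_apply_zero_zero, colMat_apply_one_zero,
      ZMod.intCast_zmod_cast]
    have hx := x.2
    push_cast
    linear_combination hx
  · intro x y hxy
    have h := (mk_eq_mk_iff N _ _).mp (congrArg Subtype.val hxy)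
    rw [colMat_apply_zero_zero, colMat_apply_one_zero, colMat_apply_zero_zero,
      colMat_apply_one_zero] at h
    push_cast at h
    apply Subtype.ext
    linear_combination h
  · rintro ⟨q, hq⟩
    induction q using QuotientGroup.induction_on with
    | H γ =>
      rw [mk_mem_fixedBy_iff] at hq
      have hdet : ((γ 0 0 : ℤ) : ZMod N) * (γ 1 1 : ℤ) - (γ 0 1 : ℤ) * (γ 1 0 : ℤ) = 1 := by
        have h := γ.det_coe
        rw [Matrix.det_fin_two] at h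
        have h2 := congrArg (Int.cast : ℤ → ZMod N) h
        push_cast at h2
        exact h2
      obtain ⟨a, ha⟩ : ∃ a : ZMod N, a = ((γ 0 0 : ℤ) : ZMod N) := ⟨_, rfl⟩
      obtain ⟨b, hb⟩ : ∃ b : ZMod N, b = ((γ 0 1 : ℤ) : ZMod N) := ⟨_, rfl⟩
      obtain ⟨c, hc⟩ : ∃ c : ZMod N, c = ((γ 1 0 : ℤ) : ZMod N) := ⟨_, rfl⟩
      obtain ⟨d, hd⟩ : ∃ d : ZMod N, d = ((γ 1 1 : ℤ) : ZMod N) := ⟨_, rfl⟩
      rw [← ha, ← hc] at hq
      rw [← ha, ← hb, ← hc, ← hd] at hdet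
      obtain ⟨e, he⟩ : ∃ e : ZMod N, e = -((((t : ZMod N) * a + c) * d + a * b) * d + b) :=
        ⟨_, rfl⟩
      have hce : c * e = 1 := by
        rw [he]
        linear_combination (-(d ^ 2)) * hq + (a * d + 1) * hdet
      refine ⟨⟨a * e, ?_⟩, ?_⟩
      · linear_combination e ^ 2 * hq + (-(t : ZMod N) * a * e - c * e - 1) * hce
      · apply Subtype.ext
        show ((colMat ((a * e).cast : ℤ) : SL(2, ℤ)) : SL(2, ℤ) ⧸ Gamma0 N) = γ
        rw [mk_eq_mk_iff, colMat_apply_zero_zero, colMat_apply_one_zero]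
        push_cast
        rw [← ha, ← hc]
        linear_combination a * hce

/-- **C2**: the number of fixed points of `S` on `SL(2,ℤ)/Γ₀(N)` is `ν₂(N)`. -/
theorem card_fixedBy_S (N : ℕ) :
    Nat.card (MulAction.fixedBy (SL(2, ℤ) ⧸ Gamma0 N) ModularGroup.S) = ModularCurve.nuTwo N := by
  rw [← fixMat_zero, card_fixedBy_fixMat, ModularCurve.nuTwo]
  refine Nat.card_congr (Equiv.subtypeEquivRight fun x => ?_)
  simp

/-- **C3**: the number of fixed points of `S * T` on `SL(2,ℤ)/Γ₀(N)` is `ν₃(N)`. -/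
theorem card_fixedBy_ST (N : ℕ) :
    Nat.card (MulAction.fixedBy (SL(2, ℤ) ⧸ Gamma0 N) (ModularGroup.S * ModularGroup.T)) =
      ModularCurve.nuThree N := by
  rw [← fixMat_one, card_fixedBy_fixMat, ModularCurve.nuThree]
  refine Nat.card_congr (Equiv.subtypeEquivRight fun x => ?_)
  simp

end Fermat.Agent.S20
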