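import Mathlib
import Fermat.Prelude.Def_ModularCurve_GenusNumerics
import Fermat.Agent.S20.CombFix
import Fermat.Agent.S20.CombPsi

set_option autoImplicit false

open scoped MatrixGroups
open CongruenceSubgroup

namespace Fermat.Agent.S20

/-- Counting a relative index by an explicit system of representatives. -/
theorem relIndex_eq_card_of_reps {G ι : Type*} [Group G] (H K : Subgroup G) (r : ι → G)
    (hr : ∀ i, r i ∈ K) (hinj : ∀ i j, (r i)⁻¹ * r j ∈ H → i = j)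
    (hsurj : ∀ k ∈ K, ∃ i, (r i)⁻¹ * k ∈ H) : H.relIndex K = Nat.card ι := by
  rw [Subgroup.relIndex, Subgroup.index]
  symm
  refine Nat.card_eq_of_bijective
    (fun i => ((⟨r i, hr i⟩ : K) : K ⧸ H.subgroupOf K)) ⟨?_, ?_⟩
  · intro i j hij
    apply hinj
    have h := QuotientGroup.eq.mp hij
    rw [Subgroup.mem_subgroupOf] at h
    simpa using h
  · intro q
    induction q using QuotientGroup.induction_on with
    | H k =>
      obtain ⟨i, hi⟩ := hsurj k k.2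
      refine ⟨i, ?_⟩
      rw [QuotientGroup.eq, Subgroup.mem_subgroupOf]
      simpa using hi

theorem mem_Gamma0_iff_dvd (N : ℕ) (γ : SL(2, ℤ)) : γ ∈ Gamma0 N ↔ (N : ℤ) ∣ γ 1 0 := by
  rw [Gamma0_mem, ZMod.intCast_zmod_eq_zero_iff_dvd]

theorem inv_mul_mem_Gamma0_iff (N : ℕ) (γ δ : SL(2, ℤ)) :
    γ⁻¹ * δ ∈ Gamma0 N ↔ (N : ℤ) ∣ - γ 1 0 * δ 0 0 + γ 0 0 * δ 1 0 := by
  rw [mem_Gamma0_iff_dvd, inv_mul_apply_one_zero]

/-- The matrix `[[1,0],[x,1]]`. -/
def lowMat (x : ℤ) : SL(2, ℤ) := ⟨!![1, 0; x, 1], by simp [Matrix.det_fin_two]⟩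

theorem lowMat_apply_zero_zero (x : ℤ) : (lowMat x) 0 0 = 1 := rfl

theorem lowMat_apply_one_zero (x : ℤ) : (lowMat x) 1 0 = x := rfl

theorem det_eq (γ : SL(2, ℤ)) : γ 0 0 * γ 1 1 - γ 0 1 * γ 1 0 = 1 := by
  have h := γ.det_coe
  rwa [Matrix.det_fin_two] at h

theorem relIndex_Gamma0_of_dvd {p N : ℕ} (hp : p.Prime) (hN : N ≠ 0) (hpN : p ∣ N) :
    (Gamma0 (p * N)).relIndex (Gamma0 N) = p := by
  have : Fact p.Prime := ⟨hp⟩
  have hN' : (N : ℤ) ≠ 0 := by exact_mod_cast hN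
  rw [relIndex_eq_card_of_reps (ι := ZMod p) _ _ (fun t => lowMat ((N : ℤ) * (t.cast : ℤ))),
    Nat.card_zmod]
  · intro t
    rw [mem_Gamma0_iff_dvd, lowMat_apply_one_zero]
    exact dvd_mul_right _ _
  · intro s t h
    rw [inv_mul_mem_Gamma0_iff, lowMat_apply_one_zero, lowMat_apply_one_zero,
      lowMat_apply_zero_zero, lowMat_apply_zero_zero] at h
    have h2 : ((p : ℤ) * N) ∣ N * ((t.cast : ℤ) - (s.cast : ℤ)) := by
      have : (N : ℤ) * ((t.cast : ℤ) - (s.cast : ℤ)) =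
          -((N : ℤ) * (s.cast : ℤ)) * 1 + 1 * ((N : ℤ) * (t.cast : ℤ)) := by ring
      rw [this]
      exact_mod_cast h
    rw [mul_comm (p : ℤ) N] at h2
    have h3 : (p : ℤ) ∣ (t.cast : ℤ) - (s.cast : ℤ) := (mul_dvd_mul_iff_left hN').mp h2
    have h4 := (ZMod.intCast_zmod_eq_zero_iff_dvd _ p).mpr h3
    push_cast at h4
    exact (sub_eq_zero.mp h4).symm
  · intro γ hγ
    rw [mem_Gamma0_iff_dvd] at hγ
    obtain ⟨c1, hc1⟩ := hγ
    have hdet := det_eq γ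
    -- `a` is a unit mod `p` with inverse `d`
    have had : ((γ 0 0 : ℤ) : ZMod p) * ((γ 1 1 : ℤ) : ZMod p) = 1 := by
      have hpc : ((γ 1 0 : ℤ) : ZMod p) = 0 := by
        rw [ZMod.intCast_zmod_eq_zero_iff_dvd, hc1]
        exact Dvd.dvd.mul_right (by exact_mod_cast hpN) _
      have h2 := congrArg (Int.cast : ℤ → ZMod p) hdet
      push_cast at h2
      rw [hpc, mul_zero, sub_zero] at h2
      exact h2
    refine ⟨(c1 : ZMod p) * ((γ 1 1 : ℤ) : ZMod p), ?_⟩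
    rw [inv_mul_mem_Gamma0_iff, lowMat_apply_one_zero, lowMat_apply_zero_zero, hc1]
    have : -((N : ℤ) * (((c1 : ZMod p) * ((γ 1 1 : ℤ) : ZMod p)).cast : ℤ)) * γ 0 0 + 1 * (N * c1) =
        N * (c1 - (((c1 : ZMod p) * ((γ 1 1 : ℤ) : ZMod p)).cast : ℤ) * γ 0 0) := by ring
    rw [this]
    push_cast
    rw [mul_comm (p : ℤ) N]
    apply mul_dvd_mul_left
    rw [← ZMod.intCast_zmod_eq_zero_iff_dvd]
    push_cast
    linear_combination (-(c1 : ZMod p)) * had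

theorem relIndex_Gamma0_of_not_dvd {p N : ℕ} (hp : p.Prime) (hN : N ≠ 0) (hpN : ¬ p ∣ N) :
    (Gamma0 (p * N)).relIndex (Gamma0 N) = p + 1 := by
  have : Fact p.Prime := ⟨hp⟩
  have hN' : (N : ℤ) ≠ 0 := by exact_mod_cast hN
  -- a matrix with first column `(p, N)`
  obtain ⟨ω, hω0, hω1⟩ : ∃ ω : SL(2, ℤ), ω 0 0 = p ∧ ω 1 0 = N := by
    have hcop : IsCoprime (p : ℤ) (N : ℤ) := by
      rw [Nat.isCoprime_iff_coprime]
      exact (Nat.Prime.coprime_iff_not_dvd hp).mpr hpN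
    obtain ⟨x, y, hxy⟩ := hcop
    exact ⟨⟨!![(p : ℤ), -y; (N : ℤ), x], by rw [Matrix.det_fin_two_of]; linarith⟩, rfl, rfl⟩
  have hp1 : ¬ (p : ℤ) ∣ 1 := by
    intro h
    have := Int.natCast_dvd_natCast.mp (by simpa using h : (p : ℤ) ∣ ((1 : ℕ) : ℤ))
    exact hp.one_lt.ne' (Nat.dvd_one.mp this)
  rw [relIndex_eq_card_of_reps (ι := Option (ZMod p)) _ _
    (fun t => t.elim ω (fun t => lowMat ((N : ℤ) * (t.cast : ℤ)))),
    Nat.card_eq_fintype_card, Fintype.card_option, ZMod.card]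
  · rintro (_ | t)
    · rw [Option.elim_none, mem_Gamma0_iff_dvd, hω1]
    · rw [Option.elim_some, mem_Gamma0_iff_dvd, lowMat_apply_one_zero]
      exact dvd_mul_right _ _
  · rintro (_ | s) (_ | t) h
    · rfl
    · exfalso
      rw [Option.elim_none, Option.elim_some, inv_mul_mem_Gamma0_iff, lowMat_apply_one_zero,
        lowMat_apply_zero_zero, hω0, hω1] at h
      have h2 : (N : ℤ) * p ∣ N * ((p : ℤ) * (t.cast : ℤ) - 1) := by
        have e : (N : ℤ) * ((p : ℤ) * (t.cast : ℤ) - 1) =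
            -(N : ℤ) * 1 + p * ((N : ℤ) * (t.cast : ℤ)) := by ring
        rw [e, mul_comm (N : ℤ) p]
        exact_mod_cast h
      have h3 : (p : ℤ) ∣ (p : ℤ) * (t.cast : ℤ) - 1 := (mul_dvd_mul_iff_left hN').mp h2
      exact hp1 ((dvd_sub_right (dvd_mul_right _ _)).mp h3)
    · exfalso
      rw [Option.elim_none, Option.elim_some, inv_mul_mem_Gamma0_iff, lowMat_apply_one_zero,
        lowMat_apply_zero_zero, hω0, hω1] at h
      have h2 : (N : ℤ) * p ∣ N * (1 - (p : ℤ) * (s.cast : ℤ)) := by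
        have e : (N : ℤ) * (1 - (p : ℤ) * (s.cast : ℤ)) =
            -((N : ℤ) * (s.cast : ℤ)) * p + 1 * N := by ring
        rw [e, mul_comm (N : ℤ) p]
        exact_mod_cast h
      have h3 : (p : ℤ) ∣ 1 - (p : ℤ) * (s.cast : ℤ) := (mul_dvd_mul_iff_left hN').mp h2
      exact hp1 ((dvd_sub_left (dvd_mul_right _ _)).mp h3)
    · rw [Option.elim_some, Option.elim_some, inv_mul_mem_Gamma0_iff, lowMat_apply_one_zero,
        lowMat_apply_one_zero, lowMat_apply_zero_zero, lowMat_apply_zero_zero] at h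
      have h2 : ((p : ℤ) * N) ∣ N * ((t.cast : ℤ) - (s.cast : ℤ)) := by
        have : (N : ℤ) * ((t.cast : ℤ) - (s.cast : ℤ)) =
            -((N : ℤ) * (s.cast : ℤ)) * 1 + 1 * ((N : ℤ) * (t.cast : ℤ)) := by ring
        rw [this]
        exact_mod_cast h
      rw [mul_comm (p : ℤ) N] at h2
      have h3 : (p : ℤ) ∣ (t.cast : ℤ) - (s.cast : ℤ) := (mul_dvd_mul_iff_left hN').mp h2
      have h4 := (ZMod.intCast_zmod_eq_zero_iff_dvd _ p).mpr h3
      push_cast at h4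
      rw [(sub_eq_zero.mp h4)]
  · intro γ hγ
    rw [mem_Gamma0_iff_dvd] at hγ
    obtain ⟨c1, hc1⟩ := hγ
    by_cases hpa : (p : ℤ) ∣ γ 0 0
    · refine ⟨none, ?_⟩
      rw [Option.elim_none, inv_mul_mem_Gamma0_iff, hω0, hω1, hc1]
      have e : -(N : ℤ) * γ 0 0 + p * (N * c1) = N * (p * c1 - γ 0 0) := by ring
      rw [e]
      push_cast
      rw [mul_comm (p : ℤ) N]
      exact mul_dvd_mul_left _ (dvd_sub (dvd_mul_right _ _) hpa)
    · have ha : ((γ 0 0 : ℤ) : ZMod p) ≠ 0 := by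
        rwa [Ne, ZMod.intCast_zmod_eq_zero_iff_dvd]
      refine ⟨some ((c1 : ZMod p) * ((γ 0 0 : ℤ) : ZMod p)⁻¹), ?_⟩
      rw [Option.elim_some, inv_mul_mem_Gamma0_iff, lowMat_apply_one_zero, lowMat_apply_zero_zero,
        hc1]
      have e : -((N : ℤ) * (((c1 : ZMod p) * ((γ 0 0 : ℤ) : ZMod p)⁻¹).cast : ℤ)) * γ 0 0
          + 1 * (N * c1) =
          N * (c1 - (((c1 : ZMod p) * ((γ 0 0 : ℤ) : ZMod p)⁻¹).cast : ℤ) * γ 0 0) := by ring
      rw [e]
      push_cast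
      rw [mul_comm (p : ℤ) N]
      apply mul_dvd_mul_left
      rw [← ZMod.intCast_zmod_eq_zero_iff_dvd]
      push_cast
      rw [mul_assoc, inv_mul_cancel₀ ha, mul_one, sub_self]

theorem Gamma0_mul_le (p N : ℕ) : Gamma0 (p * N) ≤ Gamma0 N := by
  intro γ hγ
  rw [mem_Gamma0_iff_dvd] at hγ ⊢
  exact (Dvd.intro_left (p : ℤ) (by push_cast; rfl)).trans hγ

/-- **C1**: the index of `Γ₀(N)` in `SL(2,ℤ)` is the Dedekind psi function. -/
theorem index_Gamma0 (N : ℕ) (hN : N ≠ 0) : (Gamma0 N).index = ModularCurve.dedekindPsi N := by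
  induction N using induction_on_primes with
  | zero => exact absurd rfl hN
  | one =>
    rw [ModularCurve.dedekindPsi_one, Subgroup.index_eq_one, eq_top_iff]
    intro γ _
    rw [mem_Gamma0_iff_dvd]
    simp
  | prime_mul p a hp ih =>
    have ha : a ≠ 0 := right_ne_zero_of_mul hN
    rw [← Subgroup.relIndex_mul_index (Gamma0_mul_le p a), ih ha]
    by_cases hpa : p ∣ a
    · rw [relIndex_Gamma0_of_dvd hp ha hpa, dedekindPsi_prime_mul_of_dvd hp ha hpa]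
    · rw [relIndex_Gamma0_of_not_dvd hp ha hpa, dedekindPsi_prime_mul_of_not_dvd hp ha hpa]

end Fermat.Agent.S20
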