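import Mathlib
import Fermat.Prelude.Def_ModularCurve_GenusNumerics
import Fermat.Agent.S20.CombIndex

set_option autoImplicit false

open scoped MatrixGroups
open CongruenceSubgroup

namespace Fermat.Agent.S20

/-- The set of `⟨T⟩`-orbits on `SL(2,ℤ)/Γ₀(N)` (the cusps of `Γ₀(N)`). -/
abbrev TOrbits (N : ℕ) : Type :=
  MulAction.orbitRel.Quotient (Subgroup.zpowers ModularGroup.T) (SL(2, ℤ) ⧸ Gamma0 N)

/-- The orbit of the coset of a matrix. -/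
def orbMk (N : ℕ) (γ : SL(2, ℤ)) : TOrbits N :=
  Quotient.mk'' (γ : SL(2, ℤ) ⧸ Gamma0 N)

theorem orbMk_surjective (N : ℕ) : Function.Surjective (orbMk N) := by
  intro q
  induction q using Quotient.inductionOn' with
  | h x =>
    induction x using QuotientGroup.induction_on with
    | H γ => exact ⟨γ, rfl⟩

theorem T_zpow_mul_apply_zero_zero (n : ℤ) (γ : SL(2, ℤ)) :
    (ModularGroup.T ^ n * γ : SL(2, ℤ)) 0 0 = γ 0 0 + n * γ 1 0 := by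
  rw [Matrix.SpecialLinearGroup.coe_mul, ModularGroup.coe_T_zpow, Matrix.mul_apply,
    Fin.sum_univ_two]
  simp

theorem T_zpow_mul_apply_one_zero (n : ℤ) (γ : SL(2, ℤ)) :
    (ModularGroup.T ^ n * γ : SL(2, ℤ)) 1 0 = γ 1 0 := by
  rw [Matrix.SpecialLinearGroup.coe_mul, ModularGroup.coe_T_zpow, Matrix.mul_apply,
    Fin.sum_univ_two]
  simp

theorem orbMk_eq_iff (N : ℕ) (γ δ : SL(2, ℤ)) :
    orbMk N γ = orbMk N δ ↔
      ∃ n : ℤ, (N : ℤ) ∣ -(δ 1 0) * γ 0 0 + (δ 0 0 + n * δ 1 0) * γ 1 0 := by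
  rw [orbMk, orbMk, Quotient.eq'', MulAction.orbitRel_apply, MulAction.mem_orbit_iff]
  constructor
  · rintro ⟨⟨g, n, rfl⟩, hg⟩
    refine ⟨n, ?_⟩
    have h : (((ModularGroup.T ^ n * δ : SL(2, ℤ)) : SL(2, ℤ) ⧸ Gamma0 N)) = γ := hg
    rw [mk_eq_mk_iff, T_zpow_mul_apply_zero_zero, T_zpow_mul_apply_one_zero,
      ZMod.intCast_zmod_eq_zero_iff_dvd] at h
    exact h
  · rintro ⟨n, hn⟩
    refine ⟨⟨ModularGroup.T ^ n, n, rfl⟩, ?_⟩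
    show (((ModularGroup.T ^ n * δ : SL(2, ℤ)) : SL(2, ℤ) ⧸ Gamma0 N)) = γ
    rw [mk_eq_mk_iff, T_zpow_mul_apply_zero_zero, T_zpow_mul_apply_one_zero,
      ZMod.intCast_zmod_eq_zero_iff_dvd]
    exact hn

theorem exists_add_mul_coprime (x n m : ℕ) (hm : m ≠ 0) (hx : x.Coprime n) :
    ∃ k : ℕ, (x + k * n).Coprime m := by
  let ps : Finset ℕ := {p ∈ m.primeFactors | ¬p ∣ x}
  use ps.prod id
  apply Nat.coprime_of_dvd
  intro p pp hp hpn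
  by_cases hpx : p ∣ x
  · have h := Nat.dvd_sub hp hpx
    rw [add_comm, Nat.add_sub_cancel] at h
    rcases pp.dvd_mul.mp h with h | h
    · have ⟨q, hq, hq'⟩ := (pp.prime.dvd_finsetProd_iff id).mp h
      rw [Finset.mem_filter, Nat.mem_primeFactors,
        ← (Nat.prime_dvd_prime_iff_eq pp hq.1.1).mp hq'] at hq
      exact hq.2 hpx
    · exact Nat.Prime.not_coprime_iff_dvd.mpr ⟨p, pp, hpx, h⟩ hx
  · have pps : p ∈ ps := Finset.mem_filter.mpr ⟨Nat.mem_primeFactors.mpr ⟨pp, hpn, hm⟩, hpx⟩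
    have h := Nat.dvd_sub hp ((Finset.dvd_prod_of_mem id pps).mul_right n)
    rw [Nat.add_sub_cancel] at h
    contradiction

/-- A matrix with lower-left entry `d` and upper-left entry `≡ t mod g`. -/
theorem exists_rep (d g t : ℕ) (hd : d ≠ 0) (ht : g.Coprime t) :
    ∃ γ : SL(2, ℤ), γ 1 0 = d ∧ (g : ℤ) ∣ γ 0 0 - t := by
  obtain ⟨k, hk⟩ := exists_add_mul_coprime t g d hd ht.symm
  have hcop : IsCoprime ((t + k * g : ℕ) : ℤ) (d : ℤ) := Nat.isCoprime_iff_coprime.mpr hk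
  obtain ⟨x, y, hxy⟩ := hcop
  refine ⟨⟨!![((t + k * g : ℕ) : ℤ), -y; (d : ℤ), x], by
    rw [Matrix.det_fin_two_of]; linarith⟩, rfl, ?_⟩
  show (g : ℤ) ∣ ((t + k * g : ℕ) : ℤ) - t
  push_cast
  exact ⟨k, by ring⟩

theorem isCoprime_col (γ : SL(2, ℤ)) : IsCoprime (γ 0 0) (γ 1 0) :=
  ⟨γ 1 1, -γ 0 1, by have := det_eq γ; linarith⟩

theorem rep_inj (N : ℕ) (hN : N ≠ 0) {d d' t t' : ℕ} (hd : d ∣ N) (hd' : d' ∣ N)
    (ht : t < Nat.gcd d (N / d)) (ht' : t' < Nat.gcd d' (N / d'))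
    (γ δ : SL(2, ℤ)) (hγ1 : γ 1 0 = d) (hγ0 : (Nat.gcd d (N / d) : ℤ) ∣ γ 0 0 - t)
    (hδ1 : δ 1 0 = d') (hδ0 : (Nat.gcd d' (N / d') : ℤ) ∣ δ 0 0 - t')
    (h : orbMk N γ = orbMk N δ) : d = d' ∧ t = t' := by
  rw [orbMk_eq_iff] at h
  obtain ⟨n, hn⟩ := h
  rw [hγ1, hδ1] at hn
  have hcγ := isCoprime_col γ
  have hcδ := isCoprime_col δ
  rw [hγ1] at hcγ
  rw [hδ1] at hcδ
  have hdN : (d : ℤ) ∣ N := Int.natCast_dvd_natCast.mpr hd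
  have hd'N : (d' : ℤ) ∣ N := Int.natCast_dvd_natCast.mpr hd'
  have h1 : (d : ℤ) ∣ d' := by
    have h2 : (d : ℤ) ∣ (d' : ℤ) * γ 0 0 := by
      have h3 := hdN.trans hn
      have h4 : (d : ℤ) ∣ (δ 0 0 + n * d') * d := dvd_mul_left _ _
      have h5 := dvd_sub h4 h3
      have e : (δ 0 0 + n * d') * d - (-(d' : ℤ) * γ 0 0 + (δ 0 0 + n * d') * d) =
          (d' : ℤ) * γ 0 0 := by ring
      rwa [e] at h5
    exact hcγ.symm.dvd_of_dvd_mul_right h2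
  have h2 : (d' : ℤ) ∣ d := by
    have h2 : (d' : ℤ) ∣ (d : ℤ) * δ 0 0 := by
      have h3 := hd'N.trans hn
      have h4 : (d' : ℤ) ∣ (d' : ℤ) * (- γ 0 0 + n * d) := dvd_mul_right _ _
      have h5 := dvd_sub h3 h4
      have e : (-(d' : ℤ) * γ 0 0 + (δ 0 0 + n * d') * d) - (d' : ℤ) * (- γ 0 0 + n * d) =
          (d : ℤ) * δ 0 0 := by ring
      rwa [e] at h5
    exact hcδ.symm.dvd_of_dvd_mul_right h2
  have hdd : d = d' :=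
    Nat.dvd_antisymm (Int.natCast_dvd_natCast.mp h1) (Int.natCast_dvd_natCast.mp h2)
  subst hdd
  refine ⟨rfl, ?_⟩
  have hd0 : d ≠ 0 := fun h0 => hN (by rw [h0] at hd; exact Nat.eq_zero_of_zero_dvd hd)
  have hd0' : (d : ℤ) ≠ 0 := by exact_mod_cast hd0
  have hNd : (N : ℤ) = d * ((N / d : ℕ) : ℤ) := by
    exact_mod_cast (Nat.mul_div_cancel' hd).symm
  have h3 : ((N / d : ℕ) : ℤ) ∣ - γ 0 0 + δ 0 0 + n * d := by
    have e : -(d : ℤ) * γ 0 0 + (δ 0 0 + n * d) * d = d * (- γ 0 0 + δ 0 0 + n * d) := by ring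
    rw [e, hNd] at hn
    exact (mul_dvd_mul_iff_left hd0').mp hn
  have hg1 : (Nat.gcd d (N / d) : ℤ) ∣ ((N / d : ℕ) : ℤ) :=
    Int.natCast_dvd_natCast.mpr (Nat.gcd_dvd_right _ _)
  have hg2 : (Nat.gcd d (N / d) : ℤ) ∣ (d : ℤ) :=
    Int.natCast_dvd_natCast.mpr (Nat.gcd_dvd_left _ _)
  have h4 : (Nat.gcd d (N / d) : ℤ) ∣ (t' : ℤ) - t := by
    have h5 := hg1.trans h3
    have h6 : (Nat.gcd d (N / d) : ℤ) ∣ n * d := Dvd.dvd.mul_left hg2 n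
    have h7 := dvd_add (dvd_sub (dvd_sub h5 h6) hδ0) hγ0
    have e : (- γ 0 0 + δ 0 0 + n * d - n * d - (δ 0 0 - t')) + (γ 0 0 - t) = (t' : ℤ) - t := by
      ring
    rwa [e] at h7
  exact ((Nat.modEq_iff_dvd).mpr h4).eq_of_lt_of_lt ht ht'

theorem exists_index (N : ℕ) (hN : N ≠ 0) (γ : SL(2, ℤ)) :
    ∃ d t : ℕ, d ∣ N ∧ t < Nat.gcd d (N / d) ∧ (Nat.gcd d (N / d)).Coprime t ∧
      ∀ δ : SL(2, ℤ), δ 1 0 = d → (Nat.gcd d (N / d) : ℤ) ∣ δ 0 0 - t →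
        orbMk N δ = orbMk N γ := by
  obtain ⟨a, ha⟩ : ∃ a : ℤ, a = γ 0 0 := ⟨_, rfl⟩
  obtain ⟨c, hc⟩ : ∃ c : ℤ, c = γ 1 0 := ⟨_, rfl⟩
  have hac : IsCoprime a c := by rw [ha, hc]; exact isCoprime_col γ
  obtain ⟨d, hd⟩ : ∃ d : ℕ, d = Int.gcd c N := ⟨_, rfl⟩
  have hdN' : (d : ℤ) ∣ (N : ℤ) := by rw [hd]; exact Int.gcd_dvd_right c N
  have hdN : d ∣ N := Int.natCast_dvd_natCast.mp hdN'
  have hd0 : d ≠ 0 := fun h0 => hN (by rw [h0] at hdN; exact Nat.eq_zero_of_zero_dvd hdN)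
  have hd0' : (d : ℤ) ≠ 0 := by exact_mod_cast hd0
  obtain ⟨c1, hc1⟩ : (d : ℤ) ∣ c := by rw [hd]; exact Int.gcd_dvd_left c N
  obtain ⟨N1, hN1⟩ : ∃ N1 : ℕ, N1 = N / d := ⟨_, rfl⟩
  have hNd : (N : ℤ) = d * (N1 : ℤ) := by
    rw [hN1]; exact_mod_cast (Nat.mul_div_cancel' hdN).symm
  -- Bezout for `c1, N1`
  obtain ⟨u, v, huv⟩ : ∃ u v : ℤ, u * c1 + v * N1 = 1 := by
    have hb := Int.gcd_eq_gcd_ab c N
    rw [← hd, hNd, hc1] at hb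
    refine ⟨Int.gcdA (d * c1) (d * N1), Int.gcdB (d * c1) (d * N1), ?_⟩
    apply mul_left_cancel₀ hd0'
    linear_combination -hb
  obtain ⟨g, hg⟩ : ∃ g : ℕ, g = Nat.gcd d N1 := ⟨_, rfl⟩
  have hg0 : 0 < g := by rw [hg]; exact Nat.gcd_pos_of_pos_left _ (Nat.pos_of_ne_zero hd0)
  have hg0' : (0 : ℤ) < g := by exact_mod_cast hg0
  obtain ⟨x, y, hxy⟩ : ∃ x y : ℤ, (g : ℤ) = d * x + N1 * y := by
    rw [hg]; exact ⟨_, _, Nat.gcd_eq_gcd_ab d N1⟩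
  obtain ⟨gd, hgd⟩ : (g : ℤ) ∣ d := by
    rw [hg]; exact Int.natCast_dvd_natCast.mpr (Nat.gcd_dvd_left _ _)
  obtain ⟨gN, hgN⟩ : (g : ℤ) ∣ N1 := by
    rw [hg]; exact Int.natCast_dvd_natCast.mpr (Nat.gcd_dvd_right _ _)
  -- the invariant
  obtain ⟨t, ht⟩ : ∃ t : ℕ, (t : ℤ) = (a * u) % g :=
    ⟨((a * u) % g).toNat, Int.toNat_of_nonneg (Int.emod_nonneg _ hg0'.ne')⟩
  have htq : a * u = t + g * ((a * u) / g) := by
    rw [ht]; exact (Int.emod_add_mul_ediv _ _).symm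
  have htlt : t < g := by
    have : (t : ℤ) < g := by rw [ht]; exact Int.emod_lt_of_pos _ hg0'
    exact_mod_cast this
  refine ⟨d, t, hdN, ?_, ?_, ?_⟩
  · rw [← hN1, ← hg]; exact htlt
  · rw [← hN1, ← hg, ← Nat.isCoprime_iff_coprime]
    obtain ⟨r, s, hrs⟩ := hac
    -- `1 = (r a + s c)(u c1 + v N1)`, expand modulo `g`
    refine ⟨s * gd * c1 + r * a * v * gN + r * c1 * ((a * u) / g), r * c1, ?_⟩
    have e1 : r * a + s * c = 1 := hrs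
    rw [hc1, hgd] at e1
    rw [hgN] at huv
    linear_combination e1 + (r * a) * huv - (r * c1) * htq
  · intro δ hδ1 hδ0
    rw [← hN1, ← hg] at hδ0
    obtain ⟨m, hm⟩ := hδ0
    rw [orbMk_eq_iff, hδ1, ← ha, ← hc]
    -- `a - c1 * a' = g * k`
    obtain ⟨k, hk⟩ : ∃ k : ℤ, a - c1 * δ 0 0 = g * k := by
      refine ⟨a * v * gN + c1 * ((a * u) / g) - c1 * m, ?_⟩
      rw [hgN] at huv
      linear_combination (-a) * huv + c1 * htq - c1 * hm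
    refine ⟨-k * x * u, k * (y + x * d * v), ?_⟩
    rw [hc1, hNd]
    linear_combination (d : ℤ) * hk + (d : ℤ) * k * hxy - k * x * (d : ℤ) ^ 2 * huv

/-- The index set for the cusps of `Γ₀(N)`. -/
def cuspIndex (N : ℕ) : Finset (Σ _ : ℕ, ℕ) :=
  N.divisors.sigma (fun d => (Finset.range (Nat.gcd d (N / d))).filter
    (fun t => (Nat.gcd d (N / d)).Coprime t))

theorem card_cuspIndex (N : ℕ) : (cuspIndex N).card = ModularCurve.cuspCount N := by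
  rw [cuspIndex, Finset.card_sigma, ModularCurve.cuspCount]
  rfl

theorem mem_cuspIndex {N : ℕ} {i : Σ _ : ℕ, ℕ} :
    i ∈ cuspIndex N ↔ (i.1 ∣ N ∧ N ≠ 0) ∧ i.2 < Nat.gcd i.1 (N / i.1) ∧
      (Nat.gcd i.1 (N / i.1)).Coprime i.2 := by
  rw [cuspIndex, Finset.mem_sigma, Nat.mem_divisors, Finset.mem_filter, Finset.mem_range]

/-- **C4**: the number of `⟨T⟩`-orbits on `SL(2,ℤ)/Γ₀(N)` is the number of cusps of `Γ₀(N)`. -/
theorem card_T_orbits (N : ℕ) (hN : N ≠ 0) :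
    Nat.card (MulAction.orbitRel.Quotient (Subgroup.zpowers ModularGroup.T)
      (SL(2, ℤ) ⧸ Gamma0 N)) = ModularCurve.cuspCount N := by
  rw [← card_cuspIndex, ← Fintype.card_coe, ← Nat.card_eq_fintype_card]
  have hex : ∀ i : ↥(cuspIndex N), ∃ γ : SL(2, ℤ), γ 1 0 = (i.1.1 : ℤ) ∧
      (Nat.gcd i.1.1 (N / i.1.1) : ℤ) ∣ γ 0 0 - (i.1.2 : ℤ) := by
    intro i
    have hi := mem_cuspIndex.mp i.2
    refine exists_rep _ _ _ ?_ hi.2.2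
    intro h0
    exact hN (by have := hi.1.1; rw [h0] at this; exact Nat.eq_zero_of_zero_dvd this)
  choose rep hrep1 hrep0 using hex
  symm
  refine Nat.card_eq_of_bijective (fun i => orbMk N (rep i)) ⟨?_, ?_⟩
  · intro i j hij
    have hi := mem_cuspIndex.mp i.2
    have hj := mem_cuspIndex.mp j.2
    obtain ⟨h1, h2⟩ := rep_inj N hN hi.1.1 hj.1.1 hi.2.1 hj.2.1 (rep i) (rep j) (hrep1 i)
      (hrep0 i) (hrep1 j) (hrep0 j) hij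
    apply Subtype.ext
    exact Sigma.ext h1 (heq_of_eq h2)
  · intro q
    obtain ⟨γ, rfl⟩ := orbMk_surjective N q
    obtain ⟨d, t, hd, ht, hcop, h⟩ := exists_index N hN γ
    have hmem : (⟨d, t⟩ : Σ _ : ℕ, ℕ) ∈ cuspIndex N := mem_cuspIndex.mpr ⟨⟨hd, hN⟩, ht, hcop⟩
    exact ⟨⟨⟨d, t⟩, hmem⟩, h _ (hrep1 ⟨⟨d, t⟩, hmem⟩) (hrep0 ⟨⟨d, t⟩, hmem⟩)⟩

end Fermat.Agent.S20
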