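import Mathlib

set_option autoImplicit false

open UpperHalfPlane ModularForm Matrix.SpecialLinearGroup
open scoped MatrixGroups Manifold ModularForm

namespace Fermat.Agent.S20

noncomputable section

/-- `f` is (the underlying function of) a modular form of weight `k` on `Γ ≤ SL(2,ℤ)`. -/
structure IsMF (Γ : Subgroup SL(2, ℤ)) (k : ℤ) (f : ℍ → ℂ) : Prop where
  holo : MDiff f
  inv : ∀ γ ∈ Γ, f ∣[k] γ = f
  bdd : ∀ γ : SL(2, ℤ), IsBoundedAtImInfty (f ∣[k] γ)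

/-- `f` is (the underlying function of) a cusp form of weight `k` on `Γ ≤ SL(2,ℤ)`. -/
structure IsCF (Γ : Subgroup SL(2, ℤ)) (k : ℤ) (f : ℍ → ℂ) : Prop where
  holo : MDiff f
  inv : ∀ γ ∈ Γ, f ∣[k] γ = f
  zero : ∀ γ : SL(2, ℤ), IsZeroAtImInfty (f ∣[k] γ)

variable {Γ : Subgroup SL(2, ℤ)} {k k₁ k₂ : ℤ} {f g : ℍ → ℂ}

theorem IsCF.isMF (h : IsCF Γ k f) : IsMF Γ k f :=
  ⟨h.holo, h.inv, fun γ => (h.zero γ).boundedAtFilter⟩

theorem IsMF.zero_mem : IsMF Γ k 0 :=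
  ⟨fun _ => mdifferentiableAt_const, fun γ _ => by simp,
    fun γ => by simpa using zero_form_isBoundedAtImInfty⟩

theorem IsCF.zero_mem : IsCF Γ k 0 :=
  ⟨fun _ => mdifferentiableAt_const, fun γ _ => by simp,
    fun γ => by simpa using! Filter.zero_zeroAtFilter _⟩

theorem IsMF.add (hf : IsMF Γ k f) (hg : IsMF Γ k g) : IsMF Γ k (f + g) :=
  ⟨hf.holo.add hg.holo, fun γ hγ => by rw [SlashAction.add_slash, hf.inv γ hγ, hg.inv γ hγ],
    fun γ => by rw [SlashAction.add_slash]; exact (hf.bdd γ).add (hg.bdd γ)⟩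

theorem IsCF.add (hf : IsCF Γ k f) (hg : IsCF Γ k g) : IsCF Γ k (f + g) :=
  ⟨hf.holo.add hg.holo, fun γ hγ => by rw [SlashAction.add_slash, hf.inv γ hγ, hg.inv γ hγ],
    fun γ => by rw [SlashAction.add_slash]; exact (hf.zero γ).add (hg.zero γ)⟩

theorem IsMF.smul (c : ℂ) (hf : IsMF Γ k f) : IsMF Γ k (c • f) :=
  ⟨hf.holo.const_smul c, fun γ hγ => by rw [SL_smul_slash, hf.inv γ hγ],
    fun γ => by rw [SL_smul_slash]; exact (hf.bdd γ).const_smul_left c⟩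

theorem IsCF.smul (c : ℂ) (hf : IsCF Γ k f) : IsCF Γ k (c • f) :=
  ⟨hf.holo.const_smul c, fun γ hγ => by rw [SL_smul_slash, hf.inv γ hγ],
    fun γ => by rw [SL_smul_slash]; exact (hf.zero γ).smul c⟩

theorem IsMF.neg (hf : IsMF Γ k f) : IsMF Γ k (-f) := by
  simpa using hf.smul (-1)

theorem IsCF.neg (hf : IsCF Γ k f) : IsCF Γ k (-f) := by
  simpa using hf.smul (-1)

theorem IsMF.sub (hf : IsMF Γ k f) (hg : IsMF Γ k g) : IsMF Γ k (f - g) := by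
  simpa [sub_eq_add_neg] using hf.add hg.neg

theorem IsCF.sub (hf : IsCF Γ k f) (hg : IsCF Γ k g) : IsCF Γ k (f - g) := by
  simpa [sub_eq_add_neg] using hf.add hg.neg

theorem IsMF.mul (hf : IsMF Γ k₁ f) (hg : IsMF Γ k₂ g) : IsMF Γ (k₁ + k₂) (f * g) :=
  ⟨hf.holo.mul hg.holo, fun γ hγ => by rw [mul_slash_SL2, hf.inv γ hγ, hg.inv γ hγ],
    fun γ => by rw [mul_slash_SL2]; exact (hf.bdd γ).mul (hg.bdd γ)⟩

theorem IsCF.mul_isMF (hf : IsCF Γ k₁ f) (hg : IsMF Γ k₂ g) : IsCF Γ (k₁ + k₂) (f * g) :=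
  ⟨hf.holo.mul hg.holo, fun γ hγ => by rw [mul_slash_SL2, hf.inv γ hγ, hg.inv γ hγ],
    fun γ => by rw [mul_slash_SL2]; exact (hf.zero γ).mul_boundedAtFilter (hg.bdd γ)⟩

theorem IsMF.mul_isCF (hf : IsMF Γ k₁ f) (hg : IsCF Γ k₂ g) : IsCF Γ (k₁ + k₂) (f * g) := by
  have := hg.mul_isMF hf
  rwa [add_comm, mul_comm] at this

theorem IsMF.mul' {k : ℤ} (hf : IsMF Γ k₁ f) (hg : IsMF Γ k₂ g) (hk : k = k₁ + k₂) :
    IsMF Γ k (f * g) := hk ▸ hf.mul hg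

theorem IsMF.const (c : ℂ) : IsMF Γ 0 (fun _ => c) :=
  ⟨fun _ => mdifferentiableAt_const, fun γ _ => is_invariant_const γ c,
    fun γ => by
      rw [show (fun _ : ℍ => c) = Function.const ℍ c from rfl, is_invariant_const γ c]
      exact Filter.const_boundedAtFilter _ c⟩

theorem IsMF.one : IsMF Γ 0 1 := IsMF.const 1

theorem IsMF.mono {Γ' : Subgroup SL(2, ℤ)} (h : Γ' ≤ Γ) (hf : IsMF Γ k f) : IsMF Γ' k f :=
  ⟨hf.holo, fun γ hγ => hf.inv γ (h hγ), hf.bdd⟩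

theorem IsCF.mono {Γ' : Subgroup SL(2, ℤ)} (h : Γ' ≤ Γ) (hf : IsCF Γ k f) : IsCF Γ' k f :=
  ⟨hf.holo, fun γ hγ => hf.inv γ (h hγ), hf.zero⟩

theorem IsMF.pow (hf : IsMF Γ k f) (n : ℕ) : IsMF Γ (n * k) (f ^ n) := by
  induction n with
  | zero => simpa using IsMF.one
  | succ n ih =>
    rw [pow_succ]
    exact ih.mul' hf (by push_cast; ring)

theorem IsMF.sum {ι : Type*} (s : Finset ι) (F : ι → ℍ → ℂ) (h : ∀ i ∈ s, IsMF Γ k (F i)) :
    IsMF Γ k (∑ i ∈ s, F i) := by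
  classical
  induction s using Finset.induction_on with
  | empty => simpa using IsMF.zero_mem
  | insert i t hi ih =>
    rw [Finset.sum_insert hi]
    exact (h i (Finset.mem_insert_self i t)).add (ih fun j hj => h j (Finset.mem_insert_of_mem hj))

theorem IsCF.sum {ι : Type*} (s : Finset ι) (F : ι → ℍ → ℂ) (h : ∀ i ∈ s, IsCF Γ k (F i)) :
    IsCF Γ k (∑ i ∈ s, F i) := by
  classical
  induction s using Finset.induction_on with
  | empty => simpa using IsCF.zero_mem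
  | insert i t hi ih =>
    rw [Finset.sum_insert hi]
    exact (h i (Finset.mem_insert_self i t)).add (ih fun j hj => h j (Finset.mem_insert_of_mem hj))

/-- Any `SL(2,ℤ)`-translate of a modular form is holomorphic. -/
theorem IsMF.holo_slash (hf : IsMF Γ k f) (γ : SL(2, ℤ)) : MDiff (f ∣[k] γ) :=
  hf.holo.slash k _

theorem IsMF.bdd_self (hf : IsMF Γ k f) : IsBoundedAtImInfty f := by
  simpa using hf.bdd 1

theorem IsCF.zero_self (hf : IsCF Γ k f) : IsZeroAtImInfty f := by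
  simpa using hf.zero 1

/-- Modular forms as a submodule of the space of functions. -/
def Mf (Γ : Subgroup SL(2, ℤ)) (k : ℤ) : Submodule ℂ (ℍ → ℂ) where
  carrier := {f | IsMF Γ k f}
  add_mem' := IsMF.add
  zero_mem' := IsMF.zero_mem
  smul_mem' c _ h := IsMF.smul c h

/-- Cusp forms as a submodule of the space of functions. -/
def Sf (Γ : Subgroup SL(2, ℤ)) (k : ℤ) : Submodule ℂ (ℍ → ℂ) where
  carrier := {f | IsCF Γ k f}
  add_mem' := IsCF.add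
  zero_mem' := IsCF.zero_mem
  smul_mem' c _ h := IsCF.smul c h

@[simp] theorem mem_Mf : f ∈ Mf Γ k ↔ IsMF Γ k f := Iff.rfl
@[simp] theorem mem_Sf : f ∈ Sf Γ k ↔ IsCF Γ k f := Iff.rfl

/-! ### Comparison with Mathlib's bundled forms -/

section bundled

variable [Γ.FiniteIndex]

theorem isMF_coe (F : ModularForm (Γ : Subgroup (GL (Fin 2) ℝ)) k) : IsMF Γ k F :=
  ⟨F.holo', fun γ hγ => F.slash_action_eq' _ ⟨γ, hγ, rfl⟩,
    fun γ => ModularFormClass.bdd_at_infty_slash F γ⟩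

theorem isCF_coe (F : CuspForm (Γ : Subgroup (GL (Fin 2) ℝ)) k) : IsCF Γ k F :=
  ⟨F.holo', fun γ hγ => F.slash_action_eq' _ ⟨γ, hγ, rfl⟩,
    fun γ => CuspFormClass.zero_at_infty_slash F γ⟩

/-- Bundle a function satisfying `IsMF`. -/
def IsMF.toModularForm (hf : IsMF Γ k f) : ModularForm (Γ : Subgroup (GL (Fin 2) ℝ)) k where
  toFun := f
  slash_action_eq' := by
    rintro _ ⟨γ, hγ, rfl⟩
    exact hf.inv γ hγ
  holo' := hf.holo
  bdd_at_cusps' {c} hc := by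
    rw [Subgroup.IsArithmetic.isCusp_iff_isCusp_SL2Z] at hc
    rw [OnePoint.isBoundedAt_iff_forall_SL2Z hc]
    exact fun γ _ => hf.bdd γ

@[simp] theorem IsMF.coe_toModularForm (hf : IsMF Γ k f) : ⇑hf.toModularForm = f := rfl

/-- Bundle a function satisfying `IsCF`. -/
def IsCF.toCuspForm (hf : IsCF Γ k f) : CuspForm (Γ : Subgroup (GL (Fin 2) ℝ)) k where
  toFun := f
  slash_action_eq' := by
    rintro _ ⟨γ, hγ, rfl⟩
    exact hf.inv γ hγ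
  holo' := hf.holo
  zero_at_cusps' {c} hc := by
    rw [Subgroup.IsArithmetic.isCusp_iff_isCusp_SL2Z] at hc
    rw [OnePoint.isZeroAt_iff_forall_SL2Z hc]
    exact fun γ _ => hf.zero γ

@[simp] theorem IsCF.coe_toCuspForm (hf : IsCF Γ k f) : ⇑hf.toCuspForm = f := rfl

variable (Γ k) in
/-- Mathlib's space of cusp forms is linearly equivalent to `Sf`. -/
def cuspFormEquiv : CuspForm (Γ : Subgroup (GL (Fin 2) ℝ)) k ≃ₗ[ℂ] Sf Γ k where
  toFun F := ⟨F, isCF_coe F⟩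
  map_add' _ _ := rfl
  map_smul' _ _ := rfl
  invFun f := IsCF.toCuspForm f.2
  left_inv _ := rfl
  right_inv _ := rfl

variable (Γ k) in
/-- Mathlib's space of modular forms is linearly equivalent to `Mf`. -/
def modularFormEquiv : ModularForm (Γ : Subgroup (GL (Fin 2) ℝ)) k ≃ₗ[ℂ] Mf Γ k where
  toFun F := ⟨F, isMF_coe F⟩
  map_add' _ _ := rfl
  map_smul' _ _ := rfl
  invFun f := IsMF.toModularForm f.2
  left_inv _ := rfl
  right_inv _ := rfl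

theorem IsMF.eq_zero_of_neg (hk : k < 0) (hf : IsMF Γ k f) : f = 0 := by
  have := ModularForm.isZero_of_neg_weight hk hf.toModularForm
  simpa using congrArg (fun F : ModularForm (Γ : Subgroup (GL (Fin 2) ℝ)) k => (F : ℍ → ℂ)) this

theorem IsMF.eq_const_of_weight_zero (hf : IsMF Γ 0 f) : ∃ c : ℂ, f = fun _ => c := by
  obtain ⟨c, hc⟩ := ModularForm.eq_const_of_weight_zero hf.toModularForm
  exact ⟨c, hc⟩

end bundled

/-! ### Level one -/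

theorem isMF_top_coe (F : ModularForm 𝒮ℒ k) : IsMF ⊤ k F :=
  ⟨F.holo', fun γ _ => F.slash_action_eq' _ ⟨γ, rfl⟩,
    fun γ => ModularFormClass.bdd_at_infty_slash F γ⟩

theorem isCF_top_coe (F : CuspForm 𝒮ℒ k) : IsCF ⊤ k F :=
  ⟨F.holo', fun γ _ => F.slash_action_eq' _ ⟨γ, rfl⟩,
    fun γ => CuspFormClass.zero_at_infty_slash F γ⟩

/-- Bundle a level one form. -/
def IsMF.toLevelOne (hf : IsMF ⊤ k f) : ModularForm 𝒮ℒ k where
  toFun := f
  slash_action_eq' := by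
    rintro _ ⟨γ, rfl⟩
    exact hf.inv γ trivial
  holo' := hf.holo
  bdd_at_cusps' {c} hc := by
    rw [Subgroup.IsArithmetic.isCusp_iff_isCusp_SL2Z] at hc
    rw [OnePoint.isBoundedAt_iff_forall_SL2Z hc]
    exact fun γ _ => hf.bdd γ

@[simp] theorem IsMF.coe_toLevelOne (hf : IsMF ⊤ k f) : ⇑hf.toLevelOne = f := rfl

/-- Bundle a level one cusp form. -/
def IsCF.toLevelOne (hf : IsCF ⊤ k f) : CuspForm 𝒮ℒ k where
  toFun := f
  slash_action_eq' := by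
    rintro _ ⟨γ, rfl⟩
    exact hf.inv γ trivial
  holo' := hf.holo
  zero_at_cusps' {c} hc := by
    rw [Subgroup.IsArithmetic.isCusp_iff_isCusp_SL2Z] at hc
    rw [OnePoint.isZeroAt_iff_forall_SL2Z hc]
    exact fun γ _ => hf.zero γ

@[simp] theorem IsCF.coe_toLevelOne (hf : IsCF ⊤ k f) : ⇑hf.toLevelOne = f := rfl

/-- A level one form is a form on every subgroup. -/
theorem IsMF.of_top (hf : IsMF ⊤ k f) : IsMF Γ k f := hf.mono le_top

theorem IsMF.slash_top (hf : IsMF ⊤ k f) (γ : SL(2, ℤ)) : f ∣[k] γ = f := hf.inv γ trivial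

/-! ### Translates indexed by cosets -/

/-- The translate of `f` attached to the coset `q = g Γ`, namely `f ∣[k] g⁻¹`
(with `g = q.out`). -/
def tr (k : ℤ) (f : ℍ → ℂ) (q : SL(2, ℤ) ⧸ Γ) : ℍ → ℂ := f ∣[k] (q.out)⁻¹

theorem tr_mk (hf : ∀ γ ∈ Γ, f ∣[k] γ = f) (g : SL(2, ℤ)) :
    tr k f (g : SL(2, ℤ) ⧸ Γ) = f ∣[k] g⁻¹ := by
  unfold tr
  obtain ⟨γ, hγ⟩ := QuotientGroup.mk_out_eq_mul Γ g
  rw [hγ, mul_inv_rev, SlashAction.slash_mul, hf _ (inv_mem γ.2)]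

theorem tr_slash (hf : ∀ γ ∈ Γ, f ∣[k] γ = f) (q : SL(2, ℤ) ⧸ Γ) (g : SL(2, ℤ)) :
    tr k f q ∣[k] g = tr k f (g⁻¹ • q) := by
  induction q using QuotientGroup.induction_on with
  | H a =>
    rw [MulAction.Quotient.smul_mk, tr_mk hf, tr_mk hf, ← SlashAction.slash_mul]
    simp [mul_inv_rev]

theorem tr_one (hf : ∀ γ ∈ Γ, f ∣[k] γ = f) : tr k f ((1 : SL(2, ℤ)) : SL(2, ℤ) ⧸ Γ) = f := by
  rw [tr_mk hf]; simp

theorem tr_add (q : SL(2, ℤ) ⧸ Γ) : tr k (f + g) q = tr k f q + tr k g q := by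
  simp [tr]

theorem tr_smul (c : ℂ) (q : SL(2, ℤ) ⧸ Γ) : tr k (c • f) q = c • tr k f q := by
  simp [tr]

theorem tr_zero (q : SL(2, ℤ) ⧸ Γ) : tr k (0 : ℍ → ℂ) q = 0 := by
  simp [tr]

theorem tr_mul (q : SL(2, ℤ) ⧸ Γ) : tr (k₁ + k₂) (f * g) q = tr k₁ f q * tr k₂ g q := by
  simp [tr, mul_slash_SL2]

theorem tr_sum {ι : Type*} (s : Finset ι) (F : ι → ℍ → ℂ) (q : SL(2, ℤ) ⧸ Γ) :
    tr k (∑ i ∈ s, F i) q = ∑ i ∈ s, tr k (F i) q := by
  simp [tr]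

/-- Translating the product of a level one form and an arbitrary function. -/
theorem tr_mul_top {k : ℤ} (hf : IsMF ⊤ k₁ f) (hk : k = k₁ + k₂) (q : SL(2, ℤ) ⧸ Γ) :
    tr k (f * g) q = f * tr k₂ g q := by
  subst hk
  rw [tr_mul]
  congr 1
  exact hf.slash_top _

theorem IsMF.holo_tr (hf : IsMF Γ k f) (q : SL(2, ℤ) ⧸ Γ) : MDiff (tr k f q) :=
  hf.holo_slash _

theorem IsMF.bdd_tr (hf : IsMF Γ k f) (q : SL(2, ℤ) ⧸ Γ) : IsBoundedAtImInfty (tr k f q) :=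
  hf.bdd _

theorem IsCF.zero_tr (hf : IsCF Γ k f) (q : SL(2, ℤ) ⧸ Γ) : IsZeroAtImInfty (tr k f q) :=
  hf.zero _

theorem tr_eq_zero_iff (q : SL(2, ℤ) ⧸ Γ) : tr k f q = 0 ↔ f = 0 := by
  simp [tr]

/-- Evaluating a translate at `g • z`. -/
theorem tr_smul_apply (hf : ∀ γ ∈ Γ, f ∣[k] γ = f) (q : SL(2, ℤ) ⧸ Γ) (g : SL(2, ℤ)) (z : ℍ) :
    tr k f q (g • z) = denom g z ^ k * tr k f (g⁻¹ • q) z := by
  rw [← tr_slash hf, SL_slash_apply, mul_comm, mul_assoc, ← zpow_add₀ (denom_ne_zero g z)]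
  simp

/-- The matrix of translates `Φ(z)_{q,j} = (F_j)_q(z)`. -/
def Phi (Γ : Subgroup SL(2, ℤ)) {J : Type*} (k : J → ℤ) (F : J → ℍ → ℂ) (z : ℍ) :
    Matrix (SL(2, ℤ) ⧸ Γ) J ℂ :=
  Matrix.of fun q j => tr (k j) (F j) q z

@[simp] theorem Phi_apply {J : Type*} (k : J → ℤ) (F : J → ℍ → ℂ) (z : ℍ) (q : SL(2, ℤ) ⧸ Γ)
    (j : J) : Phi Γ k F z q j = tr (k j) (F j) q z := rfl

/-- `(F_j)` (of weights `k_j`) is a homogeneous basis of the graded module `⨁ M_w(Γ)` over the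
graded ring `⨁ M_w(SL(2,ℤ))`. -/
structure IsFreeBasis (Γ : Subgroup SL(2, ℤ)) {J : Type} (k : J → ℤ) (F : J → ℍ → ℂ) : Prop where
  isMF : ∀ j, IsMF Γ (k j) (F j)
  gen : ∀ (w : ℤ) (f : ℍ → ℂ), IsMF Γ w f →
    ∃ A : J →₀ (ℍ → ℂ), (∀ j, IsMF ⊤ (w - k j) (A j)) ∧ f = A.sum fun j a => a * F j
  indep : ∀ (w : ℤ) (A : J →₀ (ℍ → ℂ)), (∀ j, IsMF ⊤ (w - k j) (A j)) →
    (A.sum fun j a => a * F j) = 0 → A = 0

theorem isMF_E4 : IsMF ⊤ 4 ModularForm.E₄ := isMF_top_coe _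
theorem isMF_E6 : IsMF ⊤ 6 ModularForm.E₆ := isMF_top_coe _
theorem isCF_discriminant : IsCF ⊤ 12 ModularForm.discriminant :=
  isCF_top_coe CuspForm.discriminant

end

end Fermat.Agent.S20
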