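import Fermat.Agent.S20.Interface

/-! Assembly, part 1: from the work packages to a frame. -/

set_option autoImplicit false

open UpperHalfPlane ModularForm Matrix.SpecialLinearGroup CongruenceSubgroup Filter Topology
open scoped MatrixGroups Manifold ModularForm Real

namespace Fermat.Agent.S20

noncomputable section

local notation "Δ" => ModularForm.discriminant

variable {Γ : Subgroup SL(2, ℤ)}

/-- Reindexing a free basis along an equivalence. -/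
theorem IsFreeBasis.reindexAsm {J J' : Type} {k : J → ℤ} {F : J → ℍ → ℂ} (h : IsFreeBasis Γ k F)
    (e : J' ≃ J) : IsFreeBasis Γ (k ∘ e) (F ∘ e) where
  isMF j := h.isMF (e j)
  gen w f hf := by
    obtain ⟨A, hA, hf'⟩ := h.gen w f hf
    refine ⟨A.equivMapDomain e.symm, fun j => by simpa using hA (e j), ?_⟩
    rw [hf', Finsupp.sum_equivMapDomain]
    simp
  indep w A hA h0 := by
    have := h.indep w (A.equivMapDomain e) (fun j => by simpa using hA (e.symm j)) (by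
      rw [Finsupp.sum_equivMapDomain]
      simpa using h0)
    ext1 j
    have h2 := DFunLike.congr_fun this (e j)
    simpa using h2

/-- The translation equivariance of the translates. -/
theorem tr_vadd {k : ℤ} {f : ℍ → ℂ} (hf : ∀ γ ∈ Γ, f ∣[k] γ = f) (q : SL(2, ℤ) ⧸ Γ) (z : ℍ) :
    tr k f q ((1 : ℝ) +ᵥ z) =
      tr k f ((MulAction.toPerm (ModularGroup.T⁻¹ : SL(2, ℤ)) : Equiv.Perm (SL(2, ℤ) ⧸ Γ)) q) z := by
  have := tr_smul_apply hf q ModularGroup.T z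
  rw [modular_T_smul] at this
  rw [this, ModularGroup.denom_apply]
  simp [ModularGroup.T]

/-- abbreviation: the permutation of the cosets induced by `T⁻¹`. -/
abbrev sigT (Γ : Subgroup SL(2, ℤ)) : Equiv.Perm (SL(2, ℤ) ⧸ Γ) :=
  MulAction.toPerm (ModularGroup.T⁻¹ : SL(2, ℤ))

theorem lam_indep (h_reg : Stmt_regular) [Γ.FiniteIndex] [Fintype (SL(2, ℤ) ⧸ Γ)]
    {J : Type} {k : J → ℤ} {F : J → ℍ → ℂ} (hFB : IsFreeBasis Γ k F) (hev : ∀ j, Even (k j))
    {E : ℍ → Matrix (SL(2, ℤ) ⧸ Γ) (SL(2, ℤ) ⧸ Γ) ℂ} (hEP : EProp (sigT Γ) E)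
    {L : J → (SL(2, ℤ) ⧸ Γ) → ℂ}
    (hL : ∀ j, Tendsto (fun z : ℍ => (E z).mulVec (fun q => tr (k j) (F j) q z)) atImInfty
      (𝓝 (L j))) : LinearIndependent ℂ L := by
  rw [linearIndependent_iff]
  intro c hc
  apply h_reg Γ J k F hFB hev c
  set φ : (SL(2, ℤ) ⧸ Γ) → ℍ → ℂ := fun q => ∑ j ∈ c.support, c j • tr (k j) (F j) q with hφ
  have hφ' : ∀ q z, φ q z = c.sum fun j a => a * tr (k j) (F j) q z := by
    intro q z
    simp [hφ, Finsupp.sum, Finset.sum_apply]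
  obtain ⟨L', hL', hdec⟩ := hEP φ
    (fun q => MDifferentiable.sum fun j _ => ((hFB.isMF j).holo_tr q).const_smul (c j))
    (fun q => by
      simp only [hφ, IsBoundedAtImInfty, BoundedAtFilter]
      exact Asymptotics.IsBigO.sum fun j _ => ((hFB.isMF j).bdd_tr q).const_smul_left (c j))
    (fun q z => by
      simp only [hφ, Finset.sum_apply, Pi.smul_apply]
      exact Finset.sum_congr rfl fun j _ => by rw [tr_vadd (hFB.isMF j).inv])
  have h0 : L' = 0 := by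
    apply tendsto_nhds_unique hL'
    have h1 : Tendsto (fun z : ℍ => ∑ j ∈ c.support, c j • (E z).mulVec
        (fun q => tr (k j) (F j) q z)) atImInfty (𝓝 (∑ j ∈ c.support, c j • L j)) :=
      tendsto_finsetSum _ fun j _ => (hL j).const_smul (c j)
    have h2 : (∑ j ∈ c.support, c j • L j) = 0 := by
      rw [← hc, Finsupp.linearCombination_apply, Finsupp.sum]
    rw [h2] at h1
    refine h1.congr fun z => ?_
    rw [show (fun q => φ q z) = ∑ j ∈ c.support, c j • (fun q => tr (k j) (F j) q z) by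
      ext q; simp [hφ, Finset.sum_apply], Matrix.mulVec_sum]
    exact Finset.sum_congr rfl fun j _ => (Matrix.mulVec_smul _ _ _).symm
  intro q
  have := hdec h0 q
  unfold IsBigOq
  refine this.congr_left fun z => hφ' q z

theorem exists_frame
    (h_fb : Stmt_exists_freeBasis) (h_even : Stmt_freeBasis_even) (h_E : Stmt_exists_Emat)
    (h_reg : Stmt_regular) (h_sep : Stmt_exists_injective_tr) (h_rank : Stmt_rank)
    (h_nv : Stmt_nonvanishing) (h_gw : Stmt_growth_weight) (h_gi : Stmt_growth_inverse)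
    (Γ : Subgroup SL(2, ℤ)) [Γ.FiniteIndex] [Fintype (SL(2, ℤ) ⧸ Γ)] [DecidableEq (SL(2, ℤ) ⧸ Γ)]
    (hneg : -1 ∈ Γ) (w : ℤ) (g : ℍ → ℂ) (hg : IsMF Γ w g)
    (hstab : ∀ γ : SL(2, ℤ), g ∣[w] γ = g → γ ∈ Γ) :
    ∃ (k : SL(2, ℤ) ⧸ Γ → ℤ) (F : SL(2, ℤ) ⧸ Γ → ℍ → ℂ), IsFreeBasis Γ k F ∧ (∀ j, Even (k j)) ∧
      (∀ z, (Phi Γ k F z).det ≠ 0) ∧
      (∀ j q, Tendsto (fun z : ℍ => Δ z * (Phi Γ k F z)⁻¹ j q) atImInfty (𝓝 0)) ∧
      ∑ j, k j = 6 * ((Fintype.card (SL(2, ℤ) ⧸ Γ) : ℤ) -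
        (Nat.card (MulAction.orbitRel.Quotient (Subgroup.zpowers (sigT Γ)) (SL(2, ℤ) ⧸ Γ)) : ℤ)) := by
  obtain ⟨J, k₀, F₀, hFB₀⟩ := h_fb Γ
  have hev₀ : ∀ j, Even (k₀ j) := h_even Γ J k₀ F₀ hneg hFB₀
  obtain ⟨E, c₀, hc₀, hEq, hEdet, hEP⟩ := h_E (SL(2, ℤ) ⧸ Γ) (sigT Γ)
  -- the leading vectors
  have hex : ∀ j, ∃ L : (SL(2, ℤ) ⧸ Γ) → ℂ,
      Tendsto (fun z : ℍ => (E z).mulVec (fun q => tr (k₀ j) (F₀ j) q z)) atImInfty (𝓝 L) := by
    intro j
    obtain ⟨L, hL, -⟩ := hEP (fun q => tr (k₀ j) (F₀ j) q) (fun q => (hFB₀.isMF j).holo_tr q)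
      (fun q => (hFB₀.isMF j).bdd_tr q) (fun q z => tr_vadd (hFB₀.isMF j).inv q z)
    exact ⟨L, hL⟩
  choose L₀ hL₀ using hex
  have hLI₀ : LinearIndependent ℂ L₀ := lam_indep h_reg hFB₀ hev₀ hEP hL₀
  have : Finite J := hLI₀.finite_of_isNoetherian
  let _ : Fintype J := Fintype.ofFinite J
  have hle : Fintype.card J ≤ Fintype.card (SL(2, ℤ) ⧸ Γ) := by
    simpa using hLI₀.fintype_card_le_finrank
  obtain ⟨z₀, hz₀⟩ := h_sep Γ w g hg hstab
  have hge : Fintype.card (SL(2, ℤ) ⧸ Γ) ≤ Fintype.card J := by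
    obtain ⟨A, hA⟩ := h_rank Γ J k₀ F₀ hFB₀ w g z₀ hg hz₀
    have h1 : (Phi Γ k₀ F₀ z₀ * A).rank = Fintype.card (SL(2, ℤ) ⧸ Γ) :=
      Matrix.rank_of_isUnit _ ((Matrix.isUnit_iff_isUnit_det _).2 (isUnit_iff_ne_zero.2 hA))
    rw [← h1]
    exact (Matrix.rank_mul_le_left _ _).trans (Matrix.rank_le_card_width _)
  let e : (SL(2, ℤ) ⧸ Γ) ≃ J := Fintype.equivOfCardEq (le_antisymm hge hle)
  have hFB : IsFreeBasis Γ (k₀ ∘ e) (F₀ ∘ e) := hFB₀.reindexAsm e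
  set k := k₀ ∘ e with hk
  set F := F₀ ∘ e with hF
  have hev : ∀ j, Even (k j) := fun j => hev₀ (e j)
  have hdet₀ : (Phi Γ k F z₀).det ≠ 0 := by
    obtain ⟨A, hA⟩ := h_rank Γ _ k F hFB w g z₀ hg hz₀
    rw [Matrix.det_mul] at hA
    exact left_ne_zero_of_mul hA
  obtain ⟨C, hC⟩ := h_nv Γ k F hFB
  have hC0 : C ≠ 0 := by
    rintro rfl
    have := hC z₀
    rw [zero_mul] at this
    exact hdet₀ (pow_eq_zero_iff (by norm_num) |>.1 this)
  have hdet : ∀ z, (Phi Γ k F z).det ≠ 0 := by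
    intro z hz
    have := hC z
    rw [hz, zero_pow (by norm_num)] at this
    exact mul_ne_zero hC0 (zpow_ne_zero _ (discriminant_ne_zero z)) this.symm
  -- the limit matrix
  let Λ : Matrix (SL(2, ℤ) ⧸ Γ) (SL(2, ℤ) ⧸ Γ) ℂ := Matrix.of fun q j => L₀ (e j) q
  have hΛ : Tendsto (fun z => E z * Phi Γ k F z) atImInfty (𝓝 Λ) := by
    refine tendsto_pi_nhds.2 fun q => tendsto_pi_nhds.2 fun j => ?_
    have := (tendsto_pi_nhds.1 (hL₀ (e j))) q
    exact this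
  have hΛdet : Λ.det ≠ 0 := by
    have h1 : LinearIndependent ℂ Λ.col := by
      have := hLI₀.comp e e.injective
      exact this
    have := Matrix.linearIndependent_cols_iff_isUnit.1 h1
    exact isUnit_iff_ne_zero.1 ((Matrix.isUnit_iff_isUnit_det _).1 this)
  have hEdet0 : ∀ z, (E z).det ≠ 0 := fun z => by
    rw [hEdet z]; exact mul_ne_zero hc₀ (Complex.exp_ne_zero _)
  refine ⟨k, F, hFB, hev, hdet, h_gi _ _ E Λ hEdet0 hdet hEq hΛ hΛdet, ?_⟩
  refine h_gw (fun z => (Phi Γ k F z).det) C (Λ.det / c₀) _ _ hC0 (div_ne_zero hΛdet hc₀) hC ?_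
  have h1 : Tendsto (fun z => (E z * Phi Γ k F z).det) atImInfty (𝓝 Λ.det) :=
    (Continuous.matrix_det continuous_id).continuousAt.tendsto.comp hΛ
  refine (h1.div_const c₀).congr fun z => ?_
  rw [Matrix.det_mul, hEdet z]
  push_cast
  field_simp

end

end Fermat.Agent.S20
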