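import Fermat.Agent.S20.Interface
import Fermat.Agent.S20.CombCusps

set_option autoImplicit false

open scoped MatrixGroups
open CongruenceSubgroup

namespace Fermat.Agent.S20

theorem comb_index : Stmt_comb_index := fun N _ => index_Gamma0 N (NeZero.ne N)

theorem comb_orbits_T : Stmt_comb_orbits_T := fun N _ => card_T_orbits N (NeZero.ne N)

theorem comb_bridge : Stmt_comb_bridge := by
  intro G X _ _ g
  have hrel : ∀ x y : X,
      MulAction.orbitRel (Subgroup.zpowers (MulAction.toPerm g⁻¹ : Equiv.Perm X)) X x y ↔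
        MulAction.orbitRel (Subgroup.zpowers g) X x y := by
    intro x y
    rw [MulAction.orbitRel_apply, MulAction.orbitRel_apply, MulAction.mem_orbit_iff,
      MulAction.mem_orbit_iff]
    have hpow : ∀ n : ℤ, ((MulAction.toPerm g⁻¹ : Equiv.Perm X) ^ n) y = (g ^ (-n)) • y := by
      intro n
      have h1 : (MulAction.toPerm g⁻¹ : Equiv.Perm X) = MulAction.toPermHom G X g⁻¹ := rfl
      rw [h1, ← map_zpow, MulAction.toPermHom_apply, MulAction.toPerm_apply, inv_zpow, zpow_neg]
    constructor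
    · rintro ⟨⟨s, n, rfl⟩, hs⟩
      refine ⟨⟨g ^ (-n), -n, rfl⟩, ?_⟩
      have hs' : ((MulAction.toPerm g⁻¹ : Equiv.Perm X) ^ n) y = x := hs
      rw [hpow] at hs'
      exact hs'
    · rintro ⟨⟨s, n, rfl⟩, hs⟩
      refine ⟨⟨(MulAction.toPerm g⁻¹ : Equiv.Perm X) ^ (-n), -n, rfl⟩, ?_⟩
      show ((MulAction.toPerm g⁻¹ : Equiv.Perm X) ^ (-n)) y = x
      rw [hpow, neg_neg]
      exact hs
  exact Nat.card_congr (Quot.congr (Equiv.refl X) hrel)

end Fermat.Agent.S20
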