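import Fermat.Agent.S20.Interface

/-! CORE-DualA: the dual family `Δ · Φ⁻¹` consists of cusp forms. -/

set_option autoImplicit false

open UpperHalfPlane ModularForm Matrix.SpecialLinearGroup CongruenceSubgroup Filter Topology
open scoped MatrixGroups Manifold ModularForm Real

namespace Fermat.Agent.S20

noncomputable section

local notation "Δ" => ModularForm.discriminant

namespace DualA

/-- Holomorphic functions on `ℍ`, as a subring of all functions. -/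
def holoRing : Subring (ℍ → ℂ) where
  carrier := {g | MDiff g}
  mul_mem' ha hb := ha.mul hb
  add_mem' ha hb := ha.add hb
  one_mem' := mdifferentiable_const
  zero_mem' := mdifferentiable_const
  neg_mem' ha := ha.neg

theorem det_mem_subring {R n : Type*} [CommRing R] [Fintype n] [DecidableEq n] (S : Subring R)
    (A : Matrix n n R) (h : ∀ i j, A i j ∈ S) : A.det ∈ S := by
  have hA : A = S.subtype.mapMatrix (Matrix.of fun i j => (⟨A i j, h i j⟩ : S)) := by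
    ext i j; rfl
  rw [hA, ← RingHom.map_det]
  exact Subtype.property _

theorem adjugate_mem_subring {R n : Type*} [CommRing R] [Fintype n] [DecidableEq n] (S : Subring R)
    (A : Matrix n n R) (h : ∀ i j, A i j ∈ S) (i j : n) : A.adjugate i j ∈ S := by
  have hA : A = S.subtype.mapMatrix (Matrix.of fun i j => (⟨A i j, h i j⟩ : S)) := by
    ext i j; rfl
  rw [hA, ← RingHom.map_adjugate]
  exact Subtype.property _

variable {Γ : Subgroup SL(2, ℤ)} [Fintype (SL(2, ℤ) ⧸ Γ)] [DecidableEq (SL(2, ℤ) ⧸ Γ)]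
  {k : SL(2, ℤ) ⧸ Γ → ℤ} {F : SL(2, ℤ) ⧸ Γ → ℍ → ℂ}

/-- `Φ` as a matrix with entries in the ring of functions. -/
def PhiFun (Γ : Subgroup SL(2, ℤ)) (k : SL(2, ℤ) ⧸ Γ → ℤ) (F : SL(2, ℤ) ⧸ Γ → ℍ → ℂ) :
    Matrix (SL(2, ℤ) ⧸ Γ) (SL(2, ℤ) ⧸ Γ) (ℍ → ℂ) :=
  Matrix.of fun q j => tr (k j) (F j) q

theorem PhiFun_eval (z : ℍ) :
    (Pi.evalRingHom (fun _ : ℍ => ℂ) z).mapMatrix (PhiFun Γ k F) = Phi Γ k F z := by
  ext q j; rfl

theorem det_PhiFun_apply (z : ℍ) : (PhiFun Γ k F).det z = (Phi Γ k F z).det := by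
  rw [← PhiFun_eval, ← RingHom.map_det]; rfl

theorem adjugate_PhiFun_apply (z : ℍ) (j q : SL(2, ℤ) ⧸ Γ) :
    (PhiFun Γ k F).adjugate j q z = (Phi Γ k F z).adjugate j q := by
  rw [← PhiFun_eval, ← RingHom.map_adjugate]; rfl

theorem mdiff_det (hF : ∀ j, IsMF Γ (k j) (F j)) : MDiff fun z => (Phi Γ k F z).det := by
  have h : (PhiFun Γ k F).det ∈ holoRing :=
    det_mem_subring holoRing _ fun q j => (hF j).holo_tr q
  have h2 : (fun z => (Phi Γ k F z).det) = (PhiFun Γ k F).det := by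
    ext z; rw [det_PhiFun_apply]
  rw [h2]; exact h

theorem mdiff_adjugate (hF : ∀ j, IsMF Γ (k j) (F j)) (j q : SL(2, ℤ) ⧸ Γ) :
    MDiff fun z => (Phi Γ k F z).adjugate j q := by
  have h : (PhiFun Γ k F).adjugate j q ∈ holoRing :=
    adjugate_mem_subring holoRing _ (fun q j => (hF j).holo_tr q) j q
  have h2 : (fun z => (Phi Γ k F z).adjugate j q) = (PhiFun Γ k F).adjugate j q := by
    ext z; rw [adjugate_PhiFun_apply]
  rw [h2]; exact h

theorem mdiff_inv (hF : ∀ j, IsMF Γ (k j) (F j)) (hdet : ∀ z, (Phi Γ k F z).det ≠ 0)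
    (j q : SL(2, ℤ) ⧸ Γ) : MDiff fun z => (Phi Γ k F z)⁻¹ j q := by
  have h2 : (fun z => (Phi Γ k F z)⁻¹ j q) =
      fun z => (Phi Γ k F z).adjugate j q / (Phi Γ k F z).det := by
    ext z
    rw [Matrix.inv_def, Ring.inverse_eq_inv', Matrix.smul_apply, smul_eq_mul, div_eq_inv_mul]
  rw [h2]
  exact (mdiff_adjugate hF j q).div (mdiff_det hF) hdet

/-- Transformation law of the inverse matrix. -/
theorem inv_smul_apply (hF : ∀ j, ∀ γ ∈ Γ, F j ∣[k j] γ = F j) (hdet : ∀ z, (Phi Γ k F z).det ≠ 0)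
    (g : SL(2, ℤ)) (z : ℍ) (j q : SL(2, ℤ) ⧸ Γ) :
    (Phi Γ k F (g • z))⁻¹ j q = denom g z ^ (-(k j)) * (Phi Γ k F z)⁻¹ j (g⁻¹ • q) := by
  have hd := denom_ne_zero g z
  have key : (Matrix.of fun j q => denom g z ^ (-(k j)) * (Phi Γ k F z)⁻¹ j (g⁻¹ • q))
      * Phi Γ k F (g • z) = 1 := by
    ext j j'
    rw [Matrix.mul_apply]
    have h1 : ∀ q, (Matrix.of fun j q => denom g z ^ (-(k j)) * (Phi Γ k F z)⁻¹ j (g⁻¹ • q)) j q
        * Phi Γ k F (g • z) q j'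
        = denom g z ^ (-(k j)) * denom g z ^ (k j') *
          ((Phi Γ k F z)⁻¹ j (g⁻¹ • q) * Phi Γ k F z (g⁻¹ • q) j') := by
      intro q
      rw [Matrix.of_apply, Phi_apply, Phi_apply, tr_smul_apply (hF j')]
      ring
    have h2 : ∑ q, (Phi Γ k F z)⁻¹ j (g⁻¹ • q) * Phi Γ k F z (g⁻¹ • q) j'
        = ∑ q, (Phi Γ k F z)⁻¹ j q * Phi Γ k F z q j' :=
      Equiv.sum_comp (MulAction.toPerm g⁻¹)
        (fun q => (Phi Γ k F z)⁻¹ j q * Phi Γ k F z q j')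
    rw [Finset.sum_congr rfl fun q _ => h1 q, ← Finset.mul_sum, h2, ← Matrix.mul_apply,
      Matrix.nonsing_inv_mul _ ((hdet z).isUnit)]
    by_cases hjj : j = j'
    · subst hjj
      rw [Matrix.one_apply_eq, mul_one, ← zpow_add₀ hd]
      simp
    · rw [Matrix.one_apply_ne hjj, mul_zero]
  rw [Matrix.inv_eq_left_inv key, Matrix.of_apply]

/-- the dual family -/
def G (Γ : Subgroup SL(2, ℤ)) [Fintype (SL(2, ℤ) ⧸ Γ)] [DecidableEq (SL(2, ℤ) ⧸ Γ)]
    (k : SL(2, ℤ) ⧸ Γ → ℤ) (F : SL(2, ℤ) ⧸ Γ → ℍ → ℂ) (j q : SL(2, ℤ) ⧸ Γ) : ℍ → ℂ :=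
  fun z => Δ z * (Phi Γ k F z)⁻¹ j q

theorem discriminant_smul (g : SL(2, ℤ)) (z : ℍ) : Δ (g • z) = denom g z ^ (12 : ℤ) * Δ z := by
  have h := congrFun (isCF_discriminant.inv g trivial) z
  rw [SL_slash_apply] at h
  have hd := denom_ne_zero g z
  rw [← h, mul_comm, mul_assoc, ← zpow_add₀ hd]
  simp

theorem G_slash (hF : ∀ j, ∀ γ ∈ Γ, F j ∣[k j] γ = F j) (hdet : ∀ z, (Phi Γ k F z).det ≠ 0)
    (g : SL(2, ℤ)) (j q : SL(2, ℤ) ⧸ Γ) :
    G Γ k F j q ∣[12 - k j] g = G Γ k F j (g⁻¹ • q) := by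
  ext z
  have hd := denom_ne_zero g z
  rw [SL_slash_apply, G, G, inv_smul_apply hF hdet, discriminant_smul]
  have : denom g z ^ (12 : ℤ) * denom g z ^ (-(k j)) * denom g z ^ (-(12 - k j)) = 1 := by
    rw [← zpow_add₀ hd, ← zpow_add₀ hd,
      show (12 : ℤ) + -(k j) + -(12 - k j) = 0 by ring, zpow_zero]
  calc denom g z ^ (12 : ℤ) * Δ z * (denom g z ^ (-(k j)) * (Phi Γ k F z)⁻¹ j (g⁻¹ • q))
        * denom g z ^ (-(12 - k j))
      = (denom g z ^ (12 : ℤ) * denom g z ^ (-(k j)) * denom g z ^ (-(12 - k j))) *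
        (Δ z * (Phi Γ k F z)⁻¹ j (g⁻¹ • q)) := by ring
    _ = _ := by rw [this, one_mul]

end DualA

open DualA in
theorem dual_isCF : Stmt_dual_isCF := by
  intro Γ _ _ _ k F hF hdet hinf j
  have hinv : ∀ j, ∀ γ ∈ Γ, F j ∣[k j] γ = F j := fun j => (hF j).inv
  have hsl := G_slash hinv hdet
  have hcf : IsCF Γ (12 - k j) (G Γ k F j ((1 : SL(2, ℤ)) : SL(2, ℤ) ⧸ Γ)) := by
    refine ⟨isCF_discriminant.holo.mul (mdiff_inv hF hdet j _), fun γ hγ => ?_, fun γ => ?_⟩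
    · rw [hsl]
      congr 1
      rw [MulAction.Quotient.smul_mk, QuotientGroup.eq]
      simpa using hγ
    · rw [hsl]
      exact hinf j _
  refine ⟨hcf, fun q => ?_⟩
  change tr (12 - k j) (G Γ k F j ((1 : SL(2, ℤ)) : SL(2, ℤ) ⧸ Γ)) q = G Γ k F j q
  rw [tr, hsl, inv_inv, MulAction.Quotient.smul_mk, smul_eq_mul, mul_one, QuotientGroup.out_eq']

end

end Fermat.Agent.S20
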