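import Fermat.Agent.S20.Interface
import Fermat.Agent.S20.PermDiag
import Fermat.Agent.S20.TwistedLimit
import Fermat.Agent.S20.LeadingTerm
import Fermat.Agent.S20.CuspInverse

/-! CORE-InfA : the discrete Fourier matrix `E z` of a permutation. -/

set_option autoImplicit false

open UpperHalfPlane Filter Topology Real
open scoped Manifold

namespace Fermat.Agent.S20

open LeadingTerm in
theorem exists_Emat : Stmt_exists_Emat := by
  intro Q _ _ σ
  obtain ⟨B, θ, hBdet, hθ, hBσ, hsum⟩ := PermDiag.strong Q σ
  refine ⟨fun z => Matrix.diagonal (fun i => Complex.exp (-(2 * π * Complex.I * θ i * z))) * B⁻¹,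
    (B⁻¹).det, ?_, ?_, ?_, ?_⟩
  · have := (Matrix.isUnit_nonsing_inv_det_iff (A := B)).mpr hBdet
    exact this.ne_zero
  · intro q q'
    have h1 : Tendsto (fun z : ℍ => Complex.exp (2 * π * Complex.I * ((1 - θ q : ℝ) : ℂ) * z))
        atImInfty (𝓝 0) := CuspInverse.tendsto_exp_mul_atImInfty (by linarith [(hθ q).2])
    have h2 := h1.mul_const (B⁻¹ q q')
    rw [zero_mul] at h2
    refine h2.congr fun z => ?_
    show _ = Complex.exp (2 * π * Complex.I * z) *
      (Matrix.diagonal (fun i => Complex.exp (-(2 * π * Complex.I * θ i * z))) * B⁻¹) q q'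
    rw [Matrix.diagonal_mul, ← mul_assoc, ← Complex.exp_add]
    congr 2
    push_cast
    ring
  · intro z
    show (Matrix.diagonal (fun i => Complex.exp (-(2 * π * Complex.I * θ i * z))) * B⁻¹).det = _
    rw [Matrix.det_mul, Matrix.det_diagonal, ← Complex.exp_sum, mul_comm]
    congr 2
    have hsum' : (∑ i, (θ i : ℂ)) = ((Fintype.card Q : ℂ) -
        (Nat.card (MulAction.orbitRel.Quotient (Subgroup.zpowers σ) Q) : ℂ)) / 2 := by
      have := congrArg (fun r : ℝ => (r : ℂ)) hsum
      simpa using this
    have : ∑ i, -(2 * π * Complex.I * θ i * z) = -(2 * π * Complex.I * (∑ i, (θ i : ℂ)) * z) := by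
      rw [Finset.mul_sum, Finset.sum_mul, Finset.sum_neg_distrib]
    rw [this, hsum']
    ring
  · intro φ hφ1 hφ2 hφ3
    set v : ℍ → Q → ℂ := fun z q => φ q z with hv
    have key : ∀ i : Q, ∃ L : ℂ,
        Tendsto (fun z : ℍ => Complex.exp (-(2 * π * Complex.I * θ i * z)) *
          coord B v i z) atImInfty (𝓝 L) ∧ (L = 0 → IsBigOq (coord B v i)) := by
      intro i
      exact twistedLimit (θ i) (hθ i).1 (hθ i).2 _ (coord_mdiff B (v := v) hφ1 i)
        (coord_bdd B (v := v) hφ2 i)
        (coord_shift B hBdet σ _ hBσ (v := v) (fun z x => hφ3 x z) i)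
    choose L hL hL0 using key
    refine ⟨L, ?_, ?_⟩
    · rw [tendsto_pi_nhds]
      intro i
      refine (hL i).congr fun z => ?_
      show _ = ((Matrix.diagonal (fun i => Complex.exp (-(2 * π * Complex.I * θ i * z))) *
        B⁻¹).mulVec (fun q => φ q z)) i
      rw [← Matrix.mulVec_mulVec, Matrix.mulVec_diagonal]
      rfl
    · intro hL' x
      have h : φ x = fun z => ∑ i, B x i * coord B v i z := by
        funext z
        exact recover B hBdet v z x
      rw [h]
      have h6 : ∀ i ∈ (Finset.univ : Finset Q), (fun z => B x i * coord B v i z)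
          =O[atImInfty] fun z : ℍ => Real.exp (-2 * π * z.im) := by
        intro i _
        have h5 := hL0 i (congrFun hL' i)
        unfold IsBigOq at h5
        exact h5.const_mul_left _
      have h7 := Asymptotics.IsBigO.sum h6
      refine h7.congr_left fun z => ?_
      simp only [Finset.sum_apply]

end Fermat.Agent.S20
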