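import Fermat.Agent.S20.Interface

/-! CORE-Gr : growth lemmas at infinity. -/

set_option autoImplicit false

open UpperHalfPlane ModularForm Matrix.SpecialLinearGroup CongruenceSubgroup Filter Topology
open scoped MatrixGroups Manifold ModularForm Real

namespace Fermat.Agent.S20

noncomputable section

local notation "Δ" => ModularForm.discriminant

theorem growth_tendsto_im : Tendsto (fun z : ℍ => z.im) atImInfty atTop := tendsto_comap

theorem growth_exp_int_mul (x : ℝ) (n : ℤ) : Real.exp (n * x) = Real.exp x ^ n := by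
  rw [mul_comm, Real.exp_mul, Real.rpow_intCast]

/-- `‖Δ z‖ = exp (-2π y) * ‖P z‖` with `P → 1`. -/
theorem growth_norm_discriminant :
    ∃ P : ℍ → ℝ, Tendsto P atImInfty (𝓝 1) ∧ (∀ z, 0 < P z) ∧
      ∀ z : ℍ, ‖Δ z‖ = Real.exp (-2 * π * z.im) * P z := by
  refine ⟨fun z => ‖∏' n, (1 - eta_q n z) ^ 24‖, ?_, ?_, ?_⟩
  · simpa using tendsto_atImInfty_tprod_one_sub_eta_q_pow.norm
  · intro z
    have h := discriminant_ne_zero z
    rw [discriminant_eq_q_prod] at h
    exact norm_pos_iff.mpr (right_ne_zero_of_mul h)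
  · intro z
    rw [discriminant_eq_q_prod, norm_mul]
    congr 1
    simp [Function.Periodic.qParam, Complex.norm_exp]

theorem growth_weight : Stmt_growth_weight := by
  intro W C l K m hC hl hW hlim
  obtain ⟨P, hP1, hPpos, hP⟩ := growth_norm_discriminant
  -- the norm identity
  have hnorm : ∀ z : ℍ, ‖Complex.exp (-(π * Complex.I * m * z)) * W z‖ ^ 12 =
      ‖C‖ * (Real.exp (2 * π * ((6 * m - K : ℤ) : ℝ) * z.im) * P z ^ K) := by
    intro z
    rw [norm_mul, mul_pow, ← norm_pow (W z), hW z, norm_mul, norm_zpow, hP z, Complex.norm_exp,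
      mul_zpow, ← Real.exp_nat_mul, ← growth_exp_int_mul]
    have hre : (-(π * Complex.I * m * z) : ℂ).re = π * m * z.im := by
      simp [Complex.mul_re, Complex.mul_im]
    rw [hre]
    have : Real.exp (2 * π * ((6 * m - K : ℤ) : ℝ) * z.im) =
        Real.exp (((12 : ℕ) : ℝ) * (π * m * z.im)) * Real.exp ((K : ℝ) * (-2 * π * z.im)) := by
      rw [← Real.exp_add]
      congr 1
      push_cast
      ring
    rw [this]
    ring
  have h1 : Tendsto (fun z : ℍ => ‖C‖ * (Real.exp (2 * π * ((6 * m - K : ℤ) : ℝ) * z.im) * P z ^ K))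
      atImInfty (𝓝 (‖l‖ ^ 12)) := by
    refine Tendsto.congr hnorm ?_
    exact (hlim.norm).pow 12
  have hPK : Tendsto (fun z : ℍ => P z ^ K) atImInfty (𝓝 1) := by
    have := hP1.zpow₀ K (Or.inl one_ne_zero)
    simpa using this
  have h2 : Tendsto (fun z : ℍ => Real.exp (2 * π * ((6 * m - K : ℤ) : ℝ) * z.im))
      atImInfty (𝓝 (‖l‖ ^ 12 / ‖C‖)) := by
    have h3 := (h1.div hPK one_ne_zero).div_const ‖C‖
    refine Tendsto.congr ?_ (by simpa using h3)
    intro z
    have hCn : ‖C‖ ≠ 0 := norm_ne_zero_iff.mpr hC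
    have hPz : P z ^ K ≠ 0 := zpow_ne_zero _ (hPpos z).ne'
    field_simp
    congr 1
    push_cast
    ring
  have hc : ‖l‖ ^ 12 / ‖C‖ ≠ 0 :=
    div_ne_zero (pow_ne_zero _ (norm_ne_zero_iff.mpr hl)) (norm_ne_zero_iff.mpr hC)
  set n : ℤ := 6 * m - K with hn
  rcases lt_trichotomy n 0 with hneg | hzero | hpos
  · exfalso
    have hcoef : 2 * π * (n : ℝ) < 0 := by
      have : (n : ℝ) < 0 := by exact_mod_cast hneg
      have := Real.pi_pos
      nlinarith
    have h4 : Tendsto (fun z : ℍ => Real.exp (2 * π * (n : ℝ) * z.im)) atImInfty (𝓝 0) :=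
      Real.tendsto_exp_atBot.comp ((tendsto_const_mul_atBot_of_neg hcoef).mpr growth_tendsto_im)
    exact hc (tendsto_nhds_unique h2 h4)
  · omega
  · exfalso
    have hcoef : 0 < 2 * π * (n : ℝ) := by
      have : (0 : ℝ) < n := by exact_mod_cast hpos
      have := Real.pi_pos
      positivity
    have h4 : Tendsto (fun z : ℍ => Real.exp (2 * π * (n : ℝ) * z.im)) atImInfty atTop :=
      Real.tendsto_exp_atTop.comp ((tendsto_const_mul_atTop_of_pos hcoef).mpr growth_tendsto_im)
    exact not_tendsto_nhds_of_tendsto_atTop h4 _ h2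

theorem growth_discriminant_eq (z : ℍ) :
    Δ z = Complex.exp (2 * π * Complex.I * z) * ∏' n, (1 - eta_q n z) ^ 24 := by
  rw [discriminant_eq_q_prod]
  congr 1
  simp [Function.Periodic.qParam]

theorem growth_inverse : Stmt_growth_inverse := by
  intro Q _ _ Φ E Λ hE hΦ hEq hlim hΛ j q
  -- the inverse of `E * Φ` converges
  have hdet : Tendsto (fun z => (E z * Φ z).det) atImInfty (𝓝 Λ.det) :=
    ((continuous_id.matrix_det).tendsto Λ).comp hlim
  have hadj : Tendsto (fun z => (E z * Φ z).adjugate) atImInfty (𝓝 Λ.adjugate) :=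
    ((continuous_id.matrix_adjugate).tendsto Λ).comp hlim
  have hinv : Tendsto (fun z => (E z * Φ z)⁻¹) atImInfty (𝓝 Λ⁻¹) := by
    simp only [Matrix.inv_def, Ring.inverse_eq_inv']
    exact (hdet.inv₀ hΛ).smul hadj
  have hinv' : ∀ q', Tendsto (fun z => (E z * Φ z)⁻¹ j q') atImInfty (𝓝 (Λ⁻¹ j q')) := by
    intro q'
    exact ((continuous_apply_apply j q').tendsto _).comp hinv
  have hΔE : ∀ q', Tendsto (fun z : ℍ => Δ z * E z q' q) atImInfty (𝓝 0) := by
    intro q'
    have h := tendsto_atImInfty_tprod_one_sub_eta_q_pow.mul (hEq q' q)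
    rw [mul_zero] at h
    refine h.congr ?_
    intro z
    rw [growth_discriminant_eq]
    ring
  have hkey : ∀ z : ℍ, Δ z * (Φ z)⁻¹ j q = ∑ q', (E z * Φ z)⁻¹ j q' * (Δ z * E z q' q) := by
    intro z
    have h1 : (Φ z)⁻¹ = (E z * Φ z)⁻¹ * E z := by
      rw [Matrix.mul_inv_rev, Matrix.mul_assoc,
        Matrix.nonsing_inv_mul _ (isUnit_iff_ne_zero.mpr (hE z)), Matrix.mul_one]
    rw [h1, Matrix.mul_apply, Finset.mul_sum]
    refine Finset.sum_congr rfl fun q' _ => ?_
    ring
  have hsum : Tendsto (fun z : ℍ => ∑ q', (E z * Φ z)⁻¹ j q' * (Δ z * E z q' q)) atImInfty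
      (𝓝 (∑ q', Λ⁻¹ j q' * 0)) :=
    tendsto_finsetSum _ fun q' _ => (hinv' q').mul (hΔE q')
  simp only [mul_zero, Finset.sum_const_zero] at hsum
  exact hsum.congr fun z => (hkey z).symm

end

end Fermat.Agent.S20
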