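import Mathlib

set_option autoImplicit false

open UpperHalfPlane

namespace Fermat.Agent.S20

namespace Numerics

theorem rho_add_one_sq : ((UpperHalfPlane.ρ : ℂ) + 1) ^ 2 = (UpperHalfPlane.ρ : ℂ) := by
  linear_combination ρ_sq

theorem rho_re : UpperHalfPlane.ρ.re = -1 / 2 := rfl

theorem rho_im : UpperHalfPlane.ρ.im = Real.sqrt 3 / 2 := rfl

theorem rho_add_one_pow (m : ℕ) :
    ((UpperHalfPlane.ρ : ℂ) + 1) ^ (m + m) = (UpperHalfPlane.ρ : ℂ) ^ m := by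
  rw [← two_mul, pow_mul, rho_add_one_sq]

theorem I_pow (m : ℕ) : Complex.I ^ (m + m) = (-1) ^ m := by
  rw [← two_mul, pow_mul, Complex.I_sq]

/-- the pointwise identity. -/
theorem pointwise (k : ℤ) (h0 : 0 ≤ k) (h10 : k ≤ 10) (hev : Even k) :
    ((if k = 10 then 1 else 0 : ℝ) - (if k = 0 then 1 else 0))
      = 1 / 12 - (Complex.I ^ k).re / 4 - (((UpperHalfPlane.ρ : ℂ) + 1) ^ k).re / 3
        - (1 - (k : ℝ) / 6) / 2 - (((UpperHalfPlane.ρ : ℂ) + 1) ^ k).im * (Real.sqrt 3 / 9) := by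
  obtain ⟨n, rfl⟩ := Int.eq_ofNat_of_zero_le h0
  rw [Int.even_coe_nat] at hev
  obtain ⟨m, rfl⟩ := hev
  have hm : m ≤ 5 := by omega
  rw [zpow_natCast, zpow_natCast, rho_add_one_pow, I_pow]
  have h3 : Real.sqrt 3 * Real.sqrt 3 = 3 := Real.mul_self_sqrt (by norm_num)
  have e2 : (UpperHalfPlane.ρ : ℂ) ^ 2 = -ρ - 1 := ρ_sq
  have e3 : (UpperHalfPlane.ρ : ℂ) ^ 3 = 1 := by
    linear_combination ((UpperHalfPlane.ρ : ℂ) - 1) * ρ_sq
  have e4 : (UpperHalfPlane.ρ : ℂ) ^ 4 = ρ := by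
    linear_combination (UpperHalfPlane.ρ : ℂ) * e3
  have e5 : (UpperHalfPlane.ρ : ℂ) ^ 5 = -ρ - 1 := by
    linear_combination (UpperHalfPlane.ρ : ℂ) ^ 2 * e3 + e2
  interval_cases m
  · norm_num
  · norm_num [rho_re, rho_im]
    nlinarith [h3]
  · rw [e2]
    norm_num [rho_re, rho_im]
    nlinarith [h3]
  · rw [e3]
    norm_num
  · rw [e4]
    norm_num [rho_re, rho_im]
    nlinarith [h3]
  · rw [e5]
    norm_num [rho_re, rho_im]
    nlinarith [h3]

/-- the pointwise identity used for `S21`. -/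
theorem pointwise' (k : ℤ) (h0 : 0 ≤ k) (h10 : k ≤ 10) (hev : Even k) :
    (1 : ℝ) + 6 * (if k = 0 then 1 else 0)
      = 6 * ((if k = 2 then 1 else 0) + (if k = 10 then 1 else 0)) + 3 * (Complex.I ^ k).re
        + 4 * (((UpperHalfPlane.ρ : ℂ) + 1) ^ k).re := by
  obtain ⟨n, rfl⟩ := Int.eq_ofNat_of_zero_le h0
  rw [Int.even_coe_nat] at hev
  obtain ⟨m, rfl⟩ := hev
  have hm : m ≤ 5 := by omega
  rw [zpow_natCast, zpow_natCast, rho_add_one_pow, I_pow]
  have e2 : (UpperHalfPlane.ρ : ℂ) ^ 2 = -ρ - 1 := ρ_sq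
  have e3 : (UpperHalfPlane.ρ : ℂ) ^ 3 = 1 := by
    linear_combination ((UpperHalfPlane.ρ : ℂ) - 1) * ρ_sq
  have e4 : (UpperHalfPlane.ρ : ℂ) ^ 4 = ρ := by
    linear_combination (UpperHalfPlane.ρ : ℂ) * e3
  have e5 : (UpperHalfPlane.ρ : ℂ) ^ 5 = -ρ - 1 := by
    linear_combination (UpperHalfPlane.ρ : ℂ) ^ 2 * e3 + e2
  interval_cases m
  · norm_num
  · norm_num [rho_re]
  · rw [e2]
    norm_num [rho_re]
  · rw [e3]
    norm_num
  · rw [e4]
    norm_num [rho_re]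
  · rw [e5]
    norm_num [rho_re]

end Numerics

open Numerics in
/-- The arithmetic needed for `S21`. -/
theorem weight_two_numerics {J : Type} [Fintype J] (k : J → ℤ)
    (h0 : ∀ j, 0 ≤ k j) (h10 : ∀ j, k j ≤ 10) (hev : ∀ j, Even (k j))
    (ν₂ ν₃ : ℕ)
    (h2 : (ν₂ : ℂ) = ∑ j, Complex.I ^ (k j))
    (h3 : (ν₃ : ℂ) = ∑ j, ((UpperHalfPlane.ρ : ℂ) + 1) ^ (k j)) :
    Fintype.card J + 6 * (Finset.univ.filter fun j => k j = 0).card
      = 6 * ((Finset.univ.filter fun j => k j = 2).card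
          + (Finset.univ.filter fun j => k j = 10).card) + 3 * ν₂ + 4 * ν₃ := by
  have hre2 : (ν₂ : ℝ) = ∑ j, (Complex.I ^ (k j)).re := by
    have := congrArg Complex.re h2
    simpa using this
  have hre3 : (ν₃ : ℝ) = ∑ j, (((UpperHalfPlane.ρ : ℂ) + 1) ^ (k j)).re := by
    have := congrArg Complex.re h3
    simpa using this
  have hsum := Finset.sum_congr (rfl : (Finset.univ : Finset J) = Finset.univ)
    fun j _ => pointwise' (k j) (h0 j) (h10 j) (hev j)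
  simp only [Finset.sum_add_distrib, ← Finset.mul_sum, Finset.sum_boole,
    Finset.sum_const, Finset.card_univ, ← hre2, ← hre3, nsmul_eq_mul, mul_one] at hsum
  exact_mod_cast hsum

open Numerics in
/-- The final arithmetic of the genus formula. -/
theorem genus_numerics {J : Type} [Fintype J] (k : J → ℤ)
    (h0 : ∀ j, 0 ≤ k j) (h10 : ∀ j, k j ≤ 10) (hev : ∀ j, Even (k j))
    (hone : (Finset.univ.filter fun j => k j = 0).card = 1)
    (ν₂ ν₃ c : ℕ)
    (h2 : (ν₂ : ℂ) = ∑ j, Complex.I ^ (k j))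
    (h3 : (ν₃ : ℂ) = ∑ j, ((UpperHalfPlane.ρ : ℂ) + 1) ^ (k j))
    (hK : ∑ j, k j = 6 * ((Fintype.card J : ℤ) - c)) :
    (((Finset.univ.filter fun j => k j = 10).card : ℕ) : ℚ)
      = 1 + (Fintype.card J : ℚ) / 12 - (ν₂ : ℚ) / 4 - (ν₃ : ℚ) / 3 - (c : ℚ) / 2 := by
  have hre2 : (ν₂ : ℝ) = ∑ j, (Complex.I ^ (k j)).re := by
    have := congrArg Complex.re h2
    simpa using this
  have hre3 : (ν₃ : ℝ) = ∑ j, (((UpperHalfPlane.ρ : ℂ) + 1) ^ (k j)).re := by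
    have := congrArg Complex.re h3
    simpa using this
  have him3 : (0 : ℝ) = ∑ j, (((UpperHalfPlane.ρ : ℂ) + 1) ^ (k j)).im := by
    have := congrArg Complex.im h3
    simpa using this
  have hKr : ∑ j, (k j : ℝ) = 6 * ((Fintype.card J : ℝ) - c) := by
    have := congrArg (fun x : ℤ => (x : ℝ)) hK
    simpa using this
  have hsum := Finset.sum_congr (rfl : (Finset.univ : Finset J) = Finset.univ)
    fun j _ => pointwise (k j) (h0 j) (h10 j) (hev j)
  simp only [Finset.sum_sub_distrib, Finset.sum_boole, ← Finset.sum_div, ← Finset.sum_mul,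
    Finset.sum_const, Finset.card_univ, ← hre2, ← hre3, ← him3, hKr, hone, nsmul_eq_mul] at hsum
  have key : ((((Finset.univ.filter fun j => k j = 10).card : ℕ) : ℚ) : ℝ)
      = ((1 + (Fintype.card J : ℚ) / 12 - (ν₂ : ℚ) / 4 - (ν₃ : ℚ) / 3 - (c : ℚ) / 2 : ℚ) : ℝ) := by
    push_cast at hsum ⊢
    linarith
  exact Rat.cast_injective key

end Fermat.Agent.S20
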