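import Mathlib
import Fermat.Prelude.Def_ModularCurve_GenusNumerics

/-!
# C4: the number of `T`-orbits on `SL(2,ℤ) ⧸ Γ₀(N)` is `cuspCount N`.
-/

set_option autoImplicit false

open scoped MatrixGroups
open CongruenceSubgroup

namespace Fermat.Agent.S20.C4

/-- `e(d) = gcd(d, N/d)`. -/
def eOf (N d : ℕ) : ℕ := Nat.gcd d (N / d)

/-- residue invariant -/
noncomputable def rOf (e : ℕ) (a c' : ℤ) : ℕ := ((a : ZMod e) * ((c' : ZMod e))⁻¹).val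

lemma eOf_pos {N d : ℕ} (hN : N ≠ 0) (hd : d ∣ N) : 0 < eOf N d := by
  have hd0 : 0 < d := Nat.pos_of_dvd_of_pos hd (Nat.pos_of_ne_zero hN)
  exact Nat.gcd_pos_of_pos_left _ hd0

lemma isUnit_intCast_zmod {e : ℕ} {c : ℤ} (h : IsCoprime c (e : ℤ)) : IsUnit (c : ZMod e) := by
  obtain ⟨u, v, huv⟩ := h
  have : ((u * c + v * e : ℤ) : ZMod e) = 1 := by rw [huv]; simp
  push_cast at this
  simp only [CharP.cast_eq_zero, mul_zero, add_zero] at this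
  exact IsUnit.of_mul_eq_one _ (by rw [mul_comm]; exact this)

lemma rOf_eq_iff {e : ℕ} (he : 0 < e) {a₁ c₁ a₂ c₂ : ℤ}
    (h₁ : IsCoprime c₁ (e : ℤ)) (h₂ : IsCoprime c₂ (e : ℤ)) :
    rOf e a₁ c₁ = rOf e a₂ c₂ ↔ (e : ℤ) ∣ a₂ * c₁ - a₁ * c₂ := by
  have : NeZero e := ⟨he.ne'⟩
  have u₁ := isUnit_intCast_zmod h₁
  have u₂ := isUnit_intCast_zmod h₂
  unfold rOf
  rw [(ZMod.val_injective e).eq_iff, ← ZMod.intCast_zmod_eq_zero_iff_dvd]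
  push_cast
  have i₁ : (c₁ : ZMod e) * (c₁ : ZMod e)⁻¹ = 1 := ZMod.mul_inv_of_unit _ u₁
  have i₂ : (c₂ : ZMod e) * (c₂ : ZMod e)⁻¹ = 1 := ZMod.mul_inv_of_unit _ u₂
  constructor
  · intro h
    have : (a₂ : ZMod e) * c₁ - a₁ * c₂
        = ((a₂ : ZMod e) * (c₂ : ZMod e)⁻¹ - a₁ * (c₁ : ZMod e)⁻¹) * (c₁ * c₂)
          + (a₂ * c₁ * (1 - c₂ * (c₂ : ZMod e)⁻¹) - a₁ * c₂ * (1 - c₁ * (c₁ : ZMod e)⁻¹)) := by
      ring
    rw [this, h, i₁, i₂]; ring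
  · intro h
    have : (a₁ : ZMod e) * (c₁ : ZMod e)⁻¹ - a₂ * (c₂ : ZMod e)⁻¹
        = -((a₂ : ZMod e) * c₁ - a₁ * c₂) * ((c₁ : ZMod e)⁻¹ * (c₂ : ZMod e)⁻¹)
          + (a₁ * (c₁ : ZMod e)⁻¹ * (1 - c₂ * (c₂ : ZMod e)⁻¹)
              - a₂ * (c₂ : ZMod e)⁻¹ * (1 - c₁ * (c₁ : ZMod e)⁻¹)) := by
      ring
    rw [← sub_eq_zero, this, h, i₁, i₂]; ring


lemma core (d N' : ℕ) (hd : 0 < d) (a₁ c₁ a₂ c₂ : ℤ)
    (h₁ : IsCoprime c₁ (N' : ℤ)) (h₂ : IsCoprime c₂ (N' : ℤ)) :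
    (∃ t : ℤ, ((d * N' : ℕ) : ℤ) ∣ a₂ * (d * c₁) - a₁ * (d * c₂) + t * ((d * c₁) * (d * c₂))) ↔
      ((Nat.gcd d N' : ℕ) : ℤ) ∣ a₂ * c₁ - a₁ * c₂ := by
  have hd' : (d : ℤ) ≠ 0 := by exact_mod_cast hd.ne'
  constructor
  · rintro ⟨t, k, hk⟩
    have h1 : a₂ * c₁ - a₁ * c₂ + t * (d * (c₁ * c₂)) = N' * k := by
      apply mul_left_cancel₀ hd'
      push_cast at hk
      linear_combination hk
    have e1 : ((Nat.gcd d N' : ℕ) : ℤ) ∣ (d : ℤ) := by exact_mod_cast Nat.gcd_dvd_left d N'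
    have e2 : ((Nat.gcd d N' : ℕ) : ℤ) ∣ (N' : ℤ) := by exact_mod_cast Nat.gcd_dvd_right d N'
    have : a₂ * c₁ - a₁ * c₂ = N' * k - d * (t * (c₁ * c₂)) := by linear_combination h1
    rw [this]
    exact dvd_sub (Dvd.dvd.mul_right e2 _) (Dvd.dvd.mul_right e1 _)
  · rintro ⟨y, hy⟩
    obtain ⟨w, z, hwz⟩ := (h₁.mul_left h₂)
    have hb : ((Nat.gcd d N' : ℕ) : ℤ) = d * Nat.gcdA d N' + N' * Nat.gcdB d N' :=
      Nat.gcd_eq_gcd_ab d N'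
    set u := Nat.gcdA d N'
    set v := Nat.gcdB d N'
    set e : ℤ := ((Nat.gcd d N' : ℕ) : ℤ)
    refine ⟨-y * u * w, y * (e * z + v - N' * v * z), ?_⟩
    push_cast
    have h3 : (d : ℤ) * u = e - N' * v := by linear_combination -hb
    have h4 : w * (c₁ * c₂) = 1 - z * N' := by linear_combination hwz
    calc a₂ * (d * c₁) - a₁ * (d * c₂) + -y * u * w * ((d * c₁) * (d * c₂))
        = d * ((a₂ * c₁ - a₁ * c₂) - y * (d * u) * (w * (c₁ * c₂))) := by ring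
      _ = d * (e * y - y * (e - N' * v) * (1 - z * N')) := by rw [hy, h3, h4]
      _ = d * N' * (y * (e * z + v - N' * v * z)) := by ring


lemma gcd_dvd_of_rel (N : ℕ) (a₁ c₁ a₂ c₂ t : ℤ) (h₁ : IsCoprime a₁ c₁)
    (h : (N : ℤ) ∣ a₂ * c₁ - a₁ * c₂ + t * (c₁ * c₂)) : Int.gcd c₁ N ∣ Int.gcd c₂ N := by
  have g1 : ((Int.gcd c₁ N : ℕ) : ℤ) ∣ c₁ := Int.gcd_dvd_left c₁ N
  have g2 : ((Int.gcd c₁ N : ℕ) : ℤ) ∣ (N : ℤ) := Int.gcd_dvd_right c₁ N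
  have h2 : ((Int.gcd c₁ N : ℕ) : ℤ) ∣ a₁ * c₂ := by
    have : a₁ * c₂ = c₁ * (a₂ + t * c₂) - (a₂ * c₁ - a₁ * c₂ + t * (c₁ * c₂)) := by ring
    rw [this]
    exact dvd_sub (Dvd.dvd.mul_right g1 _) (g2.trans h)
  have hcop : IsCoprime ((Int.gcd c₁ N : ℕ) : ℤ) a₁ := (h₁.symm.of_isCoprime_of_dvd_left g1)
  have h3 : ((Int.gcd c₁ N : ℕ) : ℤ) ∣ c₂ := hcop.dvd_of_dvd_mul_left h2
  have := Int.dvd_coe_gcd h3 g2
  exact_mod_cast this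

lemma key (N : ℕ) (hN : N ≠ 0) (a₁ c₁ a₂ c₂ : ℤ) (h₁ : IsCoprime a₁ c₁) (h₂ : IsCoprime a₂ c₂) :
    (∃ t : ℤ, (N : ℤ) ∣ a₂ * c₁ - a₁ * c₂ + t * (c₁ * c₂)) ↔
      (Int.gcd c₁ N = Int.gcd c₂ N ∧
        ((eOf N (Int.gcd c₁ N) : ℕ) : ℤ) ∣
          a₂ * (c₁ / (Int.gcd c₁ N : ℕ)) - a₁ * (c₂ / (Int.gcd c₁ N : ℕ))) := by
  have main : Int.gcd c₁ N = Int.gcd c₂ N →
      ((∃ t : ℤ, (N : ℤ) ∣ a₂ * c₁ - a₁ * c₂ + t * (c₁ * c₂)) ↔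
        ((eOf N (Int.gcd c₁ N) : ℕ) : ℤ) ∣
          a₂ * (c₁ / (Int.gcd c₁ N : ℕ)) - a₁ * (c₂ / (Int.gcd c₁ N : ℕ))) := by
    intro hd
    set d := Int.gcd c₁ N with hd_def
    have hdN : d ∣ N := by
      have : ((Int.gcd c₁ N : ℕ) : ℤ) ∣ (N : ℤ) := Int.gcd_dvd_right c₁ N
      exact_mod_cast this
    have hdpos : 0 < d := Nat.pos_of_dvd_of_pos hdN (Nat.pos_of_ne_zero hN)
    have hd0 : (d : ℤ) ≠ 0 := by exact_mod_cast hdpos.ne'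
    obtain ⟨N', hN'⟩ := hdN
    obtain ⟨c₁', hc₁'⟩ : (d : ℤ) ∣ c₁ := Int.gcd_dvd_left c₁ N
    obtain ⟨c₂', hc₂'⟩ : (d : ℤ) ∣ c₂ := by rw [hd]; exact Int.gcd_dvd_left c₂ N
    have cop : ∀ c c' : ℤ, c = d * c' → Int.gcd c N = d → IsCoprime c' (N' : ℤ) := by
      intro c c' hc hg
      rw [Int.isCoprime_iff_gcd_eq_one]
      have : Int.gcd c N = d * Int.gcd c' N' := by
        rw [hc, hN']
        push_cast
        rw [Int.gcd_mul_left]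
        simp
      rw [hg] at this
      exact (Nat.eq_of_mul_eq_mul_left hdpos (by rw [mul_one]; exact this)).symm
    have k₁ := cop c₁ c₁' hc₁' hd_def.symm
    have k₂ := cop c₂ c₂' hc₂' hd.symm
    have q₁ : c₁ / (d : ℤ) = c₁' := by rw [hc₁']; exact Int.mul_ediv_cancel_left _ hd0
    have q₂ : c₂ / (d : ℤ) = c₂' := by rw [hc₂']; exact Int.mul_ediv_cancel_left _ hd0
    have qN : N / d = N' := by rw [hN']; exact Nat.mul_div_cancel_left _ hdpos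
    rw [q₁, q₂, eOf, qN, ← core d N' hdpos a₁ c₁' a₂ c₂' k₁ k₂, ← hN', ← hc₁', ← hc₂']
  constructor
  · rintro ⟨t, ht⟩
    have e1 := gcd_dvd_of_rel N a₁ c₁ a₂ c₂ t h₁ ht
    have ht' : (N : ℤ) ∣ a₁ * c₂ - a₂ * c₁ + (-t) * (c₂ * c₁) := by
      have : a₁ * c₂ - a₂ * c₁ + (-t) * (c₂ * c₁) = -(a₂ * c₁ - a₁ * c₂ + t * (c₁ * c₂)) := by ring
      rw [this]; exact (dvd_neg).mpr ht
    have e2 := gcd_dvd_of_rel N a₂ c₂ a₁ c₁ (-t) h₂ ht'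
    have hd := Nat.dvd_antisymm e1 e2
    exact ⟨hd, (main hd).mp ⟨t, ht⟩⟩
  · rintro ⟨hd, h⟩
    exact (main hd).mpr h


lemma isCoprime_col (g : SL(2, ℤ)) : IsCoprime (g 0 0) (g 1 0) := by
  refine ⟨g 1 1, -(g 0 1), ?_⟩
  have := g.det_coe
  rw [Matrix.det_fin_two] at this
  linear_combination this

variable (N : ℕ)

lemma orbitRel_iff (g₁ g₂ : SL(2, ℤ)) :
    (MulAction.orbitRel (Subgroup.zpowers ModularGroup.T) (SL(2, ℤ) ⧸ Gamma0 N))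
        (g₁ : SL(2, ℤ) ⧸ Gamma0 N) (g₂ : SL(2, ℤ) ⧸ Gamma0 N) ↔
      ∃ t : ℤ, (N : ℤ) ∣ g₂ 0 0 * g₁ 1 0 - g₁ 0 0 * g₂ 1 0 + t * (g₁ 1 0 * g₂ 1 0) := by
  rw [MulAction.orbitRel_apply, MulAction.mem_orbit_iff]
  have ent : ∀ t : ℤ, ((ModularGroup.T ^ t * g₂)⁻¹ * g₁) 1 0
      = g₂ 0 0 * g₁ 1 0 - g₁ 0 0 * g₂ 1 0 + t * (g₁ 1 0 * g₂ 1 0) := by
    intro t
    have h10 : (ModularGroup.T ^ t * g₂) 1 0 = g₂ 1 0 := by
      rw [Matrix.SpecialLinearGroup.coe_mul, ModularGroup.coe_T_zpow]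
      simp [Matrix.mul_apply, Fin.sum_univ_two]
    have h00 : (ModularGroup.T ^ t * g₂) 0 0 = g₂ 0 0 + t * g₂ 1 0 := by
      rw [Matrix.SpecialLinearGroup.coe_mul, ModularGroup.coe_T_zpow]
      simp [Matrix.mul_apply, Fin.sum_univ_two]
    rw [Matrix.SpecialLinearGroup.coe_mul, Matrix.SpecialLinearGroup.coe_inv,
      Matrix.adjugate_fin_two, Matrix.mul_apply, Fin.sum_univ_two]
    simp only [Matrix.of_apply, Matrix.cons_val_zero, Matrix.cons_val_one,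
      Matrix.cons_val', Matrix.cons_val_fin_one, h10, h00]
    ring
  constructor
  · rintro ⟨⟨x, t, rfl⟩, hx⟩
    refine ⟨t, ?_⟩
    have hx' : ((ModularGroup.T ^ t * g₂ : SL(2, ℤ)) : SL(2, ℤ) ⧸ Gamma0 N) = g₁ := hx
    rw [QuotientGroup.eq, Gamma0_mem, ent, ZMod.intCast_zmod_eq_zero_iff_dvd] at hx'
    exact hx'
  · rintro ⟨t, ht⟩
    refine ⟨⟨ModularGroup.T ^ t, t, rfl⟩, ?_⟩
    show ((ModularGroup.T ^ t * g₂ : SL(2, ℤ)) : SL(2, ℤ) ⧸ Gamma0 N) = g₁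
    rw [QuotientGroup.eq, Gamma0_mem, ent, ZMod.intCast_zmod_eq_zero_iff_dvd]
    exact ht


lemma gcd_dvd_N (c : ℤ) : Int.gcd c N ∣ N := by
  have : ((Int.gcd c N : ℕ) : ℤ) ∣ (N : ℤ) := Int.gcd_dvd_right c N
  exact_mod_cast this

lemma isCoprime_quot (hN : N ≠ 0) (c : ℤ) :
    IsCoprime (c / (Int.gcd c N : ℕ)) ((eOf N (Int.gcd c N) : ℕ) : ℤ) := by
  have hdN := gcd_dvd_N N c
  have hdpos : 0 < Int.gcd c N := Nat.pos_of_dvd_of_pos hdN (Nat.pos_of_ne_zero hN)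
  have h1 : Int.gcd (c / (Int.gcd c N : ℕ)) ((N : ℤ) / (Int.gcd c N : ℕ)) = 1 :=
    Int.gcd_div_gcd_div_gcd hdpos
  have h2 : IsCoprime (c / (Int.gcd c N : ℕ)) ((N : ℤ) / (Int.gcd c N : ℕ)) :=
    Int.isCoprime_iff_gcd_eq_one.mpr h1
  have h3 : ((eOf N (Int.gcd c N) : ℕ) : ℤ) ∣ ((N : ℤ) / (Int.gcd c N : ℕ)) := by
    have : eOf N (Int.gcd c N) ∣ N / Int.gcd c N := Nat.gcd_dvd_right _ _
    exact_mod_cast this
  exact h2.of_isCoprime_of_dvd_right h3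

/-- The complete invariant of a `T`-orbit. -/
noncomputable def F (g : SL(2, ℤ)) : Σ _ : ℕ, ℕ :=
  ⟨Int.gcd (g 1 0) N,
    rOf (eOf N (Int.gcd (g 1 0) N)) (g 0 0) (g 1 0 / (Int.gcd (g 1 0) N : ℕ))⟩

lemma F_eq_iff (hN : N ≠ 0) (g₁ g₂ : SL(2, ℤ)) :
    F N g₁ = F N g₂ ↔
      ∃ t : ℤ, (N : ℤ) ∣ g₂ 0 0 * g₁ 1 0 - g₁ 0 0 * g₂ 1 0 + t * (g₁ 1 0 * g₂ 1 0) := by
  rw [key N hN _ _ _ _ (isCoprime_col g₁) (isCoprime_col g₂)]
  unfold F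
  rw [Sigma.mk.inj_iff]
  constructor
  · rintro ⟨hd, hr⟩
    refine ⟨hd, ?_⟩
    have hr' := eq_of_heq hr
    have k₁ := isCoprime_quot N hN (g₁ 1 0)
    have k₂ := isCoprime_quot N hN (g₂ 1 0)
    rw [← hd] at hr' k₂
    exact (rOf_eq_iff (eOf_pos hN (gcd_dvd_N N _)) k₁ k₂).mp hr'
  · rintro ⟨hd, hr⟩
    refine ⟨hd, heq_of_eq ?_⟩
    have k₁ := isCoprime_quot N hN (g₁ 1 0)
    have k₂ := isCoprime_quot N hN (g₂ 1 0)
    rw [← hd] at k₂ ⊢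
    exact (rOf_eq_iff (eOf_pos hN (gcd_dvd_N N _)) k₁ k₂).mpr hr

/-- The target finite set. -/
def target : Finset (Σ _ : ℕ, ℕ) :=
  N.divisors.sigma fun d => {a ∈ Finset.range (eOf N d) | (eOf N d).Coprime a}

lemma card_target : (target N).card = ModularCurve.cuspCount N := by
  rw [target, Finset.card_sigma]
  rfl

lemma F_mem (hN : N ≠ 0) (g : SL(2, ℤ)) : F N g ∈ target N := by
  have hdN := gcd_dvd_N N (g 1 0)
  have he := eOf_pos hN hdN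
  have : NeZero (eOf N (Int.gcd (g 1 0) N)) := ⟨he.ne'⟩
  rw [target, Finset.mem_sigma]
  refine ⟨Nat.mem_divisors.mpr ⟨hdN, hN⟩, ?_⟩
  rw [Finset.mem_filter, Finset.mem_range]
  refine ⟨ZMod.val_lt _, ?_⟩
  have k := isCoprime_quot N hN (g 1 0)
  have ka : IsCoprime (g 0 0) ((eOf N (Int.gcd (g 1 0) N) : ℕ) : ℤ) := by
    have h1 : ((eOf N (Int.gcd (g 1 0) N) : ℕ) : ℤ) ∣ g 1 0 := by
      have : ((eOf N (Int.gcd (g 1 0) N) : ℕ) : ℤ) ∣ ((Int.gcd (g 1 0) N : ℕ) : ℤ) := by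
        exact_mod_cast Nat.gcd_dvd_left _ _
      exact this.trans (Int.gcd_dvd_left _ _)
    exact (isCoprime_col g).of_isCoprime_of_dvd_right h1
  have u₁ := isUnit_intCast_zmod ka
  have u₂ := isUnit_intCast_zmod k
  have u₃ : IsUnit (((g 1 0 / (Int.gcd (g 1 0) N : ℕ) : ℤ) : ZMod (eOf N (Int.gcd (g 1 0) N)))⁻¹) := by
    refine IsUnit.of_mul_eq_one _ (?_ : _ * ((g 1 0 / (Int.gcd (g 1 0) N : ℕ) : ℤ) : ZMod _) = 1)
    rw [mul_comm]; exact ZMod.mul_inv_of_unit _ u₂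
  obtain ⟨w, hw⟩ := u₁.mul u₃
  show Nat.Coprime _ (rOf _ _ _)
  unfold rOf
  rw [← hw]
  exact (ZMod.val_coe_unit_coprime w).symm

lemma F_surj (hN : N ≠ 0) (x : Σ _ : ℕ, ℕ) (hx : x ∈ target N) : ∃ g : SL(2, ℤ), F N g = x := by
  obtain ⟨d, r⟩ := x
  rw [target, Finset.mem_sigma, Finset.mem_filter, Finset.mem_range] at hx
  obtain ⟨hd, hr, hcop⟩ := hx
  simp only at hd hr hcop
  have hdN : d ∣ N := Nat.dvd_of_mem_divisors hd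
  have hdpos : 0 < d := Nat.pos_of_dvd_of_pos hdN (Nat.pos_of_ne_zero hN)
  have : NeZero d := ⟨hdpos.ne'⟩
  have hed : eOf N d ∣ d := Nat.gcd_dvd_left _ _
  have he := eOf_pos hN hdN
  have : NeZero (eOf N d) := ⟨he.ne'⟩
  obtain ⟨u, hu⟩ := ZMod.unitsMap_surjective hed (ZMod.unitOfCoprime r hcop.symm)
  have hcop2 : Nat.Coprime (u : ZMod d).val d := ZMod.val_coe_unit_coprime u
  have hcop3 : IsCoprime (((u : ZMod d).val : ℕ) : ℤ) (d : ℤ) := Nat.isCoprime_iff_coprime.mpr hcop2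
  obtain ⟨p, q, hpq⟩ := hcop3
  let g : SL(2, ℤ) := ⟨!![(((u : ZMod d).val : ℕ) : ℤ), -q; (d : ℤ), p], by
    rw [Matrix.det_fin_two_of]; linear_combination hpq⟩
  refine ⟨g, ?_⟩
  have g10 : g 1 0 = (d : ℤ) := rfl
  have g00 : g 0 0 = (((u : ZMod d).val : ℕ) : ℤ) := rfl
  have hg : Int.gcd (d : ℤ) N = d := by
    rw [Int.gcd_natCast_natCast]; exact Nat.gcd_eq_left hdN
  unfold F
  rw [g10, g00, hg, Int.ediv_self (by exact_mod_cast hdpos.ne')]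
  congr 1
  unfold rOf
  have h1 : ((((u : ZMod d).val : ℕ) : ℤ) : ZMod (eOf N d)) = (r : ZMod (eOf N d)) := by
    have h2 := congrArg (fun w : (ZMod (eOf N d))ˣ => (w : ZMod (eOf N d))) hu
    simp only [ZMod.unitsMap_val, ZMod.coe_unitOfCoprime] at h2
    rw [Int.cast_natCast, ZMod.natCast_val]
    exact h2
  rw [h1]
  rw [Int.cast_one, ZMod.inv_one, mul_one]
  exact ZMod.val_cast_of_lt hr

theorem card_orbits [NeZero N] :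
    Nat.card (MulAction.orbitRel.Quotient (Subgroup.zpowers ModularGroup.T)
      (SL(2, ℤ) ⧸ Gamma0 N)) = ModularCurve.cuspCount N := by
  have hN : N ≠ 0 := NeZero.ne N
  rw [← card_target, ← Fintype.card_coe, ← Nat.card_eq_fintype_card]
  let rep : MulAction.orbitRel.Quotient (Subgroup.zpowers ModularGroup.T)
      (SL(2, ℤ) ⧸ Gamma0 N) → SL(2, ℤ) := fun q => (Quotient.out q).out
  have hrep : ∀ q, (Quotient.mk _ ((rep q : SL(2, ℤ)) : SL(2, ℤ) ⧸ Gamma0 N) :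
      MulAction.orbitRel.Quotient (Subgroup.zpowers ModularGroup.T) (SL(2, ℤ) ⧸ Gamma0 N)) = q := by
    intro q
    have h1 : ((rep q : SL(2, ℤ)) : SL(2, ℤ) ⧸ Gamma0 N) = Quotient.out q :=
      QuotientGroup.out_eq' _
    rw [h1]; exact Quotient.out_eq q
  refine Nat.card_congr (Equiv.ofBijective (fun q => ⟨F N (rep q), F_mem N hN _⟩) ⟨?_, ?_⟩)
  · intro q₁ q₂ h
    have h' : F N (rep q₁) = F N (rep q₂) := congrArg Subtype.val h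
    rw [F_eq_iff N hN, ← orbitRel_iff] at h'
    rw [← hrep q₁, ← hrep q₂]
    exact Quotient.sound h'
  · rintro ⟨x, hx⟩
    obtain ⟨g, hg⟩ := F_surj N hN x hx
    refine ⟨Quotient.mk _ (g : SL(2, ℤ) ⧸ Gamma0 N), Subtype.ext ?_⟩
    show F N (rep _) = x
    rw [← hg, F_eq_iff N hN, ← orbitRel_iff]
    exact Quotient.exact (hrep _)

end Fermat.Agent.S20.C4
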