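import Fermat.Agent.S20.CuspInverse
import Fermat.Agent.S20.PermDiag

/-! Growth of the determinant of a frame which is regular at `i∞` (INF route). -/

set_option autoImplicit false

open UpperHalfPlane Filter Topology Real
open scoped Manifold

namespace Fermat.Agent.S20

open CuspInverse in
theorem det_growth (hB : Stmt_twistedLimit) (X : Type) [Fintype X] [DecidableEq X]
    (σ : Equiv.Perm X) (Φ : ℍ → Matrix X X ℂ)
    (hΦ : ∀ j, (fun z x => Φ z x j) ∈ VV X σ)
    (hreg : ∀ c : X → ℂ, (∀ x, IsBigOq (fun z => ∑ j, Φ z x j * c j)) → c = 0) :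
    ∃ l : ℂ, l ≠ 0 ∧
      Tendsto (fun z : ℍ => Complex.exp (-(π * Complex.I *
        (((Fintype.card X : ℤ) -
          (Nat.card (MulAction.orbitRel.Quotient (Subgroup.zpowers σ) X) : ℤ) : ℤ) : ℂ) * z))
          * (Φ z).det) atImInfty (𝓝 l) := by
  obtain ⟨B, θ, hBdet, hθ, hBσ, hsum⟩ := PermDiag.strong X σ
  set C := B⁻¹ with hC
  set d : X → ℂ := fun i => Complex.exp (2 * π * Complex.I * θ i) with hd
  have hd0 : ∀ i, d i ≠ 0 := fun i => Complex.exp_ne_zero _
  have hCσ : ∀ i y, C i y = d i * C i (σ y) := inv_apply_perm hd0 hBdet hBσ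
  have hBC : B * C = 1 := Matrix.mul_nonsing_inv B hBdet
  have hlim : ∀ (i : X) (v : ℍ → X → ℂ), v ∈ VV X σ → ∃ L : ℂ,
      Tendsto (fun z : ℍ => Complex.exp (-(2 * π * Complex.I * θ i * z)) * coord C i v z)
        atImInfty (𝓝 L) ∧ (L = 0 → IsBigOq (coord C i v)) :=
    fun i v hv => hB (θ i) (hθ i).1 (hθ i).2 _ (coord_mdiff C i hv) (coord_bdd C i hv)
      (coord_twist hCσ i hv)
  let col : X → ℍ → X → ℂ := fun j z x => Φ z x j
  choose Λ hΛ using fun i j => hlim i (col j) (hΦ j)
  have hΛdet : (Matrix.of Λ).det ≠ 0 := by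
    intro h0
    obtain ⟨c, hc0, hc⟩ := Matrix.exists_mulVec_eq_zero_iff.mpr h0
    apply hc0
    apply hreg c
    have hvc : (fun z x => ∑ j, Φ z x j * c j) ∈ VV X σ := by
      have : (fun z x => ∑ j, Φ z x j * c j) = ∑ j, c j • col j := by
        ext z x; simp [col, Finset.sum_apply, mul_comm]
      rw [this]
      exact Submodule.sum_mem _ fun j _ => Submodule.smul_mem _ _ (hΦ j)
    have hcoord : ∀ i z, coord C i (fun z x => ∑ j, Φ z x j * c j) z
        = ∑ j, coord C i (col j) z * c j := by
      intro i z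
      simp only [coord, col, Finset.mul_sum, Finset.sum_mul]
      rw [Finset.sum_comm]
      refine Finset.sum_congr rfl fun j _ => Finset.sum_congr rfl fun x _ => by ring
    have hO : ∀ i, IsBigOq (coord C i (fun z x => ∑ j, Φ z x j * c j)) := by
      intro i
      obtain ⟨L, hL, hL0⟩ := hlim i _ hvc
      apply hL0
      have h2 : Tendsto (fun z : ℍ => Complex.exp (-(2 * π * Complex.I * θ i * z)) *
          coord C i (fun z x => ∑ j, Φ z x j * c j) z) atImInfty (𝓝 (∑ j, Λ i j * c j)) := by
        have := tendsto_finsetSum Finset.univ (fun j _ => ((hΛ i j).1.mul_const (c j)))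
        refine this.congr fun z => ?_
        rw [hcoord, Finset.mul_sum]
        refine Finset.sum_congr rfl fun j _ => by ring
      have h3 : ∑ j, Λ i j * c j = 0 := by
        have := congrFun hc i
        simpa [Matrix.mulVec, dotProduct] using this
      rw [h3] at h2
      exact tendsto_nhds_unique hL h2
    intro x
    have : (fun z => ∑ j, Φ z x j * c j)
        = ∑ i, fun z => B x i * coord C i (fun z x => ∑ j, Φ z x j * c j) z := by
      ext z
      have hw : ∀ w : ℍ → X → ℂ, w z x = ∑ i, B x i * coord C i w z := by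
        intro w
        simp only [coord, Finset.mul_sum]
        rw [Finset.sum_comm]
        have h5 : ∀ y, ∑ i, B x i * (C i y * w z y) = (B * C) x y * w z y := by
          intro y
          rw [Matrix.mul_apply, Finset.sum_mul]
          exact Finset.sum_congr rfl fun i _ => by ring
        simp only [h5, hBC, Matrix.one_apply, ite_mul, one_mul, zero_mul, Finset.sum_ite_eq,
          Finset.mem_univ, if_true]
      rw [Finset.sum_apply]
      exact hw (fun z x => ∑ j, Φ z x j * c j)
    rw [this]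
    exact Asymptotics.IsBigO.sum fun i _ => (hO i).const_mul_left _
  -- second half
  let E : ℍ → X → ℂ := fun z i => Complex.exp (-(2 * π * Complex.I * θ i * z))
  let Φt : ℍ → Matrix X X ℂ := fun z => Matrix.diagonal (E z) * (C * Φ z)
  have hΦt_apply : ∀ z i j, Φt z i j = E z i * coord C i (col j) z := by
    intro z i j
    show (Matrix.diagonal (E z) * (C * Φ z)) i j = _
    rw [Matrix.diagonal_mul, Matrix.mul_apply]
    rfl
  have hΦt_lim : Tendsto Φt atImInfty (𝓝 (Matrix.of Λ)) := by
    refine tendsto_pi_nhds.mpr fun i => tendsto_pi_nhds.mpr fun j => ?_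
    simp only [hΦt_apply]
    exact (hΛ i j).1
  have hdet_lim : Tendsto (fun z => (Φt z).det) atImInfty (𝓝 (Matrix.of Λ).det) :=
    ((Continuous.matrix_det continuous_id).tendsto _).comp hΦt_lim
  have hCdet : B.det * C.det = 1 := by rw [← Matrix.det_mul, hBC, Matrix.det_one]
  refine ⟨B.det * (Matrix.of Λ).det, mul_ne_zero hBdet.ne_zero hΛdet, ?_⟩
  refine (hdet_lim.const_mul B.det).congr fun z => ?_
  simp only [Φt, Matrix.det_mul, Matrix.det_diagonal, E]
  rw [← Complex.exp_sum]
  have hexp : ∑ i, -(2 * (π : ℂ) * Complex.I * θ i * z)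
      = -(π * Complex.I * (((Fintype.card X : ℤ) -
          (Nat.card (MulAction.orbitRel.Quotient (Subgroup.zpowers σ) X) : ℤ) : ℤ) : ℂ) * z) := by
    have h1 : (∑ i, (θ i : ℂ)) = (((Fintype.card X : ℝ) -
        (Nat.card (MulAction.orbitRel.Quotient (Subgroup.zpowers σ) X) : ℝ)) / 2 : ℝ) := by
      rw [← hsum]; push_cast; rfl
    have h2 : ∑ i, -(2 * (π : ℂ) * Complex.I * θ i * z)
        = -(2 * (π : ℂ) * Complex.I * (∑ i, (θ i : ℂ)) * z) := by
      rw [Finset.mul_sum, Finset.sum_mul, Finset.sum_neg_distrib]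
    rw [h2, h1]
    push_cast
    ring
  rw [hexp]
  linear_combination (Complex.exp (-(π * Complex.I * (((Fintype.card X : ℤ) -
          (Nat.card (MulAction.orbitRel.Quotient (Subgroup.zpowers σ) X) : ℤ) : ℤ) : ℂ) * z))
          * (Φ z).det) * hCdet

end Fermat.Agent.S20
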