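import Fermat.Agent.S20.Interface

/-! CORE-DetODE : derivative of a determinant (Jacobi's formula). -/

set_option autoImplicit false

namespace Fermat.Agent.S20

open Matrix

/-- Jacobi's formula: the derivative of a determinant is `trace (adjugate * derivative)`. -/
theorem hasDerivAt_det_adjugate {J : Type*} [Fintype J] [DecidableEq J]
    (Φ : ℂ → Matrix J J ℂ) (Φ' : Matrix J J ℂ) (z : ℂ)
    (h : ∀ i j, HasDerivAt (fun w => Φ w i j) (Φ' i j) z) :
    HasDerivAt (fun w => (Φ w).det) (((Φ z).adjugate * Φ').trace) z := by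
  have h1 : HasDerivAt (fun w => ∑ σ : Equiv.Perm J, ((Equiv.Perm.sign σ : ℤ) : ℂ) *
      ∏ i, Φ w (σ i) i)
      (∑ σ : Equiv.Perm J, ((Equiv.Perm.sign σ : ℤ) : ℂ) *
        ∑ i ∈ Finset.univ, (∏ j ∈ Finset.univ.erase i, Φ z (σ j) j) • Φ' (σ i) i) z := by
    refine HasDerivAt.fun_sum fun σ _ => ?_
    exact (HasDerivAt.fun_finsetProd (u := Finset.univ) (f := fun i w => Φ w (σ i) i)
      (f' := fun i => Φ' (σ i) i) fun i _ => h (σ i) i).const_mul _
  have h2 : (fun w => (Φ w).det) = fun w => ∑ σ : Equiv.Perm J, ((Equiv.Perm.sign σ : ℤ) : ℂ) *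
      ∏ i, Φ w (σ i) i := by
    funext w
    rw [Matrix.det_apply']
  rw [h2]
  convert h1 using 1
  -- trace (adjugate * Φ') = ∑_j det (updateCol j (col j of Φ'))
  have h3 : ((Φ z).adjugate * Φ').trace =
      ∑ j, ((Φ z).updateCol j (fun i => Φ' i j)).det := by
    rw [Matrix.trace]
    refine Finset.sum_congr rfl fun j _ => ?_
    rw [← Matrix.cramer_apply, Matrix.cramer_eq_adjugate_mulVec]
    rfl
  rw [h3]
  simp_rw [Matrix.det_apply', Finset.mul_sum]
  rw [Finset.sum_comm]
  refine Finset.sum_congr rfl fun σ _ => Finset.sum_congr rfl fun j _ => ?_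
  congr 1
  rw [← Finset.prod_erase_mul Finset.univ _ (Finset.mem_univ j), smul_eq_mul]
  congr 1
  · refine Finset.prod_congr rfl fun i hi => ?_
    rw [Matrix.updateCol_apply, if_neg (Finset.ne_of_mem_erase hi)]
  · rw [Matrix.updateCol_apply, if_pos rfl]

theorem hasDerivAt_det : Stmt_hasDerivAt_det := by
  intro J _ _ Φ Φ' B z h hB
  have := hasDerivAt_det_adjugate Φ Φ' z h
  rw [hB, ← Matrix.mul_assoc, Matrix.adjugate_mul, Matrix.smul_mul, Matrix.one_mul,
    Matrix.trace_smul, smul_eq_mul, mul_comm] at this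
  exact this

end Fermat.Agent.S20
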