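import Fermat.Agent.S20.Interface

/-! CORE-InfB: a `1`-periodic holomorphic function `g` on `ℍ` with `g q → 0` has a limit at `i∞`. -/

set_option autoImplicit false

open UpperHalfPlane ModularForm Matrix.SpecialLinearGroup CongruenceSubgroup Filter Topology
open scoped MatrixGroups Manifold ModularForm Real

namespace Fermat.Agent.S20

noncomputable section

namespace InfB

/-- Periodicity on `ℍ` gives periodicity of the extension to `ℂ`. -/
theorem periodic_comp_ofComplex_of_vadd {F : ℍ → ℂ} (h : ∀ z : ℍ, F ((1 : ℝ) +ᵥ z) = F z) :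
    Function.Periodic (F ∘ ofComplex) ((1 : ℝ) : ℂ) := by
  intro w
  by_cases! hw : 0 < Complex.im w
  · have hw' : 0 < Complex.im (w + ((1 : ℝ) : ℂ)) := by simpa using hw
    simp only [Function.comp_apply, ofComplex_apply_of_im_pos hw', ofComplex_apply_of_im_pos hw]
    rw [← h ⟨w, hw⟩]
    congr 1
    ext
    simp [add_comm]
  · have hw' : Complex.im (w + ((1 : ℝ) : ℂ)) ≤ 0 := by simpa using hw
    simp only [Function.comp_apply]
    rw [ofComplex_apply_of_im_nonpos hw', ofComplex_apply_of_im_nonpos hw]

/-- A function on `ℍ` that is the restriction of an entire function is holomorphic. -/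
theorem mdiff_of_differentiable {F : ℂ → ℂ} (hF : Differentiable ℂ F) :
    MDiff (fun z : ℍ => F z) := by
  rw [UpperHalfPlane.mdifferentiable_iff]
  refine hF.differentiableOn.congr fun z hz => ?_
  simp [Function.comp_apply, ofComplex_apply_of_im_pos hz]

theorem tendsto_exp_neg_im_atImInfty :
    Tendsto (fun τ : ℍ => Real.exp (-2 * π * τ.im / 1)) atImInfty (𝓝 0) := by
  have := (qParam_tendsto_atImInfty (h := 1) one_pos).norm
  simpa [Function.Periodic.norm_qParam] using this

end InfB

open InfB in
theorem periodic_limit : Stmt_periodic_limit := by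
  intro g hg hper hlim
  set G : ℍ → ℂ := fun z => g z * Complex.exp (2 * π * Complex.I * z) with hG
  have hGper : Function.Periodic (G ∘ ofComplex) ((1 : ℝ) : ℂ) := by
    refine periodic_comp_ofComplex_of_vadd fun z => ?_
    simp only [hG, hper z]
    congr 1
    rw [UpperHalfPlane.coe_vadd]
    push_cast
    rw [mul_add, mul_one, Complex.exp_add, Complex.exp_two_pi_mul_I, one_mul]
  have hGhol : MDiff G :=
    hg.mul (mdiff_of_differentiable (F := fun z => Complex.exp (2 * π * Complex.I * z))
      (by fun_prop))
  have hGzero : IsZeroAtImInfty G := hlim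
  have hGdecay := hGzero.exp_decay_atImInfty one_pos hGper hGhol hGzero.boundedAtFilter
  have hgper : Function.Periodic (g ∘ ofComplex) ((1 : ℝ) : ℂ) :=
    periodic_comp_ofComplex_of_vadd hper
  have hgbdd : IsBoundedAtImInfty g := by
    have h2 : (fun z : ℍ => Complex.exp (-(2 * π * Complex.I * z))) =O[atImInfty]
        fun z : ℍ => Real.exp (2 * π * z.im) := by
      refine Asymptotics.isBigO_of_le _ fun z => ?_
      rw [Complex.norm_exp, Real.norm_eq_abs, Real.abs_exp]
      simp
    have h3 := hGdecay.mul h2
    refine (h3.congr (fun z => ?_) (fun z => ?_))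
    · simp only [hG]
      rw [mul_assoc, ← Complex.exp_add]
      simp
    · rw [← Real.exp_add]
      simp
  have hdecay := exp_decay_sub_atImInfty one_pos hgper hg hgbdd
  refine ⟨valueAtInfty g, ?_, ?_⟩
  · have h0 := hdecay.trans_tendsto tendsto_exp_neg_im_atImInfty
    have := h0.add_const (valueAtInfty g)
    simpa using this
  · intro hl
    rw [hl] at hdecay
    simpa using hdecay

end

end Fermat.Agent.S20
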