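import Mathlib

set_option autoImplicit false

open UpperHalfPlane Filter Topology Real
open scoped Manifold

namespace Fermat.Agent.S20

/-- Vector valued functions on `ℍ`: holomorphic, bounded at `i∞`, and `σ`-equivariant under
`z ↦ z + 1`. -/
def VV (X : Type) (σ : Equiv.Perm X) : Submodule ℂ (ℍ → X → ℂ) where
  carrier := {v | (∀ x, MDiff (fun z => v z x)) ∧ (∀ x, IsBoundedAtImInfty (fun z => v z x)) ∧
    ∀ z x, v ((1 : ℝ) +ᵥ z) x = v z (σ x)}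
  zero_mem' := by
    refine ⟨fun x => ?_, fun x => ?_, fun z x => rfl⟩
    · exact mdifferentiable_const
    · exact Filter.const_boundedAtFilter _ (0 : ℂ)
  add_mem' := by
    rintro v w ⟨hv1, hv2, hv3⟩ ⟨hw1, hw2, hw3⟩
    refine ⟨fun x => (hv1 x).add (hw1 x), fun x => (hv2 x).add (hw2 x), fun z x => ?_⟩
    simp only [Pi.add_apply, hv3, hw3]
  smul_mem' := by
    rintro c v ⟨hv1, hv2, hv3⟩
    refine ⟨fun x => ?_, fun x => ?_, fun z x => ?_⟩
    · exact (mdifferentiable_const (c := c)).mul (hv1 x)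
    · exact (Filter.const_boundedAtFilter _ c).mul (hv2 x)
    · simp only [Pi.smul_apply, hv3]

/-- `f = O(q)` at `i∞`. -/
def IsBigOq (f : ℍ → ℂ) : Prop :=
  f =O[atImInfty] fun z : ℍ => Real.exp (-2 * π * z.im)

/-- INF-A: the permutation operator `v ↦ v ∘ σ` is diagonalisable with eigenvalues
`e(θ)`, `0 ≤ θ < 1`. -/
def Stmt_permDiag : Prop :=
  ∀ (X : Type) [Fintype X] [DecidableEq X] (σ : Equiv.Perm X),
    ∃ (B : Matrix X X ℂ) (θ : X → ℝ), IsUnit B.det ∧ (∀ i, 0 ≤ θ i ∧ θ i < 1) ∧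
      ∀ x i, B (σ x) i = Complex.exp (2 * π * Complex.I * θ i) * B x i

/-- INF-B: scalar lemma. -/
def Stmt_twistedLimit : Prop :=
  ∀ (θ : ℝ), 0 ≤ θ → θ < 1 → ∀ (c : ℍ → ℂ), MDiff c → IsBoundedAtImInfty c →
    (∀ z : ℍ, c ((1 : ℝ) +ᵥ z) = Complex.exp (2 * π * Complex.I * θ) * c z) →
    ∃ L : ℂ,
      Tendsto (fun z : ℍ => Complex.exp (-(2 * π * Complex.I * θ * z)) * c z) atImInfty (𝓝 L) ∧
      (L = 0 → IsBigOq c)

/-- INF-1: leading term map. -/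
def Stmt_leadingTerm : Prop :=
  ∀ (X : Type) [Fintype X] [DecidableEq X] (σ : Equiv.Perm X),
    ∃ lam : VV X σ →ₗ[ℂ] (X → ℂ),
      ∀ v : VV X σ, lam v = 0 → ∀ x, IsBigOq (fun z => (v : ℍ → X → ℂ) z x)

/-- INF-2: the inverse of a frame which is regular at `i∞` grows slower than `1/q`. -/
def Stmt_cuspInverse : Prop :=
  ∀ (X : Type) [Fintype X] [DecidableEq X] (σ : Equiv.Perm X) (Φ : ℍ → Matrix X X ℂ),
    (∀ j, (fun z x => Φ z x j) ∈ VV X σ) →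
    (∀ z, (Φ z).det ≠ 0) →
    (∀ c : X → ℂ, (∀ x, IsBigOq (fun z => ∑ j, Φ z x j * c j)) → c = 0) →
    ∀ j x, IsZeroAtImInfty (fun z : ℍ => Complex.exp (2 * π * Complex.I * z) * (Φ z)⁻¹ j x)

end Fermat.Agent.S20
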