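import Fermat.Agent.S20.Basic
import Fermat.Agent.S20.InfInterface
import Fermat.Prelude.Def_ModularCurve_GenusNumerics

/-! INTERFACE (work packages) for the CORE of S20/S21.  Each `Stmt_X : Prop` is a work package:
prove `theorem X : Stmt_X` (unfold it) in the file named in the task. -/

set_option autoImplicit false

open UpperHalfPlane ModularForm Matrix.SpecialLinearGroup CongruenceSubgroup Filter Topology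
open scoped MatrixGroups Manifold ModularForm Real

namespace Fermat.Agent.S20

noncomputable section

local notation "Δ" => ModularForm.discriminant
local notation "E4" => (ModularForm.E₄ : ℍ → ℂ)
local notation "E6" => (ModularForm.E₆ : ℍ → ℂ)

/-! ## COMB : combinatorics of `SL(2,ℤ) ⧸ Γ₀(N) = ℙ¹(ℤ/N)` -/

def Stmt_comb_index : Prop :=
  ∀ (N : ℕ) [NeZero N], (Gamma0 N).index = ModularCurve.dedekindPsi N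

def Stmt_comb_orbits_T : Prop :=
  ∀ (N : ℕ) [NeZero N],
    Nat.card (MulAction.orbitRel.Quotient (Subgroup.zpowers ModularGroup.T)
      (SL(2, ℤ) ⧸ Gamma0 N)) = ModularCurve.cuspCount N

/-- orbits of the group element `g` = orbits of the permutation `toPerm g⁻¹`. -/
def Stmt_comb_bridge : Prop :=
  ∀ (G X : Type) [Group G] [MulAction G X] (g : G),
    Nat.card (MulAction.orbitRel.Quotient (Subgroup.zpowers (MulAction.toPerm g⁻¹ : Equiv.Perm X)) X)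
      = Nat.card (MulAction.orbitRel.Quotient (Subgroup.zpowers g) X)

/-! ## CORE-InfA : discrete Fourier transform at infinity (abstract) -/

/-- The key property of the matrix `E` w.r.t. the permutation `σ`. -/
def EProp {Q : Type} [Fintype Q] (σ : Equiv.Perm Q) (E : ℍ → Matrix Q Q ℂ) : Prop :=
  ∀ φ : Q → ℍ → ℂ, (∀ q, MDiff (φ q)) → (∀ q, IsBoundedAtImInfty (φ q)) →
    (∀ q z, φ q ((1 : ℝ) +ᵥ z) = φ (σ q) z) →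
    ∃ L : Q → ℂ, Tendsto (fun z : ℍ => (E z).mulVec (fun q => φ q z)) atImInfty (𝓝 L) ∧
      (L = 0 → ∀ q, φ q =O[atImInfty] fun z : ℍ => Real.exp (-2 * π * z.im))

def Stmt_exists_Emat : Prop :=
  ∀ (Q : Type) [Fintype Q] [DecidableEq Q] (σ : Equiv.Perm Q),
    ∃ (E : ℍ → Matrix Q Q ℂ) (c₀ : ℂ), c₀ ≠ 0 ∧
      (∀ q q', Tendsto (fun z : ℍ => Complex.exp (2 * π * Complex.I * z) * E z q q')
        atImInfty (𝓝 0)) ∧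
      (∀ z : ℍ, (E z).det = c₀ * Complex.exp (-(π * Complex.I *
        ((Fintype.card Q : ℂ) - (Nat.card (MulAction.orbitRel.Quotient (Subgroup.zpowers σ) Q) : ℂ))
          * z))) ∧
      EProp σ E

/-! ## CORE-Serre -/

def Stmt_serre : Prop :=
  ∀ (Γ : Subgroup SL(2, ℤ)) (k : ℤ) (f : ℍ → ℂ), IsMF Γ k f →
    IsMF Γ (k + 2) (Derivative.serreDerivative (k : ℂ) f)

def Stmt_D_discriminant : Prop :=
  Derivative.normalizedDerivOfComplex Δ = EisensteinSeries.E2 * Δ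

/-! ## CORE-DetODE (abstract) -/

def Stmt_hasDerivAt_det : Prop :=
  ∀ (J : Type) [Fintype J] [DecidableEq J]
    (Φ : ℂ → Matrix J J ℂ) (Φ' B : Matrix J J ℂ) (z : ℂ),
    (∀ i j, HasDerivAt (fun w => Φ w i j) (Φ' i j) z) → Φ' = Φ z * B →
    HasDerivAt (fun w => (Φ w).det) (B.trace * (Φ z).det) z

/-! ## CORE-Ell : traces at elliptic points -/

def Stmt_card_fixedBy : Prop :=
  ∀ (Γ : Subgroup SL(2, ℤ)) [Γ.FiniteIndex] [Fintype (SL(2, ℤ) ⧸ Γ)] [DecidableEq (SL(2, ℤ) ⧸ Γ)]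
    (k : SL(2, ℤ) ⧸ Γ → ℤ) (F : SL(2, ℤ) ⧸ Γ → ℍ → ℂ), (∀ j, ∀ γ ∈ Γ, F j ∣[k j] γ = F j) →
    ∀ (g : SL(2, ℤ)) (z₀ : ℍ), g • z₀ = z₀ → (Phi Γ k F z₀).det ≠ 0 →
    (Nat.card (MulAction.fixedBy (SL(2, ℤ) ⧸ Γ) g) : ℂ) = ∑ j, denom g z₀ ^ (k j)

/-! ## CORE-Dual : the dual family consists of cusp forms -/

/-- DualA: `Δ · (Φ⁻¹)_{j,q₀}` is a cusp form of weight `12 - k_j`, with translates
`Δ · (Φ⁻¹)_{j,q}`. -/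
def Stmt_dual_isCF : Prop :=
  ∀ (Γ : Subgroup SL(2, ℤ)) [Γ.FiniteIndex] [Fintype (SL(2, ℤ) ⧸ Γ)] [DecidableEq (SL(2, ℤ) ⧸ Γ)]
    (k : SL(2, ℤ) ⧸ Γ → ℤ) (F : SL(2, ℤ) ⧸ Γ → ℍ → ℂ), (∀ j, IsMF Γ (k j) (F j)) →
    (∀ z, (Phi Γ k F z).det ≠ 0) →
    (∀ j q, Tendsto (fun z : ℍ => Δ z * (Phi Γ k F z)⁻¹ j q) atImInfty (𝓝 0)) →
    ∀ j, IsCF Γ (12 - k j) (fun z => Δ z * (Phi Γ k F z)⁻¹ j ((1 : SL(2, ℤ)) : SL(2, ℤ) ⧸ Γ)) ∧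
      ∀ q, tr (12 - k j) (fun z => Δ z * (Phi Γ k F z)⁻¹ j ((1 : SL(2, ℤ)) : SL(2, ℤ) ⧸ Γ)) q
        = fun z => Δ z * (Phi Γ k F z)⁻¹ j q

/-- DualB -/
def Stmt_dual_weight_lt : Prop :=
  ∀ (Γ : Subgroup SL(2, ℤ)) [Γ.FiniteIndex] [Fintype (SL(2, ℤ) ⧸ Γ)] [DecidableEq (SL(2, ℤ) ⧸ Γ)]
    (k : SL(2, ℤ) ⧸ Γ → ℤ) (F : SL(2, ℤ) ⧸ Γ → ℍ → ℂ), (∀ j, IsMF Γ (k j) (F j)) →
    (∀ z, (Phi Γ k F z).det ≠ 0) →
    (∀ j q, Tendsto (fun z : ℍ => Δ z * (Phi Γ k F z)⁻¹ j q) atImInfty (𝓝 0)) →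
    ∀ j, k j < 12

/-- DualC -/
def Stmt_dual_finrank : Prop :=
  ∀ (Γ : Subgroup SL(2, ℤ)) [Γ.FiniteIndex] [Fintype (SL(2, ℤ) ⧸ Γ)] [DecidableEq (SL(2, ℤ) ⧸ Γ)]
    (k : SL(2, ℤ) ⧸ Γ → ℤ) (F : SL(2, ℤ) ⧸ Γ → ℍ → ℂ), (∀ j, IsMF Γ (k j) (F j)) →
    (∀ z, (Phi Γ k F z).det ≠ 0) →
    (∀ j q, Tendsto (fun z : ℍ => Δ z * (Phi Γ k F z)⁻¹ j q) atImInfty (𝓝 0)) →
    (∀ j, k j ≤ 10) →
    Module.finrank ℂ (Sf Γ 2) = (Finset.univ.filter fun j => k j = 10).card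

/-! ## CORE-E : a form on `Γ₀(N)` whose stabiliser is exactly `Γ₀(N)`; separation of translates -/

def Stmt_exists_form_stabilizer : Prop :=
  ∀ (N : ℕ) [NeZero N],
    ∃ (w : ℤ) (g : ℍ → ℂ), IsMF (Gamma0 N) w g ∧ ∀ γ : SL(2, ℤ), g ∣[w] γ = g → γ ∈ Gamma0 N

def Stmt_exists_injective_tr : Prop :=
  ∀ (Γ : Subgroup SL(2, ℤ)) [Γ.FiniteIndex] (w : ℤ) (g : ℍ → ℂ), IsMF Γ w g →
    (∀ γ : SL(2, ℤ), g ∣[w] γ = g → γ ∈ Γ) →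
    ∃ z₀ : ℍ, Function.Injective fun q : SL(2, ℤ) ⧸ Γ => tr w g q z₀

/-! ## CORE-L1 : level one facts -/

def Stmt_tendsto_E4 : Prop := Tendsto E4 atImInfty (𝓝 1)
def Stmt_tendsto_E6 : Prop := Tendsto E6 atImInfty (𝓝 1)

def Stmt_levelOne_weight_two : Prop := ∀ f : ℍ → ℂ, IsMF ⊤ 2 f → f = 0

def Stmt_levelOne_gen : Prop :=
  ∀ (s : ℤ) (A : ℍ → ℂ), s ≠ 0 → IsMF ⊤ s A →
    ∃ a b : ℍ → ℂ, IsMF ⊤ (s - 4) a ∧ IsMF ⊤ (s - 6) b ∧ A = E4 * a + E6 * b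

def Stmt_levelOne_monomial : Prop :=
  ∀ s : ℤ, 4 ≤ s → Even s → ∃ A : ℍ → ℂ, IsMF ⊤ s A ∧ Tendsto A atImInfty (𝓝 1) ∧
    IsBigOq (fun z => A z - 1)

def Stmt_levelOne_cusp_lt : Prop := ∀ (s : ℤ) (f : ℍ → ℂ), s < 12 → IsCF ⊤ s f → f = 0

def Stmt_levelOne_cusp_twelve : Prop := ∀ f : ℍ → ℂ, IsCF ⊤ 12 f → ∃ c : ℂ, f = c • Δ

def Stmt_odd_weight : Prop :=
  ∀ (Γ : Subgroup SL(2, ℤ)) (k : ℤ) (f : ℍ → ℂ), -1 ∈ Γ → Odd k → IsMF Γ k f → f = 0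

def Stmt_cusp_nonpos : Prop :=
  ∀ (Γ : Subgroup SL(2, ℤ)) [Γ.FiniteIndex] (k : ℤ) (f : ℍ → ℂ), k ≤ 0 → IsCF Γ k f → f = 0

/-! ## CORE-Div : division lemmas -/

def Stmt_div_discriminant : Prop :=
  ∀ (Γ : Subgroup SL(2, ℤ)) (w : ℤ) (n : ℍ → ℂ), IsMF Γ w n →
    (∀ γ : SL(2, ℤ), (n ∣[w] γ) =O[atImInfty] fun z : ℍ => Real.exp (-2 * π * z.im)) →
    IsMF Γ (w - 12) (n / Δ)

def Stmt_coprime : Prop :=
  ∀ (Γ : Subgroup SL(2, ℤ)) (w : ℤ) (a b : ℍ → ℂ), IsMF Γ (w - 4) a → IsMF Γ (w - 6) b →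
    E4 * a = E6 * b → ∃ c : ℍ → ℂ, IsMF Γ (w - 10) c ∧ a = E6 * c ∧ b = E4 * c

/-! ## CORE-FB : existence of a free basis -/

def Stmt_exists_freeBasis : Prop :=
  ∀ (Γ : Subgroup SL(2, ℤ)) [Γ.FiniteIndex],
    ∃ (J : Type) (k : J → ℤ) (F : J → ℍ → ℂ), IsFreeBasis Γ k F

/-- exactly one generator of weight zero; all weights are nonnegative -/
def Stmt_freeBasis_weight_zero : Prop :=
  ∀ (Γ : Subgroup SL(2, ℤ)) [Γ.FiniteIndex] (J : Type) [Fintype J] (k : J → ℤ) (F : J → ℍ → ℂ),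
    IsFreeBasis Γ k F → (∀ j, 0 ≤ k j) ∧ (Finset.univ.filter fun j => k j = 0).card = 1

def Stmt_freeBasis_even : Prop :=
  ∀ (Γ : Subgroup SL(2, ℤ)) (J : Type) (k : J → ℤ) (F : J → ℍ → ℂ), -1 ∈ Γ →
    IsFreeBasis Γ k F → ∀ j, Even (k j)

/-! ## CORE-Reg : a free basis is regular at infinity -/

def Stmt_regular : Prop :=
  ∀ (Γ : Subgroup SL(2, ℤ)) [Γ.FiniteIndex] (J : Type) (k : J → ℤ) (F : J → ℍ → ℂ),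
    IsFreeBasis Γ k F → (∀ j, Even (k j)) →
    ∀ c : J →₀ ℂ,
      (∀ q : SL(2, ℤ) ⧸ Γ, IsBigOq (fun z => c.sum fun j a => a * tr (k j) (F j) q z)) → c = 0

/-! ## CORE-Rank -/

def Stmt_rank : Prop :=
  ∀ (Γ : Subgroup SL(2, ℤ)) [Γ.FiniteIndex] [Fintype (SL(2, ℤ) ⧸ Γ)] [DecidableEq (SL(2, ℤ) ⧸ Γ)]
    (J : Type) [Fintype J] (k : J → ℤ) (F : J → ℍ → ℂ), IsFreeBasis Γ k F →
    ∀ (w : ℤ) (g : ℍ → ℂ) (z₀ : ℍ), IsMF Γ w g →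
      (Function.Injective fun q : SL(2, ℤ) ⧸ Γ => tr w g q z₀) →
      ∃ A : Matrix J (SL(2, ℤ) ⧸ Γ) ℂ, (Phi Γ k F z₀ * A).det ≠ 0

/-! ## CORE-NV : the determinant of a free basis satisfies `W ^ 12 = C Δ ^ K` -/

def Stmt_nonvanishing : Prop :=
  ∀ (Γ : Subgroup SL(2, ℤ)) [Γ.FiniteIndex] [Fintype (SL(2, ℤ) ⧸ Γ)] [DecidableEq (SL(2, ℤ) ⧸ Γ)]
    (k : SL(2, ℤ) ⧸ Γ → ℤ) (F : SL(2, ℤ) ⧸ Γ → ℍ → ℂ), IsFreeBasis Γ k F →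
    ∃ C : ℂ, ∀ z : ℍ, (Phi Γ k F z).det ^ 12 = C * Δ z ^ (∑ j, k j)

/-! ## CORE-Gr : growth at infinity (abstract) -/

def Stmt_growth_weight : Prop :=
  ∀ (W : ℍ → ℂ) (C l : ℂ) (K m : ℤ), C ≠ 0 → l ≠ 0 → (∀ z, W z ^ 12 = C * Δ z ^ K) →
    Tendsto (fun z : ℍ => Complex.exp (-(π * Complex.I * m * z)) * W z) atImInfty (𝓝 l) →
    K = 6 * m

def Stmt_growth_inverse : Prop :=
  ∀ (Q : Type) [Fintype Q] [DecidableEq Q] (Φ E : ℍ → Matrix Q Q ℂ) (Λ : Matrix Q Q ℂ),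
    (∀ z, (E z).det ≠ 0) → (∀ z, (Φ z).det ≠ 0) →
    (∀ q q', Tendsto (fun z : ℍ => Complex.exp (2 * π * Complex.I * z) * E z q q')
      atImInfty (𝓝 0)) →
    Tendsto (fun z => E z * Φ z) atImInfty (𝓝 Λ) → Λ.det ≠ 0 →
    ∀ j q, Tendsto (fun z : ℍ => Δ z * (Φ z)⁻¹ j q) atImInfty (𝓝 0)

end

end Fermat.Agent.S20
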