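import Fermat.Agent.S20.Interface
import Fermat.Agent.S20.InfInterface

/-! Additional work packages glueing the free basis to the analysis at infinity (route I),
and the common structure theorem. -/

set_option autoImplicit false

open UpperHalfPlane ModularForm Matrix.SpecialLinearGroup CongruenceSubgroup Filter Topology
open scoped MatrixGroups Manifold ModularForm Real

namespace Fermat.Agent.S20

noncomputable section

local notation "Δ" => ModularForm.discriminant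

/-- CORE-Rinf: no nontrivial constant combination of a free basis is `O(q)` at all cusps. -/
def Stmt_Rinf : Prop :=
  ∀ (Γ : Subgroup SL(2, ℤ)) [Γ.FiniteIndex] (J : Type) (k : J → ℤ) (F : J → ℍ → ℂ),
    IsFreeBasis Γ k F → (∀ j, Even (k j)) →
    ∀ c : J →₀ ℂ,
      (∀ q : SL(2, ℤ) ⧸ Γ, IsBigOq (fun z => c.sum fun j a => a * tr (k j) (F j) q z)) → c = 0

/-- CORE-CardLe -/
def Stmt_card_le : Prop :=
  ∀ (Γ : Subgroup SL(2, ℤ)) [Γ.FiniteIndex] (J : Type) (k : J → ℤ) (F : J → ℍ → ℂ),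
    IsFreeBasis Γ k F → (∀ j, Even (k j)) →
    Finite J ∧ Nat.card J ≤ Nat.card (SL(2, ℤ) ⧸ Γ)

/-- CORE-DualTendsto -/
def Stmt_dual_tendsto : Prop :=
  ∀ (Γ : Subgroup SL(2, ℤ)) [Γ.FiniteIndex] [Fintype (SL(2, ℤ) ⧸ Γ)] [DecidableEq (SL(2, ℤ) ⧸ Γ)]
    (k : SL(2, ℤ) ⧸ Γ → ℤ) (F : SL(2, ℤ) ⧸ Γ → ℍ → ℂ), IsFreeBasis Γ k F → (∀ j, Even (k j)) →
    (∀ z, (Phi Γ k F z).det ≠ 0) →
    ∀ j q, Tendsto (fun z : ℍ => Δ z * (Phi Γ k F z)⁻¹ j q) atImInfty (𝓝 0)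

/-- The common structure theorem. -/
def Stmt_structure : Prop :=
  ∀ (N : ℕ) [NeZero N] [Fintype (SL(2, ℤ) ⧸ Gamma0 N)] [DecidableEq (SL(2, ℤ) ⧸ Gamma0 N)],
    ∃ (k : SL(2, ℤ) ⧸ Gamma0 N → ℤ) (F : SL(2, ℤ) ⧸ Gamma0 N → ℍ → ℂ),
      IsFreeBasis (Gamma0 N) k F ∧ (∀ z, (Phi (Gamma0 N) k F z).det ≠ 0) ∧
      ∀ j q, Tendsto (fun z : ℍ => Δ z * (Phi (Gamma0 N) k F z)⁻¹ j q) atImInfty (𝓝 0)

end

end Fermat.Agent.S20
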