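import Fermat.Agent.S20.Interface2

/-! The common structure theorem, assembled from the work packages. -/

set_option autoImplicit false

open UpperHalfPlane ModularForm Matrix.SpecialLinearGroup CongruenceSubgroup Filter Topology
open scoped MatrixGroups Manifold ModularForm Real

namespace Fermat.Agent.S20

noncomputable section

local notation "Δ" => ModularForm.discriminant

theorem IsFreeBasis.reindexS21 {Γ : Subgroup SL(2, ℤ)} {J J' : Type} {k : J → ℤ} {F : J → ℍ → ℂ}
    (h : IsFreeBasis Γ k F) (e : J' ≃ J) : IsFreeBasis Γ (k ∘ e) (F ∘ e) where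
  isMF j := h.isMF (e j)
  gen w f hf := by
    obtain ⟨A, hA, hsum⟩ := h.gen w f hf
    refine ⟨Finsupp.equivMapDomain e.symm A, fun j => ?_, ?_⟩
    · simpa [Finsupp.equivMapDomain_apply] using hA (e j)
    · rw [Finsupp.sum_equivMapDomain]
      simpa using hsum
  indep w A hA hsum := by
    have h0 : Finsupp.equivMapDomain e A = 0 := by
      apply h.indep w
      · intro j
        have := hA (e.symm j)
        simpa [Finsupp.equivMapDomain_apply] using this
      · rw [Finsupp.sum_equivMapDomain]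
        simpa using hsum
    ext j : 1
    have := DFunLike.congr_fun h0 (e j)
    simpa [Finsupp.equivMapDomain_apply] using this

theorem neg_one_mem_Gamma0_S21 (N : ℕ) : (-1 : SL(2, ℤ)) ∈ Gamma0 N := by
  rw [Gamma0_mem]
  simp

theorem structure_thm (hFB : Stmt_exists_freeBasis) (hEven : Stmt_freeBasis_even)
    (hCard : Stmt_card_le) (hStab : Stmt_exists_form_stabilizer) (hSep : Stmt_exists_injective_tr)
    (hRank : Stmt_rank) (hNV : Stmt_nonvanishing) (hDT : Stmt_dual_tendsto) : Stmt_structure := by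
  intro N _ _ _
  obtain ⟨J, k, F, hB⟩ := hFB (Gamma0 N)
  have hev : ∀ j, Even (k j) := hEven (Gamma0 N) J k F (neg_one_mem_Gamma0_S21 N) hB
  obtain ⟨hfin, hle⟩ := hCard (Gamma0 N) J k F hB hev
  let _ : Fintype J := Fintype.ofFinite J
  obtain ⟨w, g, hg, hstab⟩ := hStab N
  obtain ⟨z₀, hz₀⟩ := hSep (Gamma0 N) w g hg hstab
  obtain ⟨A, hA⟩ := hRank (Gamma0 N) J k F hB w g z₀ hg hz₀
  have hge : Fintype.card (SL(2, ℤ) ⧸ Gamma0 N) ≤ Fintype.card J := by
    have h1 : (Phi (Gamma0 N) k F z₀ * A).rank = Fintype.card (SL(2, ℤ) ⧸ Gamma0 N) :=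
      Matrix.rank_of_isUnit _ ((Matrix.isUnit_iff_isUnit_det _).mpr (isUnit_iff_ne_zero.mpr hA))
    have h2 : (Phi (Gamma0 N) k F z₀ * A).rank ≤ (Phi (Gamma0 N) k F z₀).rank :=
      Matrix.rank_mul_le_left _ _
    have h3 : (Phi (Gamma0 N) k F z₀).rank ≤ Fintype.card J := Matrix.rank_le_card_width _
    omega
  have hcard : Fintype.card (SL(2, ℤ) ⧸ Gamma0 N) = Fintype.card J := by
    rw [Nat.card_eq_fintype_card, Nat.card_eq_fintype_card] at hle
    omega
  let e : (SL(2, ℤ) ⧸ Gamma0 N) ≃ J := Fintype.equivOfCardEq hcard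
  have hB' : IsFreeBasis (Gamma0 N) (k ∘ e) (F ∘ e) := hB.reindexS21 e
  have hev' : ∀ j, Even ((k ∘ e) j) := fun j => hev (e j)
  have hPhi : ∀ z, Phi (Gamma0 N) (k ∘ e) (F ∘ e) z = (Phi (Gamma0 N) k F z).submatrix id e := by
    intro z; ext q j; rfl
  have hdet0 : (Phi (Gamma0 N) (k ∘ e) (F ∘ e) z₀).det ≠ 0 := by
    intro h0
    apply hA
    have : Phi (Gamma0 N) k F z₀ * A
        = (Phi (Gamma0 N) k F z₀).submatrix id e * A.submatrix e id := by
      rw [Matrix.submatrix_mul_equiv]; simp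
    rw [this, Matrix.det_mul, ← hPhi, h0, zero_mul]
  obtain ⟨C, hC⟩ := hNV (Gamma0 N) (k ∘ e) (F ∘ e) hB'
  have hC0 : C ≠ 0 := by
    rintro rfl
    have := hC z₀
    rw [zero_mul] at this
    exact hdet0 (pow_eq_zero_iff (by norm_num) |>.mp this)
  have hdet : ∀ z, (Phi (Gamma0 N) (k ∘ e) (F ∘ e) z).det ≠ 0 := by
    intro z h0
    have := hC z
    rw [h0, zero_pow (by norm_num)] at this
    exact mul_ne_zero hC0 (zpow_ne_zero _ (discriminant_ne_zero z)) this.symm
  exact ⟨k ∘ e, F ∘ e, hB', hdet, hDT (Gamma0 N) (k ∘ e) (F ∘ e) hB' hev' hdet⟩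

end

end Fermat.Agent.S20
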